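import Mathlib

/-!
# S05 (project L): abstract Legendre coordinates

`LegData K G e₁ e₂` axiomatises an abelian group `G` that "is" the group of points of
`Y² = X (X - e₁) (X - e₂)` over the field `K`: coordinate functions `X Y : G → K` (junk at `0`),
the chord and tangent formulas, and existence of points.  Everything in the local analysis at an
odd prime is pure algebra on top of this structure.

This file also contains the exact chord identities (`Phi1`, `Phi2`, `Phi3`) on which the whole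
project rests.  They hold uniformly for the chord (`X P ≠ X Q`) and the tangent (`P = Q`,
`Y P ≠ 0`) case, packaged in the predicate `Gen P Q` ("`P + Q` is given by the secant/tangent
construction"), with slope `lam P Q` and intercept `nu P Q`.
-/

set_option autoImplicit false
set_option linter.unusedSectionVars false

namespace Fermat.Agent.S05

/-- Abstract Legendre coordinates on an abelian group. -/
structure LegData (K : Type*) [Field K] (G : Type*) [AddCommGroup G] (e₁ e₂ : K) where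
  X : G → K
  Y : G → K
  eqn : ∀ P, P ≠ 0 → Y P ^ 2 = X P * (X P - e₁) * (X P - e₂)
  ext : ∀ P Q, P ≠ 0 → Q ≠ 0 → X P = X Q → Y P = Y Q → P = Q
  X_neg : ∀ P, P ≠ 0 → X (-P) = X P
  Y_neg : ∀ P, P ≠ 0 → Y (-P) = -Y P
  add_ne : ∀ P Q, P ≠ 0 → Q ≠ 0 → X P ≠ X Q → P + Q ≠ 0
  add_X : ∀ P Q, P ≠ 0 → Q ≠ 0 → X P ≠ X Q →
    X (P + Q) = ((Y Q - Y P) / (X Q - X P)) ^ 2 + (e₁ + e₂) - X P - X Q
  add_Y : ∀ P Q, P ≠ 0 → Q ≠ 0 → X P ≠ X Q →
    Y (P + Q) = -(((Y Q - Y P) / (X Q - X P)) * (X (P + Q) - X P) + Y P)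
  two_of_Y : ∀ P, P ≠ 0 → Y P = 0 → P + P = 0
  dbl_ne : ∀ P, P ≠ 0 → Y P ≠ 0 → P + P ≠ 0
  dbl_X : ∀ P, P ≠ 0 → Y P ≠ 0 →
    X (P + P) = ((3 * X P ^ 2 - 2 * (e₁ + e₂) * X P + e₁ * e₂) / (2 * Y P)) ^ 2
      + (e₁ + e₂) - 2 * X P
  dbl_Y : ∀ P, P ≠ 0 → Y P ≠ 0 →
    Y (P + P) = -(((3 * X P ^ 2 - 2 * (e₁ + e₂) * X P + e₁ * e₂) / (2 * Y P))
      * (X (P + P) - X P) + Y P)
  exists_point : ∀ x y : K, y ^ 2 = x * (x - e₁) * (x - e₂) → ∃ P, P ≠ 0 ∧ X P = x ∧ Y P = y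

namespace LegData

variable {K : Type*} [Field K] [CharZero K] {G : Type*} [AddCommGroup G] {e₁ e₂ : K}
  (D : LegData K G e₁ e₂)

/-- Same `X`-coordinate means equal or opposite. -/
theorem eq_or_eq_neg_of_X_eq {P Q : G} (hP : P ≠ 0) (hQ : Q ≠ 0) (h : D.X P = D.X Q) :
    P = Q ∨ P = -Q := by
  have h1 := D.eqn P hP
  have h2 := D.eqn Q hQ
  have h3 : D.Y P ^ 2 = D.Y Q ^ 2 := by rw [h1, h2, h]
  rcases sq_eq_sq_iff_eq_or_eq_neg.mp h3 with h4 | h4
  · exact Or.inl (D.ext P Q hP hQ h h4)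
  · right
    refine D.ext P (-Q) hP (neg_ne_zero.mpr hQ) ?_ ?_
    · rw [D.X_neg Q hQ, h]
    · rw [D.Y_neg Q hQ, h4]

/-- `Y P = 0` iff `P` is 2-torsion (for `P ≠ 0`). -/
theorem two_torsion_iff {P : G} (hP : P ≠ 0) : P + P = 0 ↔ D.Y P = 0 := by
  constructor
  · intro h
    by_contra hY
    exact D.dbl_ne P hP hY h
  · exact D.two_of_Y P hP

/-- "General position": `P + Q` is given by the secant or tangent construction. -/
def Gen (P Q : G) : Prop :=
  P ≠ 0 ∧ Q ≠ 0 ∧ (D.X P ≠ D.X Q ∨ (P = Q ∧ D.Y P ≠ 0))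

theorem gen_of_X_ne {P Q : G} (hP : P ≠ 0) (hQ : Q ≠ 0) (h : D.X P ≠ D.X Q) : D.Gen P Q :=
  ⟨hP, hQ, Or.inl h⟩

theorem gen_self {P : G} (hP : P ≠ 0) (h : D.Y P ≠ 0) : D.Gen P P :=
  ⟨hP, hP, Or.inr ⟨rfl, h⟩⟩

/-- Two non-zero points are in general position or add up to zero. -/
theorem gen_or_add_eq_zero {P Q : G} (hP : P ≠ 0) (hQ : Q ≠ 0) : D.Gen P Q ∨ P + Q = 0 := by
  by_cases hX : D.X P = D.X Q
  · rcases D.eq_or_eq_neg_of_X_eq hP hQ hX with h | h
    · subst h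
      by_cases hY : D.Y P = 0
      · exact Or.inr (D.two_of_Y P hP hY)
      · exact Or.inl (D.gen_self hP hY)
    · right; rw [h]; simp
  · exact Or.inl (D.gen_of_X_ne hP hQ hX)

open Classical in
/-- The slope of the secant (or tangent) line. -/
noncomputable def lam (P Q : G) : K :=
  if D.X P = D.X Q then (3 * D.X P ^ 2 - 2 * (e₁ + e₂) * D.X P + e₁ * e₂) / (2 * D.Y P)
  else (D.Y Q - D.Y P) / (D.X Q - D.X P)

/-- The intercept of the secant (or tangent) line: the line is `Y = lam * X + nu`. -/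
noncomputable def nu (P Q : G) : K := D.Y P - D.lam P Q * D.X P

theorem lam_of_X_ne {P Q : G} (h : D.X P ≠ D.X Q) :
    D.lam P Q = (D.Y Q - D.Y P) / (D.X Q - D.X P) := by
  unfold lam; rw [if_neg h]

theorem lam_self (P : G) :
    D.lam P P = (3 * D.X P ^ 2 - 2 * (e₁ + e₂) * D.X P + e₁ * e₂) / (2 * D.Y P) := by
  unfold lam; rw [if_pos rfl]

variable {D}

theorem Gen.left_ne {P Q : G} (h : D.Gen P Q) : P ≠ 0 := h.1
theorem Gen.right_ne {P Q : G} (h : D.Gen P Q) : Q ≠ 0 := h.2.1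

theorem Gen.add_ne_zero {P Q : G} (h : D.Gen P Q) : P + Q ≠ 0 := by
  obtain ⟨hP, hQ, h | ⟨rfl, hY⟩⟩ := h
  · exact D.add_ne P Q hP hQ h
  · exact D.dbl_ne P hP hY

/-- `(2 Y) * lam = f'(X)` in the tangent case. -/
theorem lam_self_mul {P : G} (hY : D.Y P ≠ 0) :
    D.lam P P * (2 * D.Y P) = 3 * D.X P ^ 2 - 2 * (e₁ + e₂) * D.X P + e₁ * e₂ := by
  rw [D.lam_self]
  exact div_mul_cancel₀ _ (mul_ne_zero two_ne_zero hY)

/-- `lam * (X Q - X P) = Y Q - Y P`. -/
theorem Gen.lam_mul_sub {P Q : G} (h : D.Gen P Q) :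
    D.lam P Q * (D.X Q - D.X P) = D.Y Q - D.Y P := by
  obtain ⟨_, _, h | ⟨rfl, _⟩⟩ := h
  · rw [D.lam_of_X_ne h]
    exact div_mul_cancel₀ _ (sub_ne_zero.mpr (Ne.symm h))
  · simp

theorem Gen.X_add {P Q : G} (h : D.Gen P Q) :
    D.X (P + Q) = D.lam P Q ^ 2 + (e₁ + e₂) - D.X P - D.X Q := by
  obtain ⟨hP, hQ, h | ⟨rfl, hY⟩⟩ := h
  · rw [D.lam_of_X_ne h]; exact D.add_X P Q hP hQ h
  · rw [D.lam_self, D.dbl_X P hP hY]; ring

theorem Gen.Y_add {P Q : G} (h : D.Gen P Q) :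
    D.Y (P + Q) = -(D.lam P Q * D.X (P + Q) + D.nu P Q) := by
  unfold nu
  obtain ⟨hP, hQ, h | ⟨rfl, hY⟩⟩ := h
  · rw [D.lam_of_X_ne h, D.add_Y P Q hP hQ h]; ring
  · rw [D.lam_self, D.dbl_Y P hP hY]; ring

/-- The line passes through `P`. -/
theorem Y_eq_left (P Q : G) : D.Y P = D.lam P Q * D.X P + D.nu P Q := by
  unfold nu; ring

/-- The line passes through `Q`. -/
theorem Gen.Y_eq_right {P Q : G} (h : D.Gen P Q) : D.Y Q = D.lam P Q * D.X Q + D.nu P Q := by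
  unfold nu; linear_combination -h.lam_mul_sub

/-- **Chord identity 1**: `X(P+Q) * X P * X Q = nu²`. -/
theorem Gen.Phi1 {P Q : G} (h : D.Gen P Q) :
    D.X (P + Q) * D.X P * D.X Q = D.nu P Q ^ 2 := by
  have hX := h.X_add
  have e1 := D.eqn P h.left_ne
  have e2 := D.eqn Q h.right_ne
  have hl := h.lam_mul_sub
  obtain ⟨hP, hQ, hne | ⟨rfl, hY⟩⟩ := h
  · have hd : D.X Q - D.X P ≠ 0 := sub_ne_zero.mpr (Ne.symm hne)
    have hy₂ : D.Y Q = D.Y P + D.lam P Q * (D.X Q - D.X P) := by linear_combination -hl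
    have key : (D.X Q - D.X P) * (2 * D.Y P * D.lam P Q + D.lam P Q ^ 2 * (D.X Q - D.X P)
        - (D.X Q ^ 2 + D.X P * D.X Q + D.X P ^ 2 - (e₁ + e₂) * (D.X P + D.X Q) + e₁ * e₂)) = 0 := by
      rw [hy₂] at e2
      linear_combination e2 - e1
    have key' := (mul_eq_zero.mp key).resolve_left hd
    rw [hX]; unfold nu
    linear_combination D.X P * key' - e1
  · have hl2 := lam_self_mul hY
    rw [hX]; unfold nu
    linear_combination D.X P * hl2 - e1

/-- **Chord identity 2** (division-free form of `nu * (sg₁ + sg₂) = -(X₁ X₂ - e₁ e₂)`). -/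
theorem Gen.Phi2 {P Q : G} (h : D.Gen P Q) :
    D.nu P Q * (D.Y P * D.X Q + D.Y Q * D.X P) =
      -(D.X P * D.X Q - e₁ * e₂) * (D.X P * D.X Q) := by
  have e1 := D.eqn P h.left_ne
  have e2 := D.eqn Q h.right_ne
  have hl := h.lam_mul_sub
  obtain ⟨hP, hQ, hne | ⟨rfl, hY⟩⟩ := h
  · have hd : D.X Q - D.X P ≠ 0 := sub_ne_zero.mpr (Ne.symm hne)
    -- multiply by `X Q - X P`
    apply mul_left_cancel₀ hd
    unfold nu
    linear_combination (-(D.Y P * D.X Q + D.Y Q * D.X P) * D.X P) * hl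
      + (D.X Q ^ 2) * e1 - (D.X P ^ 2) * e2
  · have hl2 := lam_self_mul hY
    unfold nu
    linear_combination (-(D.X P) ^ 2) * hl2 + (2 * D.X P) * e1

/-- **Chord identity 3**: `nu * (X Q - X P) = Y P * X Q - Y Q * X P`. -/
theorem Gen.Phi3 {P Q : G} (h : D.Gen P Q) :
    D.nu P Q * (D.X Q - D.X P) = D.Y P * D.X Q - D.Y Q * D.X P := by
  have hl := h.lam_mul_sub
  unfold nu
  linear_combination (-D.X P) * hl

/-! ### Shared vocabulary for the local analysis -/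

section local_defs

variable (D) (A : ValuationSubring K)

/-- The kernel of reduction: `P = 0` or `X P ∉ A`. -/
def K1 (P : G) : Prop := P = 0 ∨ 1 < A.valuation (D.X P)

/-- The strict node region (node at `X = 0`): `X P ∈ 𝔪`, `X P ≠ 0` and `e₁ / X P ∈ 𝔪`. -/
def InN (P : G) : Prop :=
  P ≠ 0 ∧ D.X P ≠ 0 ∧ A.valuation (D.X P) < 1 ∧ A.valuation e₁ < A.valuation (D.X P)

/-- The tangent direction `Y / X` of a point near the node. -/
noncomputable def sg (P : G) : K := D.Y P / D.X P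

/-- Two points of the node region lie on the same branch. -/
def SameBr (P Q : G) : Prop := A.valuation (D.sg P - D.sg Q) < 1

/-- Two points of the node region lie on opposite branches. -/
def OppBr (P Q : G) : Prop := A.valuation (D.sg P + D.sg Q) < 1

/-- An "inertia element": a field automorphism `σ` preserving `A` and acting trivially on the
residue field, together with a compatible group endomorphism `s` of `G`. -/
structure InertiaAct (σ : K →+* K) (s : G →+ G) : Prop where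
  mem_iff : ∀ x, σ x ∈ A ↔ x ∈ A
  sub_mem : ∀ x, x ∈ A → σ x - x ∈ A.nonunits
  inj : ∀ P, s P = 0 → P = 0
  X_map : ∀ P, P ≠ 0 → D.X (s P) = σ (D.X P)
  Y_map : ∀ P, P ≠ 0 → D.Y (s P) = σ (D.Y P)

end local_defs

end LegData

end Fermat.Agent.S05
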