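import Mathlib
import Fermat.Agent.S05.Defs

/-!
# S05 (project L), slice [B]: the kernel of reduction

`D.K1 A P` means `P = 0` or `X P ∉ A`.  With `τ P := X P / Y P` (and `τ 0 = 0`) we prove the
exact relation `τ (P + Q) * (1 + τ P * τ Q * c) = τ P + τ Q` with `c ∈ A`, for `P Q` in the kernel
of reduction.  Consequences: `K1` is a subgroup, and `n • P ≠ 0` for `P ≠ 0` in `K1` whenever
`(n : K)` is a unit of `A`.
-/

set_option autoImplicit false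
set_option linter.unusedSectionVars false

namespace Fermat.Agent.S05.Kernel

section Algebra

variable {K : Type*} [Field K] {Γ₀ : Type*} [LinearOrderedCommGroupWithZero Γ₀]
  (v : Valuation K Γ₀)

theorem val_sq_lt_one {x : K} (h : v x ^ 2 < 1) : v x < 1 := by
  by_contra hge
  rw [not_lt] at hge
  have : (1 : Γ₀) ≤ v x ^ 2 := one_le_pow₀ hge
  exact absurd h (not_lt.mpr this)

/-- Local data of a point in the kernel of reduction: `X ∉ A`. -/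
theorem point_facts {s b X Y : K} (hs : v s ≤ 1) (hb : v b ≤ 1) (hX : 1 < v X)
    (hc : Y ^ 2 = X ^ 3 - s * X ^ 2 + b * X) :
    X ≠ 0 ∧ Y ≠ 0 ∧ v X⁻¹ < 1 ∧ v (1 - s * X⁻¹ + b * X⁻¹ ^ 2) = 1 ∧
      (X / Y) ^ 2 * (1 - s * X⁻¹ + b * X⁻¹ ^ 2) = X⁻¹ ∧ v (X / Y) < 1 ∧ X / Y ≠ 0 := by
  have hX0 : X ≠ 0 := by
    rintro rfl
    simp at hX
  have ht : v X⁻¹ < 1 := by
    rw [map_inv₀]
    exact inv_lt_one_of_one_lt₀ hX
  have hsmall : v (-(s * X⁻¹) + b * X⁻¹ ^ 2) < 1 := by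
    refine lt_of_le_of_lt (v.map_add _ _) (max_lt ?_ ?_)
    · rw [Valuation.map_neg, map_mul]
      calc v s * v X⁻¹ ≤ 1 * v X⁻¹ := by gcongr
        _ < 1 := by rwa [one_mul]
    · rw [map_mul, map_pow]
      calc v b * v X⁻¹ ^ 2 ≤ 1 * v X⁻¹ ^ 2 := by gcongr
        _ < 1 := by rw [one_mul]; exact pow_lt_one₀ zero_le ht two_ne_zero
  have hD : v (1 - s * X⁻¹ + b * X⁻¹ ^ 2) = 1 := by
    have : 1 - s * X⁻¹ + b * X⁻¹ ^ 2 = 1 + (-(s * X⁻¹) + b * X⁻¹ ^ 2) := by ring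
    rw [this]
    exact v.map_one_add_of_lt hsmall
  have hD0 : 1 - s * X⁻¹ + b * X⁻¹ ^ 2 ≠ 0 := by
    intro h0
    rw [h0, map_zero] at hD
    exact zero_ne_one hD
  have hY2 : Y ^ 2 = X ^ 3 * (1 - s * X⁻¹ + b * X⁻¹ ^ 2) := by
    rw [hc]
    field_simp
  have hY0 : Y ≠ 0 := by
    rintro rfl
    have : X ^ 3 * (1 - s * X⁻¹ + b * X⁻¹ ^ 2) ≠ 0 := mul_ne_zero (pow_ne_zero 3 hX0) hD0
    exact this (by rw [← hY2]; ring)
  have hτ2 : (X / Y) ^ 2 * (1 - s * X⁻¹ + b * X⁻¹ ^ 2) = X⁻¹ := by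
    rw [div_pow, hY2]
    generalize (1 - s * X⁻¹ + b * X⁻¹ ^ 2) = D at hD0 ⊢
    field_simp
  have hτ : v (X / Y) < 1 := by
    apply val_sq_lt_one
    have := congrArg v hτ2
    rw [map_mul, hD, mul_one, map_pow] at this
    rw [this]
    exact ht
  exact ⟨hX0, hY0, ht, hD, hτ2, hτ, div_ne_zero hX0 hY0⟩

/-- The bracket identity (free variables). -/
theorem bracket_identity (τ1 τ2 D1 D2 b s X2 : K) (hτ1 : τ1 ≠ 0) (hτ2 : τ2 ≠ 0) (hD2 : D2 ≠ 0)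
    (hw : 1 - b * (τ1 ^ 2 * D1) * (τ2 ^ 2 * D2) ≠ 0)
    (hX2 : X2 * (τ2 ^ 2 * D2) = 1)
    (hrel : D2 = 1 - s * (τ2 ^ 2 * D2) + b * (τ2 ^ 2 * D2) ^ 2) :
    -(τ1 + τ2) / τ1 - X2 * (1 - b * (τ1 ^ 2 * D1) * (τ2 ^ 2 * D2)) * τ1 * τ2
        + (τ1 + τ2) ^ 2 / ((1 - b * (τ1 ^ 2 * D1) * (τ2 ^ 2 * D2)) * τ1 * τ2)
      = 1 + τ1 * τ2 * ((2 * b * τ1 * τ2 * D1 * D2 + b * τ2 ^ 2 * D1 * D2 - s + b * (τ2 ^ 2 * D2)
          + 2 * b * (τ1 ^ 2 * D1) - b ^ 2 * (τ1 ^ 2 * D1) ^ 2 * (τ2 ^ 2 * D2))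
          / (1 - b * (τ1 ^ 2 * D1) * (τ2 ^ 2 * D2))) := by
  have hX2' : X2 = 1 / (τ2 ^ 2 * D2) := by
    field_simp
    linear_combination hX2
  have hs : s = (1 - D2 + b * (τ2 ^ 2 * D2) ^ 2) / (τ2 ^ 2 * D2) := by
    field_simp
    linear_combination hrel
  rw [hX2', hs]
  generalize hW : (1 - b * (τ1 ^ 2 * D1) * (τ2 ^ 2 * D2)) = w at hw ⊢
  field_simp
  subst hW
  ring

/-- The explicit correction term. -/
def corr (τ1 τ2 D1 D2 b s : K) : K :=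
  (2 * b * τ1 * τ2 * D1 * D2 + b * τ2 ^ 2 * D1 * D2 - s + b * (τ2 ^ 2 * D2)
      + 2 * b * (τ1 ^ 2 * D1) - b ^ 2 * (τ1 ^ 2 * D1) ^ 2 * (τ2 ^ 2 * D2))
    / (1 - b * (τ1 ^ 2 * D1) * (τ2 ^ 2 * D2))

/-- Pure algebra behind the core lemma. -/
theorem core_aux {τ1 τ2 D1 D2 s b X1 X2 X3 Y1 Y3 L ν : K}
    (hτ10 : τ1 ≠ 0) (hτ20 : τ2 ≠ 0) (hD20 : D2 ≠ 0)
    (hX10 : X1 ≠ 0) (hX20 : X2 ≠ 0)
    (hw0 : 1 - b * (τ1 ^ 2 * D1) * (τ2 ^ 2 * D2) ≠ 0)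
    (hx1 : X1 * (τ1 ^ 2 * D1) = 1) (hx2 : X2 * (τ2 ^ 2 * D2) = 1)
    (hrel2 : D2 = 1 - s * (τ2 ^ 2 * D2) + b * (τ2 ^ 2 * D2) ^ 2)
    (hY1 : Y1 * τ1 = X1) (h1 : Y1 = L * X1 + ν)
    (hV1 : X1 * X2 * X3 = ν ^ 2)
    (hνσ : ν * (τ1 + τ2) = -(X1 * X2 * (1 - b * (τ1 ^ 2 * D1) * (τ2 ^ 2 * D2)) * τ1 * τ2))
    (hY3 : Y3 = -(L * X3 + ν)) :
    τ1 + τ2 ≠ 0 ∧ ν ≠ 0 ∧
      X3 * (τ1 + τ2) ^ 2 * (D1 * D2) = (1 - b * (τ1 ^ 2 * D1) * (τ2 ^ 2 * D2)) ^ 2 ∧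
      Y3 * (τ1 + τ2) = X3 * (1 + τ1 * τ2 * corr τ1 τ2 D1 D2 b s) := by
  have hbr := bracket_identity τ1 τ2 D1 D2 b s X2 hτ10 hτ20 hD20 hw0 hx2 hrel2
  rw [← corr] at hbr
  generalize hW : (1 - b * (τ1 ^ 2 * D1) * (τ2 ^ 2 * D2)) = w at hw0 hνσ hbr ⊢
  have hM0 : X1 * X2 * w * τ1 * τ2 ≠ 0 :=
    mul_ne_zero (mul_ne_zero (mul_ne_zero (mul_ne_zero hX10 hX20) hw0) hτ10) hτ20
  have hσ0 : τ1 + τ2 ≠ 0 := by
    intro h0
    rw [h0, mul_zero] at hνσ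
    exact hM0 (neg_eq_zero.mp hνσ.symm)
  have hν0 : ν ≠ 0 := by
    rintro rfl
    rw [zero_mul] at hνσ
    exact hM0 (neg_eq_zero.mp hνσ.symm)
  have h2 : (ν * (τ1 + τ2)) ^ 2 = (X1 * X2 * w * τ1 * τ2) ^ 2 := by rw [hνσ]; ring
  have hX3σ : X3 * (τ1 + τ2) ^ 2 * (D1 * D2) = w ^ 2 := by
    have key : (X1 * X2) * (X3 * (τ1 + τ2) ^ 2 * (D1 * D2)) = (X1 * X2) * w ^ 2 := by
      linear_combination (τ1 + τ2) ^ 2 * D1 * D2 * hV1 + D1 * D2 * h2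
        + X1 * X2 * w ^ 2 * (X2 * (τ2 ^ 2 * D2)) * hx1 + X1 * X2 * w ^ 2 * hx2
    exact mul_left_cancel₀ (mul_ne_zero hX10 hX20) key
  refine ⟨hσ0, hν0, hX3σ, ?_⟩
  rw [← hbr]
  have hL : L = 1 / τ1 - ν / X1 := by
    field_simp
    linear_combination (-τ1) * h1 + hY1
  have hX3 : X3 = ν ^ 2 / (X1 * X2) := by
    field_simp
    linear_combination hV1
  have hν : ν = -(X1 * X2 * w * τ1 * τ2) / (τ1 + τ2) := by
    field_simp
    linear_combination hνσ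
  rw [hY3, hL, hX3, hν]
  field_simp
  ring

/-- **Core lemma**: the sum of two points of the kernel of reduction, in terms of the line
`Y = L X + ν` through them (chord or tangent). -/
theorem core {s b X1 Y1 X2 Y2 L ν X3 Y3 : K} (hs : v s ≤ 1) (hb : v b ≤ 1)
    (hX1 : 1 < v X1) (hX2 : 1 < v X2)
    (hc1 : Y1 ^ 2 = X1 ^ 3 - s * X1 ^ 2 + b * X1) (hc2 : Y2 ^ 2 = X2 ^ 3 - s * X2 ^ 2 + b * X2)
    (h1 : Y1 = L * X1 + ν)
    (hV1 : X1 * X2 * X3 = ν ^ 2)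
    (hV2 : ν * (Y1 * X2 + Y2 * X1) = -(X1 * X2 - b) * (X1 * X2))
    (hY3 : Y3 = -(L * X3 + ν)) :
    1 < v X3 ∧ Y3 ≠ 0 ∧ ∃ c, v c ≤ 1 ∧
      (X3 / Y3) * (1 + (X1 / Y1) * (X2 / Y2) * c) = X1 / Y1 + X2 / Y2 := by
  obtain ⟨hX10, hY10, ht1, hD1, hτ1sq, hτ1, hτ10⟩ := point_facts v hs hb hX1 hc1
  obtain ⟨hX20, hY20, ht2, hD2, hτ2sq, hτ2, hτ20⟩ := point_facts v hs hb hX2 hc2
  obtain ⟨τ1, hτ1def⟩ : ∃ τ1, τ1 = X1 / Y1 := ⟨_, rfl⟩
  obtain ⟨τ2, hτ2def⟩ : ∃ τ2, τ2 = X2 / Y2 := ⟨_, rfl⟩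
  obtain ⟨D1, hD1def⟩ : ∃ D1, D1 = 1 - s * X1⁻¹ + b * X1⁻¹ ^ 2 := ⟨_, rfl⟩
  obtain ⟨D2, hD2def⟩ : ∃ D2, D2 = 1 - s * X2⁻¹ + b * X2⁻¹ ^ 2 := ⟨_, rfl⟩
  rw [← hτ1def, ← hD1def] at hτ1sq
  rw [← hτ1def] at hτ1 hτ10
  rw [← hτ2def, ← hD2def] at hτ2sq
  rw [← hτ2def] at hτ2 hτ20
  rw [← hD1def] at hD1
  rw [← hD2def] at hD2
  rw [← hτ1def, ← hτ2def]
  have hD10 : D1 ≠ 0 := fun h => by rw [h, map_zero] at hD1; exact zero_ne_one hD1
  have hD20 : D2 ≠ 0 := fun h => by rw [h, map_zero] at hD2; exact zero_ne_one hD2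
  have hx1 : X1 * (τ1 ^ 2 * D1) = 1 := by rw [hτ1sq]; exact mul_inv_cancel₀ hX10
  have hx2 : X2 * (τ2 ^ 2 * D2) = 1 := by rw [hτ2sq]; exact mul_inv_cancel₀ hX20
  have hrel2 : D2 = 1 - s * (τ2 ^ 2 * D2) + b * (τ2 ^ 2 * D2) ^ 2 := by rw [hτ2sq]; exact hD2def
  -- the unit `w`
  have hbt : v (b * (τ1 ^ 2 * D1) * (τ2 ^ 2 * D2)) < 1 := by
    rw [hτ1sq, hτ2sq, map_mul, map_mul]
    calc v b * v X1⁻¹ * v X2⁻¹ ≤ 1 * v X1⁻¹ * v X2⁻¹ := by gcongr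
      _ = v X1⁻¹ * v X2⁻¹ := by rw [one_mul]
      _ < 1 := mul_lt_one_of_nonneg_of_lt_one_left zero_le ht1 ht2.le
  have hw : v (1 - b * (τ1 ^ 2 * D1) * (τ2 ^ 2 * D2)) = 1 := by
    rw [sub_eq_add_neg]
    exact v.map_one_add_of_lt (by rwa [Valuation.map_neg])
  have hw0 : 1 - b * (τ1 ^ 2 * D1) * (τ2 ^ 2 * D2) ≠ 0 := fun h => by
    rw [h, map_zero] at hw; exact zero_ne_one hw
  have hY1 : Y1 * τ1 = X1 := by rw [hτ1def]; field_simp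
  have hY2 : Y2 * τ2 = X2 := by rw [hτ2def]; field_simp
  -- `ν σ = - X1 X2 w τ1 τ2`
  have hνσ : ν * (τ1 + τ2) = -(X1 * X2 * (1 - b * (τ1 ^ 2 * D1) * (τ2 ^ 2 * D2)) * τ1 * τ2) := by
    have e : ν * (τ1 + τ2) * (Y1 * Y2) = -(X1 * X2 - b) * (X1 * X2) := by
      rw [← hV2, ← hY1, ← hY2]; ring
    have e' : -(X1 * X2 * (1 - b * (τ1 ^ 2 * D1) * (τ2 ^ 2 * D2)) * τ1 * τ2) * (Y1 * Y2)
        = -(X1 * X2 - b) * (X1 * X2) := by
      have : (1 - b * (τ1 ^ 2 * D1) * (τ2 ^ 2 * D2)) * (X1 * X2) = X1 * X2 - b := by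
        linear_combination (-b * (X2 * (τ2 ^ 2 * D2))) * hx1 - b * hx2
      linear_combination (-(τ1 * τ2 * Y1 * Y2)) * this + (X1 * X2 - b) * (-X2) * hY1
        + (X1 * X2 - b) * (-(Y1 * τ1)) * hY2
    exact mul_right_cancel₀ (mul_ne_zero hY10 hY20) (e.trans e'.symm)
  obtain ⟨hσ0, hν0, hX3σ, hkey⟩ := core_aux hτ10 hτ20 hD20 hX10 hX20 hw0 hx1 hx2 hrel2 hY1 h1
    hV1 hνσ hY3
  have hvσ : v (τ1 + τ2) < 1 := lt_of_le_of_lt (v.map_add _ _) (max_lt hτ1 hτ2)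
  have hvσ0 : v (τ1 + τ2) ≠ 0 := (Valuation.ne_zero_iff v).mpr hσ0
  -- `1 < v X3`
  have hvX3 : 1 < v X3 := by
    have h := congrArg v hX3σ
    rw [map_mul, map_mul, map_mul, map_pow, map_pow, hD1, hD2, hw, mul_one, mul_one,
      one_pow] at h
    have h3 : v X3 = (v (τ1 + τ2) ^ 2)⁻¹ := eq_inv_of_mul_eq_one_left h
    rw [h3]
    exact (one_lt_inv₀ (pow_pos (zero_lt_iff.mpr hvσ0) 2)).mpr
      (pow_lt_one₀ zero_le hvσ two_ne_zero)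
  have hX30 : X3 ≠ 0 := by
    rintro rfl
    simp at hvX3
  -- the correction term is integral
  have hc : v (corr τ1 τ2 D1 D2 b s) ≤ 1 := by
    unfold corr
    rw [map_div₀, hw, div_one]
    have hτ1' := hτ1.le
    have hτ2' := hτ2.le
    have hD1' := hD1.le
    have hD2' := hD2.le
    have m2 : v (2 : K) ≤ 1 := by
      have : (2 : K) = 1 + 1 := by norm_num
      rw [this]
      exact le_trans (v.map_add _ _) (max_le (by simp) (by simp))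
    have hmul : ∀ {x y : K}, v x ≤ 1 → v y ≤ 1 → v (x * y) ≤ 1 := fun hx hy => by
      rw [map_mul]; exact mul_le_one' hx hy
    have hadd : ∀ {x y : K}, v x ≤ 1 → v y ≤ 1 → v (x + y) ≤ 1 := fun hx hy =>
      le_trans (v.map_add _ _) (max_le hx hy)
    have hsub : ∀ {x y : K}, v x ≤ 1 → v y ≤ 1 → v (x - y) ≤ 1 := fun hx hy =>
      le_trans (v.map_sub _ _) (max_le hx hy)
    have hpow : ∀ {x : K} (n : ℕ), v x ≤ 1 → v (x ^ n) ≤ 1 := fun n hx => by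
      rw [map_pow]; exact pow_le_one' hx n
    refine hsub (hadd (hadd (hsub (hadd ?_ ?_) hs) ?_) ?_) ?_
    · exact hmul (hmul (hmul (hmul (hmul m2 hb) hτ1') hτ2') hD1') hD2'
    · exact hmul (hmul (hmul hb (hpow 2 hτ2')) hD1') hD2'
    · exact hmul hb (hmul (hpow 2 hτ2') hD2')
    · exact hmul (hmul m2 hb) (hmul (hpow 2 hτ1') hD1')
    · exact hmul (hmul (hpow 2 hb) (hpow 2 (hmul (hpow 2 hτ1') hD1'))) (hmul (hpow 2 hτ2') hD2')
  have hunit : v (1 + τ1 * τ2 * corr τ1 τ2 D1 D2 b s) = 1 := by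
    apply v.map_one_add_of_lt
    rw [map_mul, map_mul]
    calc v τ1 * v τ2 * v (corr τ1 τ2 D1 D2 b s) ≤ v τ1 * v τ2 * 1 := by gcongr
      _ = v τ1 * v τ2 := mul_one _
      _ < 1 := mul_lt_one_of_nonneg_of_lt_one_left zero_le hτ1 hτ2.le
  have hunit0 : 1 + τ1 * τ2 * corr τ1 τ2 D1 D2 b s ≠ 0 := fun h => by
    rw [h, map_zero] at hunit; exact zero_ne_one hunit
  have hY30 : Y3 ≠ 0 := by
    rintro rfl
    rw [zero_mul] at hkey
    exact mul_ne_zero hX30 hunit0 hkey.symm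
  refine ⟨hvX3, hY30, corr τ1 τ2 D1 D2 b s, hc, ?_⟩
  rw [div_mul_eq_mul_div, div_eq_iff hY30, ← hkey]
  ring

end Algebra

section Leg

open Fermat.Agent.S05 Fermat.Agent.S05.LegData

variable {K : Type*} [Field K] [CharZero K] {G : Type*} [AddCommGroup G] {e₁ e₂ : K}
  (D : LegData K G e₁ e₂) (A : ValuationSubring K)

open Classical in
/-- The parameter `τ = X / Y` of the formal group (with `τ 0 = 0`). -/
noncomputable def tau (P : G) : K := if P = 0 then 0 else D.X P / D.Y P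

@[simp] theorem tau_zero : tau D 0 = 0 := by
  unfold tau; rw [if_pos rfl]

theorem tau_of_ne {P : G} (hP : P ≠ 0) : tau D P = D.X P / D.Y P := by
  unfold tau; rw [if_neg hP]

theorem tau_neg (P : G) : tau D (-P) = -tau D P := by
  by_cases hP : P = 0
  · subst hP; simp
  · rw [tau_of_ne D (neg_ne_zero.mpr hP), tau_of_ne D hP, D.X_neg P hP, D.Y_neg P hP, div_neg]

variable {D A}

/-- `K1` is stable under negation. -/
theorem K1.neg {P : G} (h : D.K1 A P) : D.K1 A (-P) := by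
  rcases h with rfl | h
  · left; simp
  · by_cases hP : P = 0
    · subst hP; left; simp
    · right; rw [D.X_neg P hP]; exact h

/-- The addition law on the kernel of reduction in terms of the parameter `τ`. -/
theorem add_aux (hA1 : A.valuation e₁ ≤ 1) (hA2 : A.valuation e₂ ≤ 1) {P Q : G}
    (hP : D.K1 A P) (hQ : D.K1 A Q) :
    D.K1 A (P + Q) ∧ ∃ c, A.valuation c ≤ 1 ∧
      tau D (P + Q) * (1 + tau D P * tau D Q * c) = tau D P + tau D Q := by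
  by_cases hP0 : P = 0
  · subst hP0
    refine ⟨by rwa [zero_add], 0, by simp, by simp⟩
  by_cases hQ0 : Q = 0
  · subst hQ0
    refine ⟨by rwa [add_zero], 0, by simp, by simp⟩
  have hXP : 1 < A.valuation (D.X P) := hP.resolve_left hP0
  have hXQ : 1 < A.valuation (D.X Q) := hQ.resolve_left hQ0
  rcases D.gen_or_add_eq_zero hP0 hQ0 with hgen | hzero
  · have hs : A.valuation (e₁ + e₂) ≤ 1 :=
      le_trans (A.valuation.map_add _ _) (max_le hA1 hA2)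
    have hb : A.valuation (e₁ * e₂) ≤ 1 := by
      rw [map_mul]; exact mul_le_one' hA1 hA2
    have hc1 : D.Y P ^ 2 = D.X P ^ 3 - (e₁ + e₂) * D.X P ^ 2 + e₁ * e₂ * D.X P := by
      rw [D.eqn P hP0]; ring
    have hc2 : D.Y Q ^ 2 = D.X Q ^ 3 - (e₁ + e₂) * D.X Q ^ 2 + e₁ * e₂ * D.X Q := by
      rw [D.eqn Q hQ0]; ring
    have hV1 : D.X P * D.X Q * D.X (P + Q) = D.nu P Q ^ 2 := by
      rw [← hgen.Phi1]; ring
    obtain ⟨h3, hY3, c, hc, hrel⟩ := core A.valuation hs hb hXP hXQ hc1 hc2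
      (Y_eq_left (D := D) P Q) hV1 hgen.Phi2 hgen.Y_add
    refine ⟨Or.inr h3, c, hc, ?_⟩
    rw [tau_of_ne D hgen.add_ne_zero, tau_of_ne D hP0, tau_of_ne D hQ0]
    exact hrel
  · refine ⟨Or.inl hzero, 0, by simp, ?_⟩
    have hQ' : Q = -P := eq_neg_of_add_eq_zero_right hzero
    rw [hzero, hQ', tau_neg]
    simp

/-- `K1` is stable under addition. -/
theorem K1.add (hA1 : A.valuation e₁ ≤ 1) (hA2 : A.valuation e₂ ≤ 1) {P Q : G}
    (hP : D.K1 A P) (hQ : D.K1 A Q) : D.K1 A (P + Q) :=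
  (add_aux hA1 hA2 hP hQ).1

/-- `K1` is stable under subtraction. -/
theorem K1.sub (hA1 : A.valuation e₁ ≤ 1) (hA2 : A.valuation e₂ ≤ 1) {P Q : G}
    (hP : D.K1 A P) (hQ : D.K1 A Q) : D.K1 A (P - Q) := by
  rw [sub_eq_add_neg]
  exact K1.add hA1 hA2 hP (K1.neg hQ)

/-- The parameter of a non-zero point of the kernel of reduction is a non-zero non-unit. -/
theorem tau_facts (hA1 : A.valuation e₁ ≤ 1) (hA2 : A.valuation e₂ ≤ 1) {P : G} (hP0 : P ≠ 0)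
    (hK : D.K1 A P) : A.valuation (tau D P) < 1 ∧ tau D P ≠ 0 := by
  have hXP : 1 < A.valuation (D.X P) := hK.resolve_left hP0
  have hs : A.valuation (e₁ + e₂) ≤ 1 :=
    le_trans (A.valuation.map_add _ _) (max_le hA1 hA2)
  have hb : A.valuation (e₁ * e₂) ≤ 1 := by
    rw [map_mul]; exact mul_le_one' hA1 hA2
  have hc1 : D.Y P ^ 2 = D.X P ^ 3 - (e₁ + e₂) * D.X P ^ 2 + e₁ * e₂ * D.X P := by
    rw [D.eqn P hP0]; ring
  obtain ⟨-, -, -, -, -, h6, h7⟩ := point_facts A.valuation hs hb hXP hc1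
  rw [tau_of_ne D hP0]
  exact ⟨h6, h7⟩

/-- Multiples of a point of the kernel of reduction: `τ (n • P) = τ P * (n + τ P ^ 2 * ε)`. -/
theorem nsmul_aux (hA1 : A.valuation e₁ ≤ 1) (hA2 : A.valuation e₂ ≤ 1) {P : G} (hP0 : P ≠ 0)
    (hK : D.K1 A P) (n : ℕ) :
    D.K1 A (n • P) ∧ ∃ ε, A.valuation ε ≤ 1 ∧
      tau D (n • P) = tau D P * ((n : K) + tau D P ^ 2 * ε) := by
  obtain ⟨hτ, hτ0⟩ := tau_facts hA1 hA2 hP0 hK
  induction n with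
  | zero =>
    refine ⟨Or.inl (zero_smul ℕ P), 0, by simp, by simp⟩
  | succ n ih =>
    obtain ⟨hKn, ε, hε, hrec⟩ := ih
    obtain ⟨hK', c, hc, hrel⟩ := add_aux hA1 hA2 hKn hK
    rw [← succ_nsmul] at hK' hrel
    refine ⟨hK', ?_⟩
    set τ := tau D P with hτdef
    -- `κ := (n + τ² ε) c`
    have hn : A.valuation (n : K) ≤ 1 := (A.valuation_le_one_iff _).mpr (natCast_mem A n)
    have hn1 : A.valuation ((n : K) + 1) ≤ 1 :=
      le_trans (A.valuation.map_add _ _) (max_le hn (by simp))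
    have hτsq : A.valuation (τ ^ 2) < 1 := by
      rw [map_pow]; exact pow_lt_one₀ zero_le hτ two_ne_zero
    have hτε : A.valuation (τ ^ 2 * ε) ≤ 1 := by
      rw [map_mul]; exact mul_le_one' hτsq.le hε
    obtain ⟨κ, hκdef⟩ : ∃ κ, κ = ((n : K) + τ ^ 2 * ε) * c := ⟨_, rfl⟩
    have hκ : A.valuation κ ≤ 1 := by
      rw [hκdef, map_mul]
      exact mul_le_one' (le_trans (A.valuation.map_add _ _) (max_le hn hτε)) hc
    obtain ⟨u, hudef⟩ : ∃ u, u = 1 + τ ^ 2 * κ := ⟨_, rfl⟩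
    have hu : A.valuation u = 1 := by
      rw [hudef]
      apply A.valuation.map_one_add_of_lt
      rw [map_mul]
      calc A.valuation (τ ^ 2) * A.valuation κ
          ≤ A.valuation (τ ^ 2) * 1 := by gcongr
        _ = A.valuation (τ ^ 2) := mul_one _
        _ < 1 := hτsq
    have hu0 : u ≠ 0 := fun h => by
      rw [h, map_zero] at hu; exact zero_ne_one hu
    refine ⟨(ε - ((n : K) + 1) * κ) / u, ?_, ?_⟩
    · rw [map_div₀, hu, div_one]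
      refine le_trans (A.valuation.map_sub _ _) (max_le hε ?_)
      rw [map_mul]
      exact mul_le_one' hn1 hκ
    · rw [hrec] at hrel
      have h1 : tau D ((n + 1) • P) * u = τ * ((n : K) + 1 + τ ^ 2 * ε) := by
        rw [hudef, hκdef]
        linear_combination hrel
      rw [eq_div_of_mul_eq hu0 h1]
      push_cast
      field_simp
      rw [hudef]
      ring

/-- **No torsion prime to the residue characteristic in the kernel of reduction.** -/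
theorem K1.nsmul_ne_zero (hA1 : A.valuation e₁ ≤ 1) (hA2 : A.valuation e₂ ≤ 1) {n : ℕ}
    (hn : A.valuation (n : K) = 1) {P : G} (hP : P ≠ 0) (hK : D.K1 A P) : n • P ≠ 0 := by
  obtain ⟨hτ, hτ0⟩ := tau_facts hA1 hA2 hP hK
  obtain ⟨-, ε, hε, hrec⟩ := nsmul_aux hA1 hA2 hP hK n
  intro h0
  rw [h0, tau_zero] at hrec
  have hsmall : A.valuation (tau D P ^ 2 * ε) < A.valuation (n : K) := by
    rw [hn, map_mul, map_pow]
    calc A.valuation (tau D P) ^ 2 * A.valuation ε ≤ A.valuation (tau D P) ^ 2 * 1 := by gcongr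
      _ = A.valuation (tau D P) ^ 2 := mul_one _
      _ < 1 := pow_lt_one₀ zero_le hτ two_ne_zero
  have hval : A.valuation ((n : K) + tau D P ^ 2 * ε) = 1 := by
    rw [A.valuation.map_add_eq_of_lt_left hsmall, hn]
  have hne : (n : K) + tau D P ^ 2 * ε ≠ 0 := fun h => by
    rw [h, map_zero] at hval; exact zero_ne_one hval
  exact mul_ne_zero hτ0 hne hrec.symm

/-- Torsion-freeness in the shape consumed by `Core`. -/
theorem K1.tors (hA1 : A.valuation e₁ ≤ 1) (hA2 : A.valuation e₂ ≤ 1) {p : ℕ}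
    (hp : A.valuation (p : K) = 1) {P : G} (hK : D.K1 A P) (h : p • P = 0) : P = 0 := by
  by_contra hP
  exact K1.nsmul_ne_zero hA1 hA2 hp hP hK h

/-- `K1` is stable under an inertia element. -/
theorem K1.map {σ : K →+* K} {s : G →+ G} (hs : D.InertiaAct A σ s) {P : G}
    (h : D.K1 A P) : D.K1 A (s P) := by
  by_cases hP : P = 0
  · subst hP; left; simp
  · right
    have hX := h.resolve_left hP
    rw [hs.X_map P hP]
    by_contra hle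
    rw [not_lt, A.valuation_le_one_iff, hs.mem_iff, ← A.valuation_le_one_iff] at hle
    exact absurd hX (not_lt.mpr hle)

end Leg

end Fermat.Agent.S05.Kernel
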