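import Mathlib
import Fermat.Agent.S05.Defs

/-!
# S05 (project L), slice [E]: the phase argument

If `P` has exact order `p` and every non-zero multiple of `P` reduces to the node, then
`v (X P) ^ p = v e₁ ^ (2 i)` for some `0 < i < p`.  The input is the list of "node rules"
(`NodeRules`, proved in `Node.lean`) describing the sum of two points of the node region.
-/

set_option autoImplicit false
set_option linter.unusedSectionVars false

namespace Fermat.Agent.S05.Phase

open Fermat.Agent.S05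

/-! ### The combinatorial core -/

section abstract_core

variable {M : Type*} [CommGroupWithZero M]

/-- The combinatorial core of the phase argument, in a commutative group with zero. -/
theorem phase_abstract (ε : M) (p : ℕ) (hp : 2 ≤ p)
    (x : ℕ → M) (β : ℕ → Prop)
    (hβ1 : β 1)
    (hstepT : ∀ j, 1 ≤ j → j + 1 < p → β j →
      (β (j + 1) ∧ x (j + 1) = x j * x 1) ∨ (¬ β (j + 1) ∧ x (j + 1) * (x j * x 1) = ε ^ 2))
    (hstepF : ∀ j, 1 ≤ j → j + 1 < p → ¬ β j →
      (¬ β (j + 1) ∧ x (j + 1) * x 1 = x j) ∨ (β (j + 1) ∧ x (j + 1) * x j = x 1))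
    (hlastβ : ¬ β (p - 1)) (hlastx : x (p - 1) = x 1) :
    ∃ i, 0 < i ∧ i < p ∧ x 1 ^ p = ε ^ (2 * i) := by
  classical
  -- the invariant
  have inv : ∀ j, 1 ≤ j → j < p → ∃ k, k + 1 ≤ j ∧
      ((β j ∧ x j * ε ^ (2 * k) = x 1 ^ j) ∨ (¬ β j ∧ ε ^ (2 * (k + 1)) = x 1 ^ j * x j)) := by
    intro j hj
    induction j, hj using Nat.le_induction with
    | base =>
      intro _
      exact ⟨0, le_rfl, Or.inl ⟨hβ1, by simp⟩⟩
    | succ j hj ih =>
      intro hjp
      obtain ⟨k, hk, hinv⟩ := ih (by omega)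
      have hε2 : ε ^ (2 * (k + 1)) = ε ^ 2 * ε ^ (2 * k) := by
        rw [mul_add, mul_one, pow_add, mul_comm]
      rcases hinv with ⟨hβ, hk2⟩ | ⟨hβ, hk2⟩
      · rcases hstepT j hj hjp hβ with ⟨hβ', hx'⟩ | ⟨hβ', hx'⟩
        · refine ⟨k, by omega, Or.inl ⟨hβ', ?_⟩⟩
          rw [hx', pow_succ, ← hk2]; ac_rfl
        · refine ⟨k, by omega, Or.inr ⟨hβ', ?_⟩⟩
          rw [pow_succ, ← hk2, hε2, ← hx']; ac_rfl
      · rcases hstepF j hj hjp hβ with ⟨hβ', hx'⟩ | ⟨hβ', hx'⟩
        · refine ⟨k, by omega, Or.inr ⟨hβ', ?_⟩⟩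
          rw [hk2, pow_succ, ← hx']; ac_rfl
        · refine ⟨k + 1, by omega, Or.inl ⟨hβ', ?_⟩⟩
          rw [hk2, pow_succ]
          calc x (j + 1) * (x 1 ^ j * x j) = x 1 ^ j * (x (j + 1) * x j) := by ac_rfl
            _ = x 1 ^ j * x 1 := by rw [hx']
  obtain ⟨k, hk, hinv⟩ := inv (p - 1) (by omega) (by omega)
  rcases hinv with ⟨hβ, _⟩ | ⟨_, hk2⟩
  · exact absurd hβ hlastβ
  · refine ⟨k + 1, by omega, by omega, ?_⟩
    rw [hk2, hlastx]
    have : p = (p - 1) + 1 := by omega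
    conv_lhs => rw [this, pow_succ]

end abstract_core

/-! ### Branch calculus in the node region -/

section branch

variable {K : Type*} [Field K] [CharZero K] {G : Type*} [AddCommGroup G] {e₁ e₂ : K}
  (D : LegData K G e₁ e₂) (A : ValuationSubring K)

local notation "v" => A.valuation

/-- The node rules: what `Node.lean` has to provide. All three points are assumed to lie in the
node region, so only the disjunction of the possible outcomes is needed. -/
structure NodeRules : Prop where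
  same : ∀ P Q, D.InN A P → D.InN A Q → D.InN A (P + Q) → D.SameBr A P Q →
    (D.SameBr A (P + Q) P ∧ v (D.X (P + Q)) = v (D.X P) * v (D.X Q)) ∨
    (D.OppBr A (P + Q) P ∧ v (D.X (P + Q)) * (v (D.X P) * v (D.X Q)) = v e₁ ^ 2)
  opp : ∀ P Q, D.InN A P → D.InN A Q → D.InN A (P + Q) → D.OppBr A P Q →
    (D.SameBr A (P + Q) Q ∧ v (D.X (P + Q)) * v (D.X P) = v (D.X Q)) ∨
    (D.SameBr A (P + Q) P ∧ v (D.X (P + Q)) * v (D.X Q) = v (D.X P))
  dbl_mid : ∀ P, P ≠ 0 → v (D.X P) < 1 → v (D.X P) ≤ v e₁ →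
    P + P = 0 ∨ 1 ≤ v (D.X (P + P))

variable {D A}

/-- In the node region, `sg² ≡ -e₂` modulo the maximal ideal. -/
theorem sg_sq_add (he2 : v e₂ ≤ 1) {P : G} (hP : D.InN A P) :
    v (D.sg P ^ 2 + e₂) < 1 := by
  obtain ⟨hP0, hX0, hX1, hXe⟩ := hP
  have heq : D.sg P ^ 2 + e₂ = D.X P - e₁ + e₁ * e₂ / D.X P := by
    unfold LegData.sg
    rw [div_pow, D.eqn P hP0]
    field_simp
    ring
  rw [heq]
  have h1 : v e₁ < 1 := lt_trans hXe hX1
  have hvX : v (D.X P) ≠ 0 := (Valuation.ne_zero_iff _).mpr hX0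
  have h3 : v (e₁ * e₂ / D.X P) < 1 := by
    rw [map_div₀, map_mul]
    rw [div_lt_one₀ (zero_lt_iff.mpr hvX)]
    calc v e₁ * v e₂ ≤ v e₁ * 1 := by gcongr
      _ = v e₁ := mul_one _
      _ < v (D.X P) := hXe
  exact Valuation.map_add_lt _ (Valuation.map_sub_lt _ hX1 h1) h3

/-- Two points of the node region lie on the same branch or on opposite branches. -/
theorem sameBr_or_oppBr (he2 : v e₂ ≤ 1) {P Q : G} (hP : D.InN A P) (hQ : D.InN A Q) :
    D.SameBr A P Q ∨ D.OppBr A P Q := by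
  have h1 := sg_sq_add he2 hP
  have h2 := sg_sq_add he2 hQ
  have h3 : v ((D.sg P - D.sg Q) * (D.sg P + D.sg Q)) < 1 := by
    have : (D.sg P - D.sg Q) * (D.sg P + D.sg Q)
        = (D.sg P ^ 2 + e₂) - (D.sg Q ^ 2 + e₂) := by ring
    rw [this]
    exact Valuation.map_sub_lt _ h1 h2
  rw [map_mul] at h3
  unfold LegData.SameBr LegData.OppBr
  by_contra hcon
  rw [not_or, not_lt, not_lt] at hcon
  obtain ⟨ha, hb⟩ := hcon
  have : (1 : A.ValueGroup) ≤ v (D.sg P - D.sg Q) * v (D.sg P + D.sg Q) := by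
    calc (1 : A.ValueGroup) = 1 * 1 := (mul_one 1).symm
      _ ≤ _ := mul_le_mul' ha hb
  exact absurd h3 (not_lt.mpr this)

/-- A point of the node region is not on the same and on the opposite branch of another one. -/
theorem not_sameBr_and_oppBr (h2 : v (2 : K) = 1) (he2 : v e₂ = 1) {P Q : G} (hP : D.InN A P)
    (hs : D.SameBr A P Q) (ho : D.OppBr A P Q) : False := by
  unfold LegData.SameBr at hs
  unfold LegData.OppBr at ho
  have h1 : v (2 * D.sg P) < 1 := by
    have : 2 * D.sg P = (D.sg P - D.sg Q) + (D.sg P + D.sg Q) := by ring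
    rw [this]
    exact Valuation.map_add_lt _ hs ho
  rw [map_mul, h2, one_mul] at h1
  have h3 : v (D.sg P ^ 2) < 1 := by
    rw [map_pow]
    exact pow_lt_one' h1 two_ne_zero
  have h4 := sg_sq_add he2.le hP
  have h5 : v e₂ < 1 := by
    have : e₂ = (D.sg P ^ 2 + e₂) - D.sg P ^ 2 := by ring
    rw [this]
    exact Valuation.map_sub_lt _ h4 h3
  rw [he2] at h5
  exact lt_irrefl _ h5

theorem sameBr_refl (P : G) : D.SameBr A P P := by
  unfold LegData.SameBr
  rw [sub_self, map_zero]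
  exact zero_lt_one

theorem sameBr_trans {P Q R : G} (h1 : D.SameBr A P Q) (h2 : D.SameBr A Q R) :
    D.SameBr A P R := by
  unfold LegData.SameBr at *
  have : D.sg P - D.sg R = (D.sg P - D.sg Q) + (D.sg Q - D.sg R) := by ring
  rw [this]
  exact Valuation.map_add_lt _ h1 h2

theorem sameBr_oppBr {P Q R : G} (h1 : D.SameBr A P Q) (h2 : D.OppBr A Q R) :
    D.OppBr A P R := by
  unfold LegData.SameBr LegData.OppBr at *
  have : D.sg P + D.sg R = (D.sg P - D.sg Q) + (D.sg Q + D.sg R) := by ring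
  rw [this]
  exact Valuation.map_add_lt _ h1 h2

theorem oppBr_sameBr {P Q R : G} (h1 : D.OppBr A P Q) (h2 : D.SameBr A Q R) :
    D.OppBr A P R := by
  unfold LegData.SameBr LegData.OppBr at *
  have : D.sg P + D.sg R = (D.sg P + D.sg Q) - (D.sg Q - D.sg R) := by ring
  rw [this]
  exact Valuation.map_sub_lt _ h1 h2

theorem oppBr_neg {P : G} (hP : P ≠ 0) : D.OppBr A (-P) P := by
  unfold LegData.OppBr LegData.sg
  rw [D.X_neg P hP, D.Y_neg P hP, neg_div, neg_add_cancel, map_zero]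
  exact zero_lt_one

end branch

/-! ### The phase theorem -/

section main

variable {K : Type*} [Field K] [CharZero K] {G : Type*} [AddCommGroup G] {e₁ e₂ : K}
  {D : LegData K G e₁ e₂} {A : ValuationSubring K}

local notation "v" => A.valuation

/-- Multiples `j • P`, `0 < j < p`, of a point of exact prime order `p` are non-zero. -/
theorem nsmul_ne_zero_of_lt {p : ℕ} (hp : p.Prime) {P : G} (hP : P ≠ 0) (hpP : p • P = 0)
    {j : ℕ} (hj0 : 0 < j) (hjp : j < p) : j • P ≠ 0 := by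
  have : Fact p.Prime := ⟨hp⟩
  have ho : addOrderOf P = p := addOrderOf_eq_prime hpP hP
  intro h
  have := addOrderOf_dvd_of_nsmul_eq_zero h
  rw [ho] at this
  exact absurd (Nat.le_of_dvd hj0 this) (not_le.mpr hjp)

/-- If all non-zero multiples of a point of odd prime order `p` reduce into the maximal ideal,
then they all lie in the strict node region. -/
theorem inN_of_all (R : NodeRules D A)
    {p : ℕ} (hp : p.Prime) (hp2 : p ≠ 2) {P : G} (hP : P ≠ 0) (hpP : p • P = 0)
    (hall : ∀ j, 0 < j → j < p → v (D.X (j • P)) < 1)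
    {j : ℕ} (hj0 : 0 < j) (hjp : j < p) : D.InN A (j • P) := by
  have : Fact p.Prime := ⟨hp⟩
  have ho : addOrderOf P = p := addOrderOf_eq_prime hpP hP
  have hne := nsmul_ne_zero_of_lt hp hP hpP hj0 hjp
  have hlt := hall j hj0 hjp
  by_contra hN
  have hle : v (D.X (j • P)) ≤ v e₁ := by
    by_contra hcon
    rw [not_le] at hcon
    apply hN
    refine ⟨hne, ?_, hlt, hcon⟩
    intro h0
    rw [h0, map_zero] at hcon
    exact not_lt_zero hcon
  -- the double of `j • P`
  have h2j : j • P + j • P = ((2 * j) % p) • P := by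
    rw [← ho, mod_addOrderOf_nsmul, two_mul, add_nsmul]
  have hmod0 : 0 < (2 * j) % p := by
    rw [Nat.pos_iff_ne_zero]
    intro h
    have hdvd : p ∣ 2 * j := Nat.dvd_of_mod_eq_zero h
    rcases (Nat.Prime.dvd_mul hp).mp hdvd with h' | h'
    · have := Nat.le_of_dvd (by norm_num) h'
      have h5 := hp.two_le
      omega
    · exact absurd (Nat.le_of_dvd hj0 h') (not_le.mpr hjp)
  have hmodp : (2 * j) % p < p := Nat.mod_lt _ hp.pos
  rcases R.dbl_mid (j • P) hne hlt hle with h | h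
  · rw [h2j] at h
    exact nsmul_ne_zero_of_lt hp hP hpP hmod0 hmodp h
  · rw [h2j] at h
    exact absurd (hall _ hmod0 hmodp) (not_lt.mpr h)

/-- **The phase theorem.** If `P` has odd prime order `p` and all its non-zero multiples reduce to
the node, then `v (X P) ^ p = v e₁ ^ (2 i)` for some `0 < i < p`. -/
theorem phase (R : NodeRules D A) (h2 : v (2 : K) = 1) (he2 : v e₂ = 1)
    {p : ℕ} (hp : p.Prime) (hp2 : p ≠ 2) {P : G} (hP : P ≠ 0) (hpP : p • P = 0)
    (hall : ∀ j, 0 < j → j < p → v (D.X (j • P)) < 1) :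
    ∃ i, 0 < i ∧ i < p ∧ v (D.X P) ^ p = v e₁ ^ (2 * i) := by
  have hN : ∀ j, 0 < j → j < p → D.InN A (j • P) :=
    fun j hj0 hjp => inN_of_all R hp hp2 hP hpP hall hj0 hjp
  have hp3 : 3 ≤ p := by
    have := hp.two_le
    omega
  have hNP : D.InN A P := by
    have := hN 1 one_pos (by omega)
    rwa [one_nsmul] at this
  have key := phase_abstract (v e₁) p hp.two_le (fun j => v (D.X (j • P)))
    (fun j => D.SameBr A (j • P) P) ?_ ?_ ?_ ?_ ?_
  · simpa only [one_nsmul] using key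
  · -- β 1
    show D.SameBr A (1 • P) P
    rw [one_nsmul]
    exact sameBr_refl P
  · -- step from the same branch
    intro j hj hjp hβ
    have hNj := hN j (by omega) (by omega)
    have hNj1 := hN (j + 1) (by omega) hjp
    have hsucc : (j + 1) • P = j • P + P := succ_nsmul P j
    show (D.SameBr A ((j + 1) • P) P ∧ v (D.X ((j + 1) • P)) = v (D.X (j • P)) * v (D.X (1 • P))) ∨
      (¬ D.SameBr A ((j + 1) • P) P ∧
        v (D.X ((j + 1) • P)) * (v (D.X (j • P)) * v (D.X (1 • P))) = v e₁ ^ 2)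
    rw [one_nsmul, hsucc]
    rw [hsucc] at hNj1
    rcases R.same (j • P) P hNj hNP hNj1 hβ with ⟨hb, hx⟩ | ⟨hb, hx⟩
    · exact Or.inl ⟨sameBr_trans hb hβ, hx⟩
    · refine Or.inr ⟨fun hs => ?_, hx⟩
      exact not_sameBr_and_oppBr h2 he2 hNj1 hs (oppBr_sameBr hb hβ)
  · -- step from the opposite branch
    intro j hj hjp hβ
    have hNj := hN j (by omega) (by omega)
    have hNj1 := hN (j + 1) (by omega) hjp
    have hsucc : (j + 1) • P = j • P + P := succ_nsmul P j
    have hopp : D.OppBr A (j • P) P := (sameBr_or_oppBr he2.le hNj hNP).resolve_left hβ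
    show (¬ D.SameBr A ((j + 1) • P) P ∧ v (D.X ((j + 1) • P)) * v (D.X (1 • P)) = v (D.X (j • P))) ∨
      (D.SameBr A ((j + 1) • P) P ∧ v (D.X ((j + 1) • P)) * v (D.X (j • P)) = v (D.X (1 • P)))
    rw [one_nsmul, hsucc]
    rw [hsucc] at hNj1
    rcases R.opp (j • P) P hNj hNP hNj1 hopp with ⟨hb, hx⟩ | ⟨hb, hx⟩
    · exact Or.inr ⟨hb, hx⟩
    · refine Or.inl ⟨fun hs => ?_, hx⟩
      exact not_sameBr_and_oppBr h2 he2 hNj1 hs (sameBr_oppBr hb hopp)
  · -- the last multiple is `-P`, on the opposite branch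
    have hlast : (p - 1) • P = -P := by
      have h1 : (p - 1) • P + P = 0 := by
        rw [← succ_nsmul, Nat.sub_add_cancel hp.one_le, hpP]
      exact eq_neg_of_add_eq_zero_left h1
    show ¬ D.SameBr A ((p - 1) • P) P
    rw [hlast]
    intro hs
    have hNneg : D.InN A (-P) := by
      have := hN (p - 1) (by omega) (by omega)
      rwa [hlast] at this
    exact not_sameBr_and_oppBr h2 he2 hNneg hs (oppBr_neg hP)
  · have hlast : (p - 1) • P = -P := by
      have h1 : (p - 1) • P + P = 0 := by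
        rw [← succ_nsmul, Nat.sub_add_cancel hp.one_le, hpP]
      exact eq_neg_of_add_eq_zero_left h1
    show v (D.X ((p - 1) • P)) = v (D.X (1 • P))
    rw [hlast, one_nsmul, D.X_neg P hP]

/-- The phase theorem when `e₁ = d ^ p` is a `p`-th power: `v (X P) = v (d ^ (2 i))`. -/
theorem phase' (R : NodeRules D A) (h2 : v (2 : K) = 1) (he2 : v e₂ = 1)
    {p : ℕ} (hp : p.Prime) (hp2 : p ≠ 2) (d : K) (hd : e₁ = d ^ p)
    {P : G} (hP : P ≠ 0) (hpP : p • P = 0)
    (hall : ∀ j, 0 < j → j < p → v (D.X (j • P)) < 1) :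
    ∃ i, 0 < i ∧ i < p ∧ v (D.X P) = v (d ^ (2 * i)) ∧ D.InN A P := by
  obtain ⟨i, hi0, hip, hi⟩ := phase R h2 he2 hp hp2 hP hpP hall
  refine ⟨i, hi0, hip, ?_, ?_⟩
  · have h1 : v (D.X P) ^ p = (v (d ^ (2 * i))) ^ p := by
      rw [hi, hd, map_pow, map_pow, ← pow_mul, ← pow_mul]
      congr 1
      ring
    exact (pow_left_inj hp.ne_zero).mp h1
  · have := inN_of_all R hp hp2 hP hpP hall one_pos hp.one_lt
    rwa [one_nsmul] at this

end main

end Fermat.Agent.S05.Phase
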