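import Fermat.Agent.S05.Node
import Fermat.Agent.S05.Phase

/-!
# S05 (project L): `Phase.NodeRules` from the node rules of `Node.lean`

Bridges the vocabulary of `Node.lean` (general valuation `v`) with the shared vocabulary of
`Defs.lean` (`D.InN A`, `D.SameBr A`, `D.OppBr A`) and instantiates `Phase.NodeRules`.
-/

set_option autoImplicit false
set_option linter.unusedSectionVars false

namespace Fermat.Agent.S05.NodeBridge

open Fermat.Agent.S05

variable {K : Type*} [Field K] [CharZero K] {G : Type*} [AddCommGroup G] {e₁ e₂ : K}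
  {D : LegData K G e₁ e₂} {A : ValuationSubring K}

theorem inN_iff {P : G} : Node.InN D A.valuation P ↔ D.InN A P := by
  constructor
  · intro h
    exact ⟨h.1, h.X_ne_zero, h.2.2, h.2.1⟩
  · rintro ⟨h1, _, h3, h4⟩
    exact ⟨h1, h4, h3⟩

theorem same_iff {P Q : G} : Node.Same D A.valuation P Q ↔ D.SameBr A P Q := Iff.rfl

theorem opp_iff {P Q : G} : Node.Opp D A.valuation P Q ↔ D.OppBr A P Q := Iff.rfl

theorem hyp (h2 : A.valuation (2 : K) = 1) (he2 : A.valuation e₂ = 1)
    (he1 : A.valuation e₁ < 1) : Node.Hyp A.valuation e₁ e₂ :=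
  ⟨he2, he1, h2⟩

/-- Opposite branches and equal valuations: the sum is zero or leaves the node region. -/
theorem opp_eq_rule (h2 : A.valuation (2 : K) = 1) (he2 : A.valuation e₂ = 1)
    (he1 : A.valuation e₁ < 1) {P Q : G} (hP : D.InN A P) (hQ : D.InN A Q)
    (ho : D.OppBr A P Q) (heq : A.valuation (D.X P) = A.valuation (D.X Q)) :
    P + Q = 0 ∨ 1 ≤ A.valuation (D.X (P + Q)) := by
  rcases D.gen_or_add_eq_zero hP.1 hQ.1 with hgen | h0
  · exact Or.inr (Node.rule_b2 (hyp h2 he2 he1) hgen (inN_iff.2 hP) (inN_iff.2 hQ) ho heq)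
  · exact Or.inl h0

/-- The node rules consumed by the phase argument. -/
theorem nodeRules (h2 : A.valuation (2 : K) = 1) (he2 : A.valuation e₂ = 1)
    (he1 : A.valuation e₁ < 1) : Phase.NodeRules D A where
  same := by
    intro P Q hP hQ hPQ hs
    have H := hyp (A := A) (e₁ := e₁) (e₂ := e₂) h2 he2 he1
    have hP' := inN_iff.2 hP
    have hQ' := inN_iff.2 hQ
    have hgen : D.Gen P Q := (D.gen_or_add_eq_zero hP.1 hQ.1).resolve_right hPQ.1
    rcases lt_trichotomy (A.valuation e₁) (A.valuation (D.X P) * A.valuation (D.X Q))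
      with hlt | heq | hgt
    · obtain ⟨_, hx, hb⟩ := Node.rule_a1 H hgen hP' hQ' hs hlt
      exact Or.inl ⟨hb, hx⟩
    · exfalso
      have := Node.rule_a3 H hgen hP' hQ' hs heq.symm
      exact absurd hPQ.2.2.2 (not_lt.2 this)
    · obtain ⟨_, hx, hb⟩ := Node.rule_a2 H hgen hP' hQ' hs hgt
      refine Or.inr ⟨hb, ?_⟩
      rw [hx]
      exact div_mul_cancel₀ _ (mul_pos hP'.vX_pos hQ'.vX_pos).ne'
  opp := by
    intro P Q hP hQ hPQ ho
    have H := hyp (A := A) (e₁ := e₁) (e₂ := e₂) h2 he2 he1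
    have hP' := inN_iff.2 hP
    have hQ' := inN_iff.2 hQ
    have hgen : D.Gen P Q := (D.gen_or_add_eq_zero hP.1 hQ.1).resolve_right hPQ.1
    rcases lt_trichotomy (A.valuation (D.X Q)) (A.valuation (D.X P)) with hlt | heq | hgt
    · obtain ⟨_, hx, hb⟩ := Node.rule_b1 H hgen hP' hQ' ho hlt
      refine Or.inl ⟨hb, ?_⟩
      rw [hx]
      exact div_mul_cancel₀ _ hP'.vX_ne_zero
    · exfalso
      have := Node.rule_b2 H hgen hP' hQ' ho heq.symm
      exact absurd hPQ.2.2.1 (not_lt.2 this)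
    · obtain ⟨_, hx, hb⟩ := Node.rule_b1' H hgen hP' hQ' ho hgt
      refine Or.inr ⟨hb, ?_⟩
      rw [hx]
      exact div_mul_cancel₀ _ hQ'.vX_ne_zero
  dbl_mid := by
    intro P hP _ hle
    have H := hyp (A := A) (e₁ := e₁) (e₂ := e₂) h2 he2 he1
    by_cases hY : D.Y P = 0
    · exact Or.inl (D.two_of_Y P hP hY)
    · exact Or.inr (Node.mid_double H hP hY hle)

end Fermat.Agent.S05.NodeBridge
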