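import Fermat.Agent.S05.Inertia
import Fermat.Agent.S05.Phase
import Fermat.Agent.S05.NodeBridge
import Fermat.Agent.S05.Kernel

/-!
# S05 (project L), slice [F]: the abstract core theorem

`core_aux`: for an inertia element `(σ, s)` acting on abstract Legendre coordinates
`D : LegData K G e₁ e₂` with `e₁ = d ^ p`, every `p`-torsion point is fixed by `s`, given the
kernel facts (`KernelHyp`) and the node rules (`Phase.NodeRules`).
-/

set_option autoImplicit false
set_option linter.unusedSectionVars false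
set_option linter.unusedVariables false

namespace Fermat.Agent.S05.Core

open Fermat.Agent.S05 Fermat.Agent.S05.LegData Fermat.Agent.S05.Inertia

variable {K : Type*} [Field K] [CharZero K] {G : Type*} [AddCommGroup G] {e₁ e₂ : K}
  (D : LegData K G e₁ e₂) (A : ValuationSubring K)

local notation "v" => A.valuation

/-- The two facts about the kernel of reduction used by the core argument. -/
structure KernelHyp (p : ℕ) : Prop where
  add : ∀ P Q, D.K1 A P → D.K1 A Q → D.K1 A (P + Q)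
  tors : ∀ P, D.K1 A P → p • P = 0 → P = 0

variable {D A}

/-! ### Valuation helpers -/

theorem val_eq_one_of_sq {a : K} (h : v (a ^ 2) = 1) : v a = 1 := by
  rw [map_pow] at h
  apply le_antisymm
  · exact (pow_le_one_iff two_ne_zero).mp (le_of_eq h)
  · exact (one_le_pow_iff two_ne_zero).mp (le_of_eq h.symm)

theorem val_sub_eq_one_left {a b : K} (ha : v a = 1) (hb : v b < 1) : v (a - b) = 1 := by
  rw [sub_eq_add_neg]
  exact val_eq_one_of_add A ha (by rwa [Valuation.map_neg])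

theorem val_sub_eq_one_right {a b : K} (ha : v a < 1) (hb : v b = 1) : v (a - b) = 1 := by
  rw [Valuation.map_sub_swap]
  exact val_sub_eq_one_left hb ha

theorem val_mul_eq_one {a b : K} (ha : v a = 1) (hb : v b = 1) : v (a * b) = 1 := by
  rw [map_mul, ha, hb, one_mul]

theorem val_mul_lt_one_left {a b : K} (ha : v a < 1) (hb : v b ≤ 1) : v (a * b) < 1 := by
  rw [map_mul]
  calc v a * v b ≤ v a * 1 := by gcongr
    _ < 1 := by rw [mul_one]; exact ha

theorem val_add_le_one {a b : K} (ha : v a ≤ 1) (hb : v b ≤ 1) : v (a + b) ≤ 1 :=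
  Valuation.map_add_le _ ha hb

theorem val_sub_le_one {a b : K} (ha : v a ≤ 1) (hb : v b ≤ 1) : v (a - b) ≤ 1 :=
  Valuation.map_sub_le _ ha hb

/-! ### Non-singular reduction -/

/-- A point with integral `X`-coordinate has non-singular reduction, in the good reduction case
or when `X` is a unit. -/
theorem nonsing (he₁ : v e₁ ≤ 1) (he2 : v e₂ = 1) (he12 : v (e₁ - e₂) = 1)
    {P : G} (hP : P ≠ 0) (hX : v (D.X P) ≤ 1) (hc : v e₁ = 1 ∨ v (D.X P) = 1) :
    v (D.Y P) = 1 ∨ v (3 * D.X P ^ 2 - 2 * (e₁ + e₂) * D.X P + e₁ * e₂) = 1 := by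
  by_cases hY : v (D.Y P) = 1
  · exact Or.inl hY
  right
  have he₁A : e₁ ∈ A := (A.valuation_le_one_iff _).mp he₁
  have he₂A : e₂ ∈ A := (A.valuation_le_one_iff _).mp (le_of_eq he2)
  have hXA : D.X P ∈ A := (A.valuation_le_one_iff _).mp hX
  have hYA : v (D.Y P) ≤ 1 := (A.valuation_le_one_iff _).mpr (Y_mem D A he₁A he₂A hP hXA)
  have hYlt : v (D.Y P) < 1 := lt_of_le_of_ne hYA hY
  set x := D.X P with hx
  have ha : v (x - e₁) ≤ 1 := val_sub_le_one hX he₁
  have hb : v (x - e₂) ≤ 1 := val_sub_le_one hX (le_of_eq he2)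
  have hprod : v x * v (x - e₁) * v (x - e₂) < 1 := by
    have h1 : v (D.Y P ^ 2) < 1 := by
      rw [map_pow]; exact pow_lt_one' hYlt two_ne_zero
    rwa [D.eqn P hP, map_mul, map_mul] at h1
  have h21 : v (e₂ - e₁) = 1 := by rw [Valuation.map_sub_swap]; exact he12
  -- one of the three factors is a non-unit
  have hcases : v x < 1 ∨ v (x - e₁) < 1 ∨ v (x - e₂) < 1 := by
    by_contra hcon
    rw [not_or, not_or, not_lt, not_lt, not_lt] at hcon
    obtain ⟨h1, h2, h3⟩ := hcon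
    have : (1 : A.ValueGroup) ≤ v x * v (x - e₁) * v (x - e₂) :=
      one_le_mul_of_one_le_of_one_le (one_le_mul_of_one_le_of_one_le h1 h2) h3
    exact absurd hprod (not_lt.mpr this)
  rcases hcases with hx1 | ha1 | hb1
  · -- `x ∈ 𝔪`: then `v e₁ = 1`
    have hg : v e₁ = 1 := hc.resolve_right (ne_of_lt hx1)
    have h1 : v (x - e₁) = 1 := val_sub_eq_one_right hx1 hg
    have h2 : v (x - e₂) = 1 := val_sub_eq_one_right hx1 he2
    have h3 : 3 * x ^ 2 - 2 * (e₁ + e₂) * x + e₁ * e₂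
        = (x - e₁) * (x - e₂) + x * ((x - e₂) + (x - e₁)) := by ring
    rw [h3]
    exact val_eq_one_of_add A (val_mul_eq_one h1 h2)
      (val_mul_lt_one_left hx1 (val_add_le_one hb ha))
  · -- `x ≡ e₁`
    have hg : v e₁ = 1 := by
      by_contra hne
      have hlt : v e₁ < 1 := lt_of_le_of_ne he₁ hne
      have hx1 : v x = 1 := hc.resolve_left hne
      have : v (x - e₁) = 1 := val_sub_eq_one_left hx1 hlt
      rw [this] at ha1
      exact lt_irrefl _ ha1
    have h1 : v x = 1 := by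
      have : x = e₁ + (x - e₁) := by ring
      rw [this]; exact val_eq_one_of_add A hg ha1
    have h2 : v (x - e₂) = 1 := by
      have : x - e₂ = (e₁ - e₂) + (x - e₁) := by ring
      rw [this]; exact val_eq_one_of_add A he12 ha1
    have h3 : 3 * x ^ 2 - 2 * (e₁ + e₂) * x + e₁ * e₂
        = x * (x - e₂) + (x - e₁) * ((x - e₂) + x) := by ring
    rw [h3]
    exact val_eq_one_of_add A (val_mul_eq_one h1 h2)
      (val_mul_lt_one_left ha1 (val_add_le_one hb hX))
  · -- `x ≡ e₂`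
    have h1 : v x = 1 := by
      have : x = e₂ + (x - e₂) := by ring
      rw [this]; exact val_eq_one_of_add A he2 hb1
    have h2 : v (x - e₁) = 1 := by
      have : x - e₁ = (e₂ - e₁) + (x - e₂) := by ring
      rw [this]; exact val_eq_one_of_add A h21 hb1
    have h3 : 3 * x ^ 2 - 2 * (e₁ + e₂) * x + e₁ * e₂
        = x * (x - e₁) + (x - e₂) * ((x - e₁) + x) := by ring
    rw [h3]
    exact val_eq_one_of_add A (val_mul_eq_one h1 h2)
      (val_mul_lt_one_left hb1 (val_add_le_one ha hX))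

/-! ### `s P - P` lies in the kernel of reduction -/

section inertia

variable {σ : K →+* K} {s : G →+ G}

/-- For every point of the "identity component" (all points, if the reduction is good),
`s P - P` lies in the kernel of reduction. -/
theorem sub_mem_K1 (hs : D.InertiaAct A σ s)
    (hadd : ∀ P Q, D.K1 A P → D.K1 A Q → D.K1 A (P + Q))
    (h2 : v (2 : K) = 1) (he₁ : v e₁ ≤ 1) (he2 : v e₂ = 1) (he12 : v (e₁ - e₂) = 1)
    {P : G} (hc : v e₁ = 1 ∨ P = 0 ∨ 1 ≤ v (D.X P)) : D.K1 A (s P - P) := by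
  by_cases hP : P = 0
  · left; rw [hP]; simp
  by_cases hX : v (D.X P) ≤ 1
  · have hc' : v e₁ = 1 ∨ v (D.X P) = 1 := by
      rcases hc with h | h | h
      · exact Or.inl h
      · exact absurd h hP
      · exact Or.inr (le_antisymm hX h)
    have hns := nonsing he₁ he2 he12 hP hX hc'
    exact inertia_lemma D A hs ((A.valuation_le_one_iff _).mp he₁)
      ((A.valuation_le_one_iff _).mp (le_of_eq he2)) h2 hP
      ((A.valuation_le_one_iff _).mp hX) hns
  · rw [not_le] at hX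
    have hK : D.K1 A P := Or.inr hX
    rw [sub_eq_add_neg]
    exact hadd _ _ (K1_map D A hs hK) (K1_neg D A hK)

theorem eq_of_sub_mem_K1 {p : ℕ} (htors : ∀ P, D.K1 A P → p • P = 0 → P = 0)
    {P : G} (hpP : p • P = 0) (hK : D.K1 A (s P - P)) : s P = P := by
  have h1 : p • (s P - P) = 0 := by
    rw [smul_sub, ← map_nsmul, hpP, map_zero, sub_zero]
  exact sub_eq_zero.mp (htors _ hK h1)

end inertia

/-! ### The node region -/

theorem val_sg_eq_one (he2 : v e₂ = 1) {P : G} (hP : D.InN A P) : v (D.sg P) = 1 := by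
  apply val_eq_one_of_sq
  have h1 := Phase.sg_sq_add (le_of_eq he2) hP
  have h2 : D.sg P ^ 2 = (D.sg P ^ 2 + e₂) - e₂ := by ring
  rw [h2]
  exact val_sub_eq_one_right h1 he2

theorem val_two_sg (h2 : v (2 : K) = 1) (he2 : v e₂ = 1) {P : G} (hP : D.InN A P) :
    v (2 * D.sg P) = 1 := val_mul_eq_one h2 (val_sg_eq_one he2 hP)

theorem inN_neg {P : G} (hP : D.InN A P) : D.InN A (-P) := by
  obtain ⟨h0, h1, h2, h3⟩ := hP
  refine ⟨neg_ne_zero.mpr h0, ?_, ?_, ?_⟩ <;> rw [D.X_neg P h0] <;> assumption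

theorem sg_neg {P : G} (hP : P ≠ 0) : D.sg (-P) = -D.sg P := by
  unfold LegData.sg
  rw [D.X_neg P hP, D.Y_neg P hP, neg_div]

/-- Opposite branches and equal valuations: the sum leaves the node region through the
identity component. -/
theorem opp_eq (h2 : v (2 : K) = 1) (he2 : v e₂ = 1) {P Q : G} (hP : D.InN A P)
    (hQ : D.InN A Q) (ho : D.OppBr A P Q) (heq : v (D.X P) = v (D.X Q)) :
    P + Q = 0 ∨ 1 ≤ v (D.X (P + Q)) := by
  rcases D.gen_or_add_eq_zero hP.1 hQ.1 with hg | h0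
  swap
  · exact Or.inl h0
  right
  have hPhi1 := hg.Phi1
  have hPhi3 := hg.Phi3
  obtain ⟨_, _, hne | ⟨rfl, hY⟩⟩ := hg
  · have hXP : D.X P ≠ 0 := hP.2.1
    have hXQ : D.X Q ≠ 0 := hQ.2.1
    have hvP : v (D.X P) ≠ 0 := (Valuation.ne_zero_iff _).mpr hXP
    have hsd : v (D.sg P - D.sg Q) = 1 := by
      have : D.sg P - D.sg Q = 2 * D.sg P - (D.sg P + D.sg Q) := by ring
      rw [this]
      exact val_sub_eq_one_left (val_two_sg h2 he2 hP) ho
    have h3 : D.nu P Q * (D.X Q - D.X P) = D.X P * D.X Q * (D.sg P - D.sg Q) := by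
      rw [hPhi3]; unfold LegData.sg; field_simp
    have h4 : v (D.nu P Q) * v (D.X Q - D.X P) = v (D.X P) * v (D.X P) := by
      rw [← map_mul, h3, map_mul, map_mul, hsd, mul_one, heq]
    have hd0 : v (D.X Q - D.X P) ≠ 0 :=
      (Valuation.ne_zero_iff _).mpr (sub_ne_zero.mpr (Ne.symm hne))
    have hd : v (D.X Q - D.X P) ≤ v (D.X P) :=
      Valuation.map_sub_le _ (le_of_eq heq.symm) le_rfl
    have hnu : v (D.X P) ≤ v (D.nu P Q) := by
      have h5 : v (D.X P) * v (D.X Q - D.X P) ≤ v (D.nu P Q) * v (D.X Q - D.X P) := by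
        rw [h4]; gcongr
      exact (mul_le_mul_iff_left₀ (zero_lt_iff.mpr hd0)).mp h5
    have h6 : v (D.X (P + Q)) * (v (D.X P) * v (D.X P)) = v (D.nu P Q) * v (D.nu P Q) := by
      have := congrArg v hPhi1
      rw [map_mul, map_mul, map_pow, ← heq, sq, mul_assoc] at this
      exact this
    have h7 : 1 * (v (D.X P) * v (D.X P)) ≤ v (D.X (P + Q)) * (v (D.X P) * v (D.X P)) := by
      rw [h6, one_mul]; gcongr
    exact (mul_le_mul_iff_left₀ (zero_lt_iff.mpr (mul_ne_zero hvP hvP))).mp h7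
  · exfalso
    have : D.sg P + D.sg P = 2 * D.sg P := by ring
    unfold LegData.OppBr at ho
    rw [this, val_two_sg h2 he2 hP] at ho
    exact lt_irrefl _ ho

section fixed_point

variable {σ : K →+* K} {s : G →+ G}

/-- A point of the node region whose `X`-coordinate is fixed by `σ` is fixed by `s`. -/
theorem fixed_of_X_fixed (hs : D.InertiaAct A σ s) (h2 : v (2 : K) = 1) (he2 : v e₂ = 1)
    {R : G} (hR : D.InN A R) (hσ : σ (D.X R) = D.X R) : s R = R := by
  have hR0 : R ≠ 0 := hR.1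
  have hsR : s R ≠ 0 := fun h0 => hR0 (hs.inj R h0)
  rcases D.eq_or_eq_neg_of_X_eq hsR hR0 (by rw [hs.X_map R hR0, hσ]) with h | h
  · exact h
  · exfalso
    have h1 : σ (D.sg R) = -D.sg R := by
      have : σ (D.sg R) = D.sg (s R) := by
        unfold LegData.sg
        rw [map_div₀, hs.X_map R hR0, hs.Y_map R hR0]
      rw [this, h, sg_neg hR0]
    have hA : D.sg R ∈ A := (A.valuation_le_one_iff _).mp (le_of_eq (val_sg_eq_one he2 hR))
    have h3 := A.mem_nonunits_iff.mp (hs.sub_mem _ hA)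
    have h4 : σ (D.sg R) - D.sg R = -(2 * D.sg R) := by rw [h1]; ring
    rw [h4, Valuation.map_neg, val_two_sg h2 he2 hR] at h3
    exact lt_irrefl _ h3

/-- Existence of an `s`-fixed point on the same branch and the same "level" as `P`. -/
theorem exists_fixed_point (hs : D.InertiaAct A σ s) (hsq : ∀ x : K, ∃ y : K, y ^ 2 = x)
    (h2 : v (2 : K) = 1) (he2 : v e₂ = 1) {x' : K} (hσx : σ x' = x')
    {P : G} (hP : D.InN A P) (hx : v (D.X P) = v x') :
    ∃ P' : G, s P' = P' ∧ D.InN A P' ∧ D.SameBr A P P' ∧ v (D.X P') = v (D.X P) := by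
  obtain ⟨hP0, hXP0, hXP1, hXPe⟩ := hP
  have hx'0 : x' ≠ 0 := by
    rw [← Valuation.ne_zero_iff v, ← hx]
    exact (Valuation.ne_zero_iff _).mpr hXP0
  obtain ⟨w, hw⟩ := hsq ((1 - e₁ / x') * (x' - e₂))
  have hy : (x' * w) ^ 2 = x' * (x' - e₁) * (x' - e₂) := by
    rw [mul_pow, hw]; field_simp
  obtain ⟨Q, hQ0, hQX, hQY⟩ := D.exists_point x' (x' * w) hy
  have hQN : D.InN A Q := by
    refine ⟨hQ0, ?_, ?_, ?_⟩
    · rw [hQX]; exact hx'0
    · rw [hQX, ← hx]; exact hXP1
    · rw [hQX, ← hx]; exact hXPe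
  have hPN : D.InN A P := ⟨hP0, hXP0, hXP1, hXPe⟩
  rcases Phase.sameBr_or_oppBr (le_of_eq he2) hPN hQN with hsame | hopp
  · refine ⟨Q, fixed_of_X_fixed hs h2 he2 hQN (by rw [hQX, hσx]), hQN, hsame, ?_⟩
    rw [hQX, hx]
  · have hQN' : D.InN A (-Q) := inN_neg hQN
    refine ⟨-Q, fixed_of_X_fixed hs h2 he2 hQN' (by rw [D.X_neg Q hQ0, hQX, hσx]), hQN', ?_, ?_⟩
    · unfold LegData.SameBr
      rw [sg_neg hQ0, sub_neg_eq_add]
      exact hopp
    · rw [D.X_neg Q hQ0, hQX, hx]

end fixed_point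

/-! ### The core theorem, modulo the kernel facts and the node rules -/

theorem core_aux {σ : K →+* K} {s : G →+ G}
    (hs : D.InertiaAct A σ s) (hsq : ∀ x : K, ∃ y : K, y ^ 2 = x)
    (h2 : v (2 : K) = 1) (he2 : v e₂ = 1) (he12 : v (e₁ - e₂) = 1)
    {d : K} {p : ℕ} (Kh : KernelHyp D A p) (R : v e₁ < 1 → Phase.NodeRules D A)
    (hp : p.Prime) (hp2 : p ≠ 2)
    (hd : e₁ = d ^ p) (hdA : v d ≤ 1) (hσd : σ d = d)
    {P : G} (hpP : p • P = 0) : s P = P := by
  have he₁ : v e₁ ≤ 1 := by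
    rw [hd, map_pow]; exact pow_le_one' hdA p
  by_cases hP0 : P = 0
  · rw [hP0, map_zero]
  by_cases hgood : v e₁ = 1
  · exact eq_of_sub_mem_K1 Kh.tors hpP (sub_mem_K1 hs Kh.add h2 he₁ he2 he12 (Or.inl hgood))
  by_cases hall : ∀ j, 0 < j → j < p → v (D.X (j • P)) < 1
  · -- every multiple of `P` reduces to the node
    obtain ⟨i, hi0, hip, hvi, hN⟩ :=
      Phase.phase' (R (lt_of_le_of_ne he₁ hgood)) h2 he2 hp hp2 d hd hP0 hpP hall
    have hσx : σ (d ^ (2 * i)) = d ^ (2 * i) := by rw [map_pow, hσd]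
    obtain ⟨P', hsP', hN', hsame, hveq⟩ := exists_fixed_point hs hsq h2 he2 hσx hN hvi
    have hP'0 : P' ≠ 0 := hN'.1
    have hNQ : D.InN A (-P') := inN_neg hN'
    have hopp : D.OppBr A P (-P') := by
      unfold LegData.OppBr
      rw [sg_neg hP'0, ← sub_eq_add_neg]
      exact hsame
    have hveq' : v (D.X P) = v (D.X (-P')) := by rw [D.X_neg P' hP'0, hveq]
    have h3 := opp_eq h2 he2 hN hNQ hopp hveq'
    have hK : D.K1 A (s (P + -P') - (P + -P')) :=
      sub_mem_K1 hs Kh.add h2 he₁ he2 he12 (Or.inr h3)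
    have h4 : s (P + -P') - (P + -P') = s P - P := by
      rw [map_add, map_neg, hsP']; abel
    rw [h4] at hK
    exact eq_of_sub_mem_K1 Kh.tors hpP hK
  · -- some multiple `j • P` does not reduce to the node
    have hall' : ∃ j, 0 < j ∧ j < p ∧ 1 ≤ v (D.X (j • P)) := by
      by_contra hcon
      apply hall
      intro j hj0 hjp
      by_contra hlt
      exact hcon ⟨j, hj0, hjp, not_lt.mp hlt⟩
    obtain ⟨j, hj0, hjp, hj⟩ := hall'
    have hQ : p • (j • P) = 0 := by rw [smul_comm, hpP, smul_zero]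
    have hK : D.K1 A (s (j • P) - j • P) :=
      sub_mem_K1 hs Kh.add h2 he₁ he2 he12 (Or.inr (Or.inr hj))
    have hsQ : s (j • P) = j • P := eq_of_sub_mem_K1 Kh.tors hQ hK
    have hcop : IsCoprime (j : ℤ) (p : ℤ) := by
      rw [Nat.isCoprime_iff_coprime]
      exact ((Nat.Prime.coprime_iff_not_dvd hp).mpr (Nat.not_dvd_of_pos_of_lt hj0 hjp)).symm
    obtain ⟨a, b, hab⟩ := hcop
    have hPe : P = a • (j • P) := by
      have h5 : P = (a * (j : ℤ) + b * (p : ℤ)) • P := by rw [hab, one_smul]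
      rw [add_smul, mul_smul, mul_smul, natCast_zsmul, natCast_zsmul, hpP, smul_zero,
        add_zero] at h5
      exact h5
    rw [hPe, map_zsmul, hsQ]

/-- The core theorem, modulo the kernel facts. -/
theorem core_of_kernel (D : LegData K G e₁ e₂) (A : ValuationSubring K)
    {σ : K →+* K} {s : G →+ G}
    (hs : D.InertiaAct A σ s) (hsq : ∀ x : K, ∃ y : K, y ^ 2 = x)
    (h2 : A.valuation (2 : K) = 1) (he2 : A.valuation e₂ = 1)
    (he12 : A.valuation (e₁ - e₂) = 1)
    {d : K} {p : ℕ} (Kh : KernelHyp D A p) (hp : p.Prime) (hp2 : p ≠ 2)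
    (hd : e₁ = d ^ p) (hdA : A.valuation d ≤ 1) (hσd : σ d = d)
    {P : G} (hP : p • P = 0) : s P = P :=
  core_aux hs hsq h2 he2 he12 Kh (fun he1 => NodeBridge.nodeRules h2 he2 he1) hp hp2 hd hdA hσd hP

/-- **The core theorem** of project L: an inertia element fixes every `p`-torsion point. -/
theorem core {K : Type*} [Field K] [CharZero K] {G : Type*} [AddCommGroup G] {e₁ e₂ : K}
    (D : LegData K G e₁ e₂) (A : ValuationSubring K) {σ : K →+* K} {s : G →+ G}
    (hs : D.InertiaAct A σ s) (hsq : ∀ x : K, ∃ y : K, y ^ 2 = x)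
    (h2 : A.valuation (2 : K) = 1) (he2 : A.valuation e₂ = 1)
    (he12 : A.valuation (e₁ - e₂) = 1) {d : K} {p : ℕ} (hp : p.Prime) (hp2 : p ≠ 2)
    (hpA : A.valuation (p : K) = 1) (hd : e₁ = d ^ p) (hd0 : d ≠ 0)
    (hdA : A.valuation d ≤ 1) (hσd : σ d = d) (hσe₂ : σ e₂ = e₂)
    {P : G} (hP : p • P = 0) : s P = P := by
  have hA1 : A.valuation e₁ ≤ 1 := by
    rw [hd, map_pow]; exact pow_le_one' hdA p
  have hA2 : A.valuation e₂ ≤ 1 := le_of_eq he2
  have Kh : KernelHyp D A p :=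
    ⟨fun P Q hP hQ => Kernel.K1.add hA1 hA2 hP hQ,
      fun P hK h => Kernel.K1.tors hA1 hA2 hpA hK h⟩
  exact core_of_kernel D A hs hsq h2 he2 he12 Kh hp hp2 hd hdA hσd hP

end Fermat.Agent.S05.Core
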