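import Mathlib
import Fermat.Prelude.Def_FLTPrelim_FreyPackage
import Fermat.Prelude.Def_FLTPrelim_GaloisRep

/-!
# S05 (project L): the Frey curve over an extension field, coefficient facts

For a Frey package `P` and a field `K` that is a `ℚ`-algebra we record the Weierstrass
coefficients of `P.freyCurve⁄K` in terms of `A = a ^ p`, `B = b ^ p`, `C = c ^ p` (cast into `K`),
the Fermat relation `A + B = C`, non-vanishing, and the three "Legendre" normalisations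
`(r₀, e₁, e₂) = (0, A, -B)`, `(0, -B, A)`, `(A, -C, -A)` of the 2-torsion cubic:
`T³ + (4 a₂ + 1) T² + 16 a₄ T = (T - r₀)(T - r₀ - e₁)(T - r₀ - e₂)`.
-/

set_option autoImplicit false

noncomputable section

namespace Fermat.Agent.S05.FreyInst

open WeierstrassCurve

variable (P : FreyPackage) (K : Type*) [Field K] [Algebra ℚ K]

/-- `a ^ p` in `K`. -/
def cA : K := algebraMap ℚ K ((P.a : ℚ) ^ P.p)

/-- `b ^ p` in `K`. -/
def cB : K := algebraMap ℚ K ((P.b : ℚ) ^ P.p)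

/-- `c ^ p` in `K`. -/
def cC : K := algebraMap ℚ K ((P.c : ℚ) ^ P.p)

theorem charZero : CharZero K :=
  charZero_of_injective_algebraMap (algebraMap ℚ K).injective

theorem cA_eq_pow : cA P K = (algebraMap ℚ K (P.a : ℚ)) ^ P.p := by
  rw [cA, map_pow]

theorem cB_eq_pow : cB P K = (algebraMap ℚ K (P.b : ℚ)) ^ P.p := by
  rw [cB, map_pow]

theorem cC_eq_pow : cC P K = (algebraMap ℚ K (P.c : ℚ)) ^ P.p := by
  rw [cC, map_pow]

theorem cA_eq_intCast_pow : cA P K = ((P.a : ℤ) : K) ^ P.p := by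
  rw [cA_eq_pow, eq_ratCast, Rat.cast_intCast]

theorem cB_eq_intCast_pow : cB P K = ((P.b : ℤ) : K) ^ P.p := by
  rw [cB_eq_pow, eq_ratCast, Rat.cast_intCast]

theorem cC_eq_intCast_pow : cC P K = ((P.c : ℤ) : K) ^ P.p := by
  rw [cC_eq_pow, eq_ratCast, Rat.cast_intCast]

/-- The Fermat relation in `K`. -/
theorem cA_add_cB : cA P K + cB P K = cC P K := by
  rw [cA, cB, cC, ← map_add]
  congr 1
  exact_mod_cast P.hFLT

theorem cA_ne_zero : cA P K ≠ 0 := by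
  rw [cA]
  exact (map_ne_zero _).mpr (pow_ne_zero _ (by exact_mod_cast P.ha0))

theorem cB_ne_zero : cB P K ≠ 0 := by
  rw [cB]
  exact (map_ne_zero _).mpr (pow_ne_zero _ (by exact_mod_cast P.hb0))

theorem cC_ne_zero : cC P K ≠ 0 := by
  rw [cC]
  exact (map_ne_zero _).mpr (pow_ne_zero _ (by exact_mod_cast P.hc0))

/-- The three roots `0, A, -B` of the 2-torsion cubic are distinct. -/
theorem cA_ne_neg_cB : cA P K ≠ -cB P K := by
  intro h
  apply cC_ne_zero P K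
  rw [← cA_add_cB, h, neg_add_cancel]

theorem a₁_eq : (P.freyCurve⁄K).a₁ = 1 := by
  show algebraMap ℚ K P.freyCurve.a₁ = 1
  simp [FreyPackage.freyCurve]

theorem a₃_eq : (P.freyCurve⁄K).a₃ = 0 := by
  show algebraMap ℚ K P.freyCurve.a₃ = 0
  simp [FreyPackage.freyCurve]

theorem a₆_eq : (P.freyCurve⁄K).a₆ = 0 := by
  show algebraMap ℚ K P.freyCurve.a₆ = 0
  simp [FreyPackage.freyCurve]

theorem a₂_eq : (P.freyCurve⁄K).a₂ = (cB P K - 1 - cA P K) / 4 := by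
  show algebraMap ℚ K P.freyCurve.a₂ = _
  simp only [FreyPackage.freyCurve, cA, cB]
  rw [map_div₀, map_sub, map_sub, map_one, map_ofNat]

theorem a₄_eq : (P.freyCurve⁄K).a₄ = -(cA P K) * cB P K / 16 := by
  show algebraMap ℚ K P.freyCurve.a₄ = _
  simp only [FreyPackage.freyCurve, cA, cB]
  rw [map_div₀, map_mul, map_neg, map_ofNat]

theorem four_a₂_add_one : 4 * (P.freyCurve⁄K).a₂ + 1 = cB P K - cA P K := by
  have := charZero K
  rw [a₂_eq]
  ring

theorem sixteen_a₄ : 16 * (P.freyCurve⁄K).a₄ = -(cA P K * cB P K) := by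
  have := charZero K
  rw [a₄_eq]
  ring

/-- The 2-torsion cubic in the coordinate `T = 4 x`. -/
theorem cubic_eq (T : K) :
    T ^ 3 + (4 * (P.freyCurve⁄K).a₂ + 1) * T ^ 2 + 16 * (P.freyCurve⁄K).a₄ * T =
      T * (T - cA P K) * (T + cB P K) := by
  rw [four_a₂_add_one, sixteen_a₄]
  ring

/-! ### The three Legendre normalisations

`IsLegParam E r₀ e₁ e₂` in the shape
`c2 : 4 a₂ + 1 = -(3 r₀ + e₁ + e₂)`,
`c1 : 16 a₄ = r₀ (r₀ + e₁) + r₀ (r₀ + e₂) + (r₀ + e₁)(r₀ + e₂)`,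
`c0 : r₀ (r₀ + e₁)(r₀ + e₂) = 0`. -/

/-- Normalisation `(r₀, e₁, e₂) = (0, A, -B)` (used when `q ∣ a` or `q ∤ abc`). -/
theorem leg_zero_A_negB :
    4 * (P.freyCurve⁄K).a₂ + 1 = -(3 * 0 + cA P K + -cB P K) ∧
    16 * (P.freyCurve⁄K).a₄ =
      0 * (0 + cA P K) + 0 * (0 + -cB P K) + (0 + cA P K) * (0 + -cB P K) ∧
    (0 : K) * (0 + cA P K) * (0 + -cB P K) = 0 := by
  rw [four_a₂_add_one, sixteen_a₄]
  refine ⟨by ring, by ring, by ring⟩

/-- Normalisation `(r₀, e₁, e₂) = (0, -B, A)` (used when `q ∣ b`). -/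
theorem leg_zero_negB_A :
    4 * (P.freyCurve⁄K).a₂ + 1 = -(3 * 0 + -cB P K + cA P K) ∧
    16 * (P.freyCurve⁄K).a₄ =
      0 * (0 + -cB P K) + 0 * (0 + cA P K) + (0 + -cB P K) * (0 + cA P K) ∧
    (0 : K) * (0 + -cB P K) * (0 + cA P K) = 0 := by
  rw [four_a₂_add_one, sixteen_a₄]
  refine ⟨by ring, by ring, by ring⟩

/-- Normalisation `(r₀, e₁, e₂) = (A, -C, -A)` (used when `q ∣ c`). -/
theorem leg_A_negC_negA :
    4 * (P.freyCurve⁄K).a₂ + 1 = -(3 * cA P K + -cC P K + -cA P K) ∧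
    16 * (P.freyCurve⁄K).a₄ =
      cA P K * (cA P K + -cC P K) + cA P K * (cA P K + -cA P K)
        + (cA P K + -cC P K) * (cA P K + -cA P K) ∧
    cA P K * (cA P K + -cC P K) * (cA P K + -cA P K) = 0 := by
  rw [four_a₂_add_one, sixteen_a₄, ← cA_add_cB]
  refine ⟨by ring, by ring, by ring⟩

/-- The discriminant of the Frey curve: `Δ = (A B C)² / 2⁸`. -/
theorem Δ_eq : (P.freyCurve⁄K).Δ = (cA P K * cB P K * cC P K) ^ 2 / 256 := by
  have := charZero K
  have h1 := a₁_eq P K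
  have h2 := a₂_eq P K
  have h3 := a₃_eq P K
  have h4 := a₄_eq P K
  have h6 := a₆_eq P K
  simp only [WeierstrassCurve.Δ, WeierstrassCurve.b₂, WeierstrassCurve.b₄, WeierstrassCurve.b₆,
    WeierstrassCurve.b₈, h1, h2, h3, h4, h6, ← cA_add_cB]
  ring

theorem Δ_ne_zero : (P.freyCurve⁄K).Δ ≠ 0 := by
  have := charZero K
  rw [Δ_eq]
  exact div_ne_zero (pow_ne_zero _ (mul_ne_zero (mul_ne_zero (cA_ne_zero P K) (cB_ne_zero P K))
    (cC_ne_zero P K))) (by norm_num)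

end Fermat.Agent.S05.FreyInst
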