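import Fermat.Agent.S05.Local
import Fermat.Agent.S05.FreyInst

/-!
# S05, slice [H], part 3: the local parameters of the Frey curve at an odd prime `q ≠ p`

For a Frey package `P`, a field `L` over `ℚ`, a valuation subring `A` of `L` over the prime `q`
(`q ≠ 2`, `q ≠ p`) and `σ` in the inertia group of `A`, we verify all numerical hypotheses of
`Core.core` for the three Legendre normalisations

* `(e₁, e₂, d) = (a ^ p, -b ^ p, a)`   if `q ∤ b`, `q ∤ c` (covers `q ∤ abc` and `q ∣ a`),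
* `(e₁, e₂, d) = (-b ^ p, a ^ p, -b)`  if `q ∤ a`, `q ∤ c` (covers `q ∣ b`),
* `(e₁, e₂, d) = (-c ^ p, -a ^ p, -c)` if `q ∤ a`, `q ∤ b` (covers `q ∣ c`).
-/

set_option autoImplicit false
set_option linter.unusedSectionVars false

namespace Fermat.Agent.S05.LocalFrey

open Fermat.Agent.S05.Local Fermat.Agent.S05.FreyInst

variable {L : Type*} [Field L] [Algebra ℚ L]

/-- The numerical hypotheses of `Core.core`. -/
structure FreyLocal (A : ValuationSubring L) (σ : L →+* L) (e₁ e₂ d : L) (p : ℕ) : Prop where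
  h2 : A.valuation (2 : L) = 1
  he2 : A.valuation e₂ = 1
  he12 : A.valuation (e₁ - e₂) = 1
  hpA : A.valuation (p : L) = 1
  hd : e₁ = d ^ p
  hd0 : d ≠ 0
  hdA : A.valuation d ≤ 1
  hσd : σ d = d
  hσe₁ : σ e₁ = e₁
  hσe₂ : σ e₂ = e₂
  he₁0 : e₁ ≠ 0
  he₂0 : e₂ ≠ 0
  he₁₂ : e₁ ≠ e₂

section

variable (P : FreyPackage) {A : ValuationSubring L} {q : ℕ}

theorem algEquiv_intCast (σ : L ≃ₐ[ℚ] L) (n : ℤ) : (σ : L →+* L) (n : L) = n := by
  show σ (n : L) = n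
  exact map_intCast σ n

theorem algEquiv_cA (σ : L ≃ₐ[ℚ] L) : (σ : L →+* L) (cA P L) = cA P L := by
  show σ (cA P L) = cA P L
  rw [cA, AlgEquiv.commutes]

theorem algEquiv_cB (σ : L ≃ₐ[ℚ] L) : (σ : L →+* L) (cB P L) = cB P L := by
  show σ (cB P L) = cB P L
  rw [cB, AlgEquiv.commutes]

theorem algEquiv_cC (σ : L ≃ₐ[ℚ] L) : (σ : L →+* L) (cC P L) = cC P L := by
  show σ (cC P L) = cC P L
  rw [cC, AlgEquiv.commutes]

theorem valuation_cA (hq : q.Prime) (hA : A.LiesOverPrime q) :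
    A.valuation (cA P L) = 1 ↔ ¬ (q : ℤ) ∣ P.a := by
  rw [cA_eq_intCast_pow]
  exact valuation_intCast_pow_eq_one_iff hq hA P.a P.hp0

theorem valuation_cB (hq : q.Prime) (hA : A.LiesOverPrime q) :
    A.valuation (cB P L) = 1 ↔ ¬ (q : ℤ) ∣ P.b := by
  rw [cB_eq_intCast_pow]
  exact valuation_intCast_pow_eq_one_iff hq hA P.b P.hp0

theorem valuation_cC (hq : q.Prime) (hA : A.LiesOverPrime q) :
    A.valuation (cC P L) = 1 ↔ ¬ (q : ℤ) ∣ P.c := by
  rw [cC_eq_intCast_pow]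
  exact valuation_intCast_pow_eq_one_iff hq hA P.c P.hp0

theorem valuation_p (hq : q.Prime) (hA : A.LiesOverPrime q) (hqp : q ≠ P.p) :
    A.valuation (P.p : L) = 1 :=
  valuation_prime_eq_one hq hA P.pp (Ne.symm hqp)

theorem intCast_ne_zero {n : ℤ} (hn : n ≠ 0) : (n : L) ≠ 0 := by
  have := FreyInst.charZero L
  exact_mod_cast hn

theorem valuation_intCast_le_one (n : ℤ) : A.valuation (n : L) ≤ 1 :=
  (ValuationSubring.valuation_le_one_iff A _).mpr (intCast_mem n)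

theorem neg_pow_odd (x : L) : (-x) ^ P.p = -(x ^ P.p) := P.hp_odd.neg_pow x

/-- Normalisation `(e₁, e₂, d) = (a ^ p, -b ^ p, a)`, valid when `q ∤ b` and `q ∤ c`. -/
theorem freyLocal_A (hq : q.Prime) (hA : A.LiesOverPrime q) (hq2 : q ≠ 2) (hqp : q ≠ P.p)
    (hb : ¬ (q : ℤ) ∣ P.b) (hc : ¬ (q : ℤ) ∣ P.c) (σ : L ≃ₐ[ℚ] L) :
    FreyLocal A (σ : L →+* L) (cA P L) (-cB P L) ((P.a : ℤ) : L) P.p where
  h2 := valuation_two_eq_one hq hA hq2
  he2 := by rw [Valuation.map_neg]; exact (valuation_cB P hq hA).mpr hb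
  he12 := by
    rw [sub_neg_eq_add, cA_add_cB]
    exact (valuation_cC P hq hA).mpr hc
  hpA := valuation_p P hq hA hqp
  hd := cA_eq_intCast_pow P L
  hd0 := intCast_ne_zero P.ha0
  hdA := valuation_intCast_le_one _
  hσd := algEquiv_intCast σ _
  hσe₁ := algEquiv_cA P σ
  hσe₂ := by rw [map_neg, algEquiv_cB P σ]
  he₁0 := cA_ne_zero P L
  he₂0 := neg_ne_zero.mpr (cB_ne_zero P L)
  he₁₂ := cA_ne_neg_cB P L

/-- Normalisation `(e₁, e₂, d) = (-b ^ p, a ^ p, -b)`, valid when `q ∤ a` and `q ∤ c`. -/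
theorem freyLocal_B (hq : q.Prime) (hA : A.LiesOverPrime q) (hq2 : q ≠ 2) (hqp : q ≠ P.p)
    (ha : ¬ (q : ℤ) ∣ P.a) (hc : ¬ (q : ℤ) ∣ P.c) (σ : L ≃ₐ[ℚ] L) :
    FreyLocal A (σ : L →+* L) (-cB P L) (cA P L) (-((P.b : ℤ) : L)) P.p where
  h2 := valuation_two_eq_one hq hA hq2
  he2 := (valuation_cA P hq hA).mpr ha
  he12 := by
    have : -cB P L - cA P L = -(cC P L) := by rw [← cA_add_cB]; ring
    rw [this, Valuation.map_neg]
    exact (valuation_cC P hq hA).mpr hc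
  hpA := valuation_p P hq hA hqp
  hd := by rw [neg_pow_odd, cB_eq_intCast_pow P L]
  hd0 := neg_ne_zero.mpr (intCast_ne_zero P.hb0)
  hdA := by rw [Valuation.map_neg]; exact valuation_intCast_le_one _
  hσd := by rw [map_neg, algEquiv_intCast σ _]
  hσe₁ := by rw [map_neg, algEquiv_cB P σ]
  hσe₂ := algEquiv_cA P σ
  he₁0 := neg_ne_zero.mpr (cB_ne_zero P L)
  he₂0 := cA_ne_zero P L
  he₁₂ := (cA_ne_neg_cB P L).symm

/-- Normalisation `(e₁, e₂, d) = (-c ^ p, -a ^ p, -c)`, valid when `q ∤ a` and `q ∤ b`. -/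
theorem freyLocal_C (hq : q.Prime) (hA : A.LiesOverPrime q) (hq2 : q ≠ 2) (hqp : q ≠ P.p)
    (ha : ¬ (q : ℤ) ∣ P.a) (hb : ¬ (q : ℤ) ∣ P.b) (σ : L ≃ₐ[ℚ] L) :
    FreyLocal A (σ : L →+* L) (-cC P L) (-cA P L) (-((P.c : ℤ) : L)) P.p where
  h2 := valuation_two_eq_one hq hA hq2
  he2 := by rw [Valuation.map_neg]; exact (valuation_cA P hq hA).mpr ha
  he12 := by
    have : -cC P L - -cA P L = -(cB P L) := by rw [← cA_add_cB]; ring
    rw [this, Valuation.map_neg]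
    exact (valuation_cB P hq hA).mpr hb
  hpA := valuation_p P hq hA hqp
  hd := by rw [neg_pow_odd, cC_eq_intCast_pow P L]
  hd0 := neg_ne_zero.mpr (intCast_ne_zero P.hc0)
  hdA := by rw [Valuation.map_neg]; exact valuation_intCast_le_one _
  hσd := by rw [map_neg, algEquiv_intCast σ _]
  hσe₁ := by rw [map_neg, algEquiv_cC P σ]
  hσe₂ := by rw [map_neg, algEquiv_cA P σ]
  he₁0 := neg_ne_zero.mpr (cC_ne_zero P L)
  he₂0 := neg_ne_zero.mpr (cA_ne_zero P L)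
  he₁₂ := by
    intro h
    apply cB_ne_zero P L
    have : cC P L = cA P L := neg_injective h
    rw [← cA_add_cB] at this
    exact add_eq_left.mp this

/-- The case distinction: one of the three normalisations applies. -/
theorem frey_three_cases (hq : q.Prime) :
    (¬ (q : ℤ) ∣ P.b ∧ ¬ (q : ℤ) ∣ P.c) ∨ (¬ (q : ℤ) ∣ P.a ∧ ¬ (q : ℤ) ∣ P.c) ∨
      (¬ (q : ℤ) ∣ P.a ∧ ¬ (q : ℤ) ∣ P.b) := by
  rcases frey_cases P hq with h | h | h | h
  · exact Or.inl ⟨h.2.1, h.2.2⟩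
  · exact Or.inl ⟨h.2.1, h.2.2⟩
  · exact Or.inr (Or.inl ⟨h.2.1, h.2.2⟩)
  · exact Or.inr (Or.inr ⟨h.2.1, h.2.2⟩)

end

section FieldPart

variable {A : ValuationSubring L} {σ : L ≃ₐ[ℚ] L}

/-- The field part of `LegData.InertiaAct`. -/
theorem inertia_mem_iff (hσ : σ ∈ A.inertiaSubgroupIn ℚ) :
    ∀ x, (σ : L →+* L) x ∈ A ↔ x ∈ A := fun _ =>
  apply_mem_iff_of_mem_inertia ℚ hσ

theorem inertia_sub_mem (hσ : σ ∈ A.inertiaSubgroupIn ℚ) :
    ∀ x, x ∈ A → (σ : L →+* L) x - x ∈ A.nonunits := fun _ hx =>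
  apply_sub_mem_nonunits_of_mem_inertia ℚ hσ hx

theorem exists_sq [IsAlgClosed L] (x : L) : ∃ y : L, y ^ 2 = x :=
  IsAlgClosed.exists_pow_nat_eq x (by norm_num)

end FieldPart

end Fermat.Agent.S05.LocalFrey
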