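import Fermat.Agent.S05.FreyLeg
import Fermat.Agent.S05.FreyInst
import Fermat.Agent.S05.LocalFrey

/-!
# S05, slice G (part 2): the three Legendre normalisations of the Frey curve as `LegData`

For a Frey package `P` and a field `L` over `ℚ` we package the points of `P.freyCurve⁄L` with
the coordinates of `FreyLeg` as `LegData` for the three normalisations

* `legA` : `(r₀, e₁, e₂) = (0, a ^ p, -b ^ p)`,
* `legB` : `(r₀, e₁, e₂) = (0, -b ^ p, a ^ p)`,
* `legC` : `(r₀, e₁, e₂) = (a ^ p, -c ^ p, -a ^ p)`,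

together with the `InertiaAct` structure for an element of the inertia group, and the glue between
`pointHom σ P = P` and the action on `Submodule.torsionBy`.
-/

set_option autoImplicit false

noncomputable section

namespace Fermat.Agent.S05.FreyLegInst

open WeierstrassCurve WeierstrassCurve.Affine
open Fermat.Agent.S05.FreyLeg Fermat.Agent.S05.FreyInst Fermat.Agent.S05.LocalFrey

variable (P : FreyPackage) (L : Type*) [Field L] [Algebra ℚ L]

theorem two_ne_zero' : (2 : L) ≠ 0 := by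
  have := FreyInst.charZero L
  exact two_ne_zero

theorem isLegA : IsLeg (P.freyCurve⁄L) 0 (cA P L) (-cB P L) :=
  ⟨a₁_eq P L, a₃_eq P L, a₆_eq P L, (leg_zero_A_negB P L).1, (leg_zero_A_negB P L).2.1,
    (leg_zero_A_negB P L).2.2⟩

theorem isLegB : IsLeg (P.freyCurve⁄L) 0 (-cB P L) (cA P L) :=
  ⟨a₁_eq P L, a₃_eq P L, a₆_eq P L, (leg_zero_negB_A P L).1, (leg_zero_negB_A P L).2.1,
    (leg_zero_negB_A P L).2.2⟩

theorem isLegC : IsLeg (P.freyCurve⁄L) (cA P L) (-cC P L) (-cA P L) :=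
  ⟨a₁_eq P L, a₃_eq P L, a₆_eq P L, (leg_A_negC_negA P L).1, (leg_A_negC_negA P L).2.1,
    (leg_A_negC_negA P L).2.2⟩

theorem negC_ne_negA : -cC P L ≠ -cA P L := by
  intro h
  apply cB_ne_zero P L
  have : cC P L = cA P L := neg_injective h
  rw [← cA_add_cB] at this
  exact add_eq_left.mp this

variable [DecidableEq L]

/-- Legendre data `(e₁, e₂) = (a ^ p, -b ^ p)`, node (if any) at `x = 0`. -/
def legA : LegData L (P.freyCurve⁄L).toAffine.Point (cA P L) (-cB P L) :=
  legData (isLegA P L) (two_ne_zero' L) (cA_ne_zero P L) (neg_ne_zero.mpr (cB_ne_zero P L))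
    (cA_ne_neg_cB P L)

/-- Legendre data `(e₁, e₂) = (-b ^ p, a ^ p)`. -/
def legB : LegData L (P.freyCurve⁄L).toAffine.Point (-cB P L) (cA P L) :=
  legData (isLegB P L) (two_ne_zero' L) (neg_ne_zero.mpr (cB_ne_zero P L)) (cA_ne_zero P L)
    (cA_ne_neg_cB P L).symm

/-- Legendre data `(e₁, e₂) = (-c ^ p, -a ^ p)`, shifted by `r₀ = a ^ p`. -/
def legC : LegData L (P.freyCurve⁄L).toAffine.Point (-cC P L) (-cA P L) :=
  legData (isLegC P L) (two_ne_zero' L) (neg_ne_zero.mpr (cC_ne_zero P L))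
    (neg_ne_zero.mpr (cA_ne_zero P L)) (negC_ne_negA P L)

section Inertia

variable {L}
variable {A : ValuationSubring L} {σ : L ≃ₐ[ℚ] L}

theorem inertiaActA (hσ : σ ∈ A.inertiaSubgroupIn ℚ) :
    (legA P L).InertiaAct A (σ : L →+* L) (pointHom (W' := P.freyCurve) σ) :=
  inertiaAct (W' := P.freyCurve) (isLegA P L) (two_ne_zero' L) (cA_ne_zero P L)
    (neg_ne_zero.mpr (cB_ne_zero P L)) (cA_ne_neg_cB P L) A σ (map_zero σ)
    (inertia_mem_iff hσ) (inertia_sub_mem hσ)

theorem inertiaActB (hσ : σ ∈ A.inertiaSubgroupIn ℚ) :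
    (legB P L).InertiaAct A (σ : L →+* L) (pointHom (W' := P.freyCurve) σ) :=
  inertiaAct (W' := P.freyCurve) (isLegB P L) (two_ne_zero' L)
    (neg_ne_zero.mpr (cB_ne_zero P L)) (cA_ne_zero P L) (cA_ne_neg_cB P L).symm A σ (map_zero σ)
    (inertia_mem_iff hσ) (inertia_sub_mem hσ)

theorem inertiaActC (hσ : σ ∈ A.inertiaSubgroupIn ℚ) :
    (legC P L).InertiaAct A (σ : L →+* L) (pointHom (W' := P.freyCurve) σ) :=
  inertiaAct (W' := P.freyCurve) (isLegC P L) (two_ne_zero' L)
    (neg_ne_zero.mpr (cC_ne_zero P L)) (neg_ne_zero.mpr (cA_ne_zero P L)) (negC_ne_negA P L) A σ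
    (algEquiv_cA P σ) (inertia_mem_iff hσ) (inertia_sub_mem hσ)

end Inertia

section Glue

open WeierstrassCurve.Affine.Point

variable {L}

/-- Membership in `torsionBy ℤ _ n` as an `ℕ`-multiple. -/
theorem nsmul_eq_zero_of_mem_torsionBy {n : ℕ} (x : Submodule.torsionBy ℤ (P.freyCurve⁄L).Point n) :
    n • (x : (P.freyCurve⁄L).Point) = 0 := by
  have h := x.property
  rw [Submodule.mem_torsionBy_iff] at h
  rw [← natCast_zsmul]
  exact h

/-- If `σ` fixes the underlying point then it fixes the torsion element. -/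
theorem smul_torsion_eq {n : ℕ} (σ : L ≃ₐ[ℚ] L)
    (x : Submodule.torsionBy ℤ (P.freyCurve⁄L).Point n)
    (h : pointHom (W' := P.freyCurve) σ (x : (P.freyCurve⁄L).Point) = x) : σ • x = x :=
  Subtype.ext h

end Glue

end Fermat.Agent.S05.FreyLegInst
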