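import Mathlib

/-!
# S05 (Frey representation unramified at odd `q ≠ p`): shared definitions

Setting for all slices: `K` a field, `A : ValuationSubring K`, `v := A.valuation` (multiplicative:
`x ∈ A ↔ v x ≤ 1`, nonunit `↔ v x < 1`, unit `↔ v x = 1`), `W : WeierstrassCurve K` with coefficients
in `A`, points `W.toAffine.Point` with Mathlib's group law.
-/

set_option autoImplicit false

namespace Fermat.Agent.S05

open WeierstrassCurve

variable {K : Type*} [Field K]

/-- All five Weierstrass coefficients lie in the valuation ring `A`. -/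
def IntCoeffs (A : ValuationSubring K) (W : WeierstrassCurve K) : Prop :=
  W.a₁ ∈ A ∧ W.a₂ ∈ A ∧ W.a₃ ∈ A ∧ W.a₄ ∈ A ∧ W.a₆ ∈ A

/-- The kernel of reduction `E₁`: the point at infinity and the affine points with
non-integral `x`-coordinate. -/
def InE1 (A : ValuationSubring K) (W : WeierstrassCurve K) (P : W.toAffine.Point) : Prop :=
  P = 0 ∨ ∃ (x y : K) (h : W.toAffine.Nonsingular x y), P = Affine.Point.some x y h ∧ x ∉ A

/-- Data of a node of the reduction located at a `2`-torsion point `T = (xT, yT)`:
`η² = 4 ξ (ξ - D) (ξ - e)` with `ξ = x - xT`, `η = 2y + a₁x + a₃`, `D` a nonzero nonunit,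
`e` a unit. -/
structure NodeData (A : ValuationSubring K) (W : WeierstrassCurve K) where
  /-- `x`-coordinate of the `2`-torsion point reducing to the node -/
  xT : K
  /-- difference to the other root reducing to the node -/
  D : K
  /-- difference to the third root -/
  e : K
  hxT : xT ∈ A
  hD : A.valuation D < 1
  hD0 : D ≠ 0
  he : A.valuation e = 1
  hfac : ∀ x : K, 4 * x ^ 3 + W.b₂ * x ^ 2 + 2 * W.b₄ * x + W.b₆ =
    4 * (x - xT) * (x - xT - D) * (x - xT - e)

/-- `P` reduces to the node: an affine point with `v (x - xT) < 1`. -/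
def NodeData.Near {A : ValuationSubring K} {W : WeierstrassCurve K} (N : NodeData A W)
    (P : W.toAffine.Point) : Prop :=
  ∃ (x y : K) (h : W.toAffine.Nonsingular x y), P = Affine.Point.some x y h ∧
    A.valuation (x - N.xT) < 1

end Fermat.Agent.S05
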