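import Mathlib
import Fermat.Prelude.Def_FLTPrelim_FreyPackage
import Fermat.Prelude.Def_FLTPrelim_GaloisRep
import Fermat.Agent.S05.Defs

/-!
# S05, slice G: Legendre coordinates on the Frey curve

For a Weierstrass curve `W : y² + xy = x³ + a₂x² + a₄x` over a field `K` (characteristic `≠ 2`)
and constants `r0 e1 e2` with
`T³ + (4a₂+1)T² + 16a₄T = (T - r0)(T - r0 - e1)(T - r0 - e2)`,
the coordinates `X = 4x - r0`, `Y = 8y + 4x` satisfy `Y² = X (X - e1) (X - e2)`.
We transport the group law of Mathlib's `WeierstrassCurve.Affine.Point` to these coordinates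
(chord and tangent formulas, negation, 2-torsion, existence of points, Galois equivariance),
and instantiate for the Frey curve with the three choices of `(r0, e1, e2)`.
-/

set_option autoImplicit false

noncomputable section

namespace Fermat.Agent.S05.FreyLeg

open WeierstrassCurve WeierstrassCurve.Affine

variable {K : Type*} [Field K]

/-- `W` is `y² + xy = x³ + a₂x² + a₄x` and `T³ + (4a₂+1)T² + 16a₄T` has the roots
`r0, r0 + e1, r0 + e2`. -/
structure IsLeg (W : WeierstrassCurve K) (r0 e1 e2 : K) : Prop where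
  a1 : W.a₁ = 1
  a3 : W.a₃ = 0
  a6 : W.a₆ = 0
  c2 : 4 * W.a₂ + 1 = -(3 * r0 + e1 + e2)
  c1 : 16 * W.a₄ = r0 * (r0 + e1) + r0 * (r0 + e2) + (r0 + e1) * (r0 + e2)
  c0 : r0 * (r0 + e1) * (r0 + e2) = 0

/-- The Legendre `X`-coordinate `4x - r0` (junk value `0` at the origin). -/
def legX (W : WeierstrassCurve K) (r0 : K) : W.toAffine.Point → K
  | .zero => 0
  | .some x _ _ => 4 * x - r0

/-- The Legendre `Y`-coordinate `8y + 4x` (junk value `0` at the origin). -/
def legY (W : WeierstrassCurve K) : W.toAffine.Point → K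
  | .zero => 0
  | .some x y _ => 8 * y + 4 * x

variable {W : WeierstrassCurve K} {r0 e1 e2 : K}

@[simp] theorem legX_zero : legX W r0 (0 : W.toAffine.Point) = 0 := rfl
@[simp] theorem legY_zero : legY W (0 : W.toAffine.Point) = 0 := rfl
@[simp] theorem legX_some {x y : K} (h : W.toAffine.Nonsingular x y) :
    legX W r0 (Point.some x y h) = 4 * x - r0 := rfl
@[simp] theorem legY_some {x y : K} (h : W.toAffine.Nonsingular x y) :
    legY W (Point.some x y h) = 8 * y + 4 * x := rfl

/-- The equation of `W` in plain form. -/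
theorem IsLeg.equation (hW : IsLeg W r0 e1 e2) {x y : K} (h : W.toAffine.Equation x y) :
    y ^ 2 + x * y = x ^ 3 + W.a₂ * x ^ 2 + W.a₄ * x := by
  rw [Affine.equation_iff] at h
  change y ^ 2 + W.a₁ * x * y + W.a₃ * y = x ^ 3 + W.a₂ * x ^ 2 + W.a₄ * x + W.a₆ at h
  rw [hW.a1, hW.a3, hW.a6] at h
  linear_combination h

theorem IsLeg.equation_iff (hW : IsLeg W r0 e1 e2) {x y : K} :
    W.toAffine.Equation x y ↔ y ^ 2 + x * y = x ^ 3 + W.a₂ * x ^ 2 + W.a₄ * x := by
  rw [Affine.equation_iff]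
  change y ^ 2 + W.a₁ * x * y + W.a₃ * y = x ^ 3 + W.a₂ * x ^ 2 + W.a₄ * x + W.a₆ ↔ _
  rw [hW.a1, hW.a3, hW.a6]
  constructor <;> intro h <;> linear_combination h

/-- The Legendre equation for affine coordinates. -/
theorem IsLeg.leg_eq_aux (hW : IsLeg W r0 e1 e2) {x y : K}
    (h : y ^ 2 + x * y = x ^ 3 + W.a₂ * x ^ 2 + W.a₄ * x) :
    (8 * y + 4 * x) ^ 2 = (4 * x - r0) * (4 * x - r0 - e1) * (4 * x - r0 - e2) := by
  linear_combination 64 * h + 16 * x ^ 2 * hW.c2 + 4 * x * hW.c1 + hW.c0

/-- The Legendre equation `Y² = X (X - e1) (X - e2)`. -/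
theorem IsLeg.leg_eq (hW : IsLeg W r0 e1 e2) {P : W.toAffine.Point} (hP : P ≠ 0) :
    legY W P ^ 2 = legX W r0 P * (legX W r0 P - e1) * (legX W r0 P - e2) := by
  cases P with
  | zero => exact absurd rfl hP
  | some x y h => exact hW.leg_eq_aux (hW.equation h.1)

/-- Points are determined by their Legendre coordinates. -/
theorem leg_ext (h2 : (2 : K) ≠ 0) {P Q : W.toAffine.Point} (hP : P ≠ 0) (hQ : Q ≠ 0)
    (hX : legX W r0 P = legX W r0 Q) (hY : legY W P = legY W Q) : P = Q := by
  have h4 : (4 : K) ≠ 0 := by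
    have : (4 : K) = 2 * 2 := by norm_num
    rw [this]; exact mul_ne_zero h2 h2
  have h8 : (8 : K) ≠ 0 := by
    have : (8 : K) = 2 * 4 := by norm_num
    rw [this]; exact mul_ne_zero h2 h4
  cases P with
  | zero => exact absurd rfl hP
  | some x y h =>
    cases Q with
    | zero => exact absurd rfl hQ
    | some x' y' h' =>
      simp only [legX_some, legY_some] at hX hY
      have hx : x = x' := by
        have : 4 * (x - x') = 0 := by linear_combination hX
        rcases mul_eq_zero.mp this with h0 | h0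
        · exact absurd h0 h4
        · exact sub_eq_zero.mp h0
      subst hx
      have hy : y = y' := by
        have : 8 * (y - y') = 0 := by linear_combination hY
        rcases mul_eq_zero.mp this with h0 | h0
        · exact absurd h0 h8
        · exact sub_eq_zero.mp h0
      subst hy
      rfl

theorem legX_neg (P : W.toAffine.Point) : legX W r0 (-P) = legX W r0 P := by
  cases P with
  | zero => rfl
  | some x y h => rfl

theorem IsLeg.legY_neg (hW : IsLeg W r0 e1 e2) (P : W.toAffine.Point) :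
    legY W (-P) = -legY W P := by
  cases P with
  | zero =>
    change legY W (-(0 : W.toAffine.Point)) = -legY W (0 : W.toAffine.Point)
    rw [Point.neg_zero, legY_zero, neg_zero]
  | some x y h =>
    rw [Point.neg_some, legY_some, legY_some]
    simp only [negY, hW.a1, hW.a3]
    ring

theorem neg_ne_zero_of_ne_zero {P : W.toAffine.Point} (hP : P ≠ 0) : -P ≠ 0 := by
  intro h
  apply hP
  have := congrArg (fun Q => -Q) h
  simpa using this

section Add

variable [DecidableEq K]

/-- The chord formula in Legendre coordinates. -/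
theorem IsLeg.chord (hW : IsLeg W r0 e1 e2) (h2 : (2 : K) ≠ 0) {P Q : W.toAffine.Point}
    (hP : P ≠ 0) (hQ : Q ≠ 0) (hX : legX W r0 P ≠ legX W r0 Q) :
    P + Q ≠ 0 ∧
    legX W r0 (P + Q) =
      ((legY W Q - legY W P) / (legX W r0 Q - legX W r0 P)) ^ 2 + (e1 + e2)
        - legX W r0 P - legX W r0 Q ∧
    legY W (P + Q) =
      -(((legY W Q - legY W P) / (legX W r0 Q - legX W r0 P)) *
          (legX W r0 (P + Q) - legX W r0 P) + legY W P) := by
  have h4 : (4 : K) ≠ 0 := by
    have : (4 : K) = 2 * 2 := by norm_num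
    rw [this]; exact mul_ne_zero h2 h2
  cases P with
  | zero => exact absurd rfl hP
  | some x₁ y₁ h₁ =>
    cases Q with
    | zero => exact absurd rfl hQ
    | some x₂ y₂ h₂ =>
      simp only [legX_some, legY_some] at hX ⊢
      have hx : x₁ ≠ x₂ := by
        intro h; apply hX; rw [h]
      have hx' : x₁ - x₂ ≠ 0 := sub_ne_zero.mpr hx
      have hx'' : x₂ - x₁ ≠ 0 := sub_ne_zero.mpr (Ne.symm hx)
      rw [Point.add_of_X_ne hx]
      have hL : (8 * y₂ + 4 * x₂ - (8 * y₁ + 4 * x₁)) / (4 * x₂ - r0 - (4 * x₁ - r0)) =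
          2 * ((y₁ - y₂) / (x₁ - x₂)) + 1 := by
        have hden : 4 * x₂ - r0 - (4 * x₁ - r0) = 4 * (x₂ - x₁) := by ring
        rw [hden]
        field_simp
        ring
      rw [hL]
      refine ⟨Point.some_ne_zero _, ?_, ?_⟩
      · rw [legX_some]
        simp only [addX, slope_of_X_ne hx, hW.a1]
        linear_combination (-1 : K) * hW.c2
      · rw [legX_some, legY_some]
        simp only [addY, negAddY, negY, addX, slope_of_X_ne hx, hW.a1, hW.a3]
        ring

/-- `P + P = 0` iff the Legendre `Y`-coordinate vanishes (for `P ≠ 0`). -/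
theorem IsLeg.add_self_eq_zero_iff (hW : IsLeg W r0 e1 e2) (h2 : (2 : K) ≠ 0)
    {P : W.toAffine.Point} (hP : P ≠ 0) : P + P = 0 ↔ legY W P = 0 := by
  have h4 : (4 : K) ≠ 0 := by
    have : (4 : K) = 2 * 2 := by norm_num
    rw [this]; exact mul_ne_zero h2 h2
  cases P with
  | zero => exact absurd rfl hP
  | some x y h =>
    rw [legY_some]
    constructor
    · intro h0
      by_contra hne
      have hy : y ≠ W.toAffine.negY x y := by
        intro hy
        apply hne
        simp only [negY, hW.a1, hW.a3] at hy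
        linear_combination 4 * hy
      rw [Point.add_self_of_Y_ne hy] at h0
      exact Point.some_ne_zero _ h0
    · intro h0
      apply Point.add_self_of_Y_eq
      simp only [negY, hW.a1, hW.a3]
      have : 4 * (2 * y + x) = 0 := by linear_combination h0
      rcases mul_eq_zero.mp this with h | h
      · exact absurd h h4
      · linear_combination h

/-- The tangent (duplication) formula in Legendre coordinates. -/
theorem IsLeg.tangent (hW : IsLeg W r0 e1 e2) (h2 : (2 : K) ≠ 0) {P : W.toAffine.Point}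
    (hP : P ≠ 0) (hY : legY W P ≠ 0) :
    P + P ≠ 0 ∧
    legX W r0 (P + P) =
      ((3 * legX W r0 P ^ 2 - 2 * (e1 + e2) * legX W r0 P + e1 * e2) / (2 * legY W P)) ^ 2
        + (e1 + e2) - legX W r0 P - legX W r0 P ∧
    legY W (P + P) =
      -(((3 * legX W r0 P ^ 2 - 2 * (e1 + e2) * legX W r0 P + e1 * e2) / (2 * legY W P)) *
          (legX W r0 (P + P) - legX W r0 P) + legY W P) := by
  cases P with
  | zero => exact absurd rfl hP
  | some x y h =>
    simp only [legX_some, legY_some] at hY ⊢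
    have hy : y ≠ W.toAffine.negY x y := by
      intro hy
      apply hY
      simp only [negY, hW.a1, hW.a3] at hy
      linear_combination 4 * hy
    have hyx : 2 * y + x ≠ 0 := by
      intro h0
      apply hY
      linear_combination 4 * h0
    rw [Point.add_self_of_Y_ne hy]
    have hnum : 3 * (4 * x - r0) ^ 2 - 2 * (e1 + e2) * (4 * x - r0) + e1 * e2 =
        8 * (6 * x ^ 2 + (4 * W.a₂ + 1) * x + 2 * W.a₄) := by
      linear_combination (-8 * x : K) * hW.c2 - hW.c1
    have hL : (3 * (4 * x - r0) ^ 2 - 2 * (e1 + e2) * (4 * x - r0) + e1 * e2) /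
        (2 * (8 * y + 4 * x)) =
          2 * ((3 * x ^ 2 + 2 * W.a₂ * x + W.a₄ - y) / (y - (-y - x))) + 1 := by
      rw [hnum]
      have hd1 : y - (-y - x) = 2 * y + x := by ring
      have hd2 : 2 * (8 * y + 4 * x) = 8 * (2 * y + x) := by ring
      rw [hd1, hd2]
      have h8 : (8 : K) ≠ 0 := by
        have : (8 : K) = 2 * 2 * 2 := by norm_num
        rw [this]; exact mul_ne_zero (mul_ne_zero h2 h2) h2
      field_simp
      ring
    rw [hL]
    refine ⟨Point.some_ne_zero _, ?_, ?_⟩
    · rw [legX_some]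
      simp only [addX, slope_of_Y_ne rfl hy, negY, hW.a1, hW.a3]
      simp only [one_mul, sub_zero]
      linear_combination (-1 : K) * hW.c2
    · rw [legX_some, legY_some]
      simp only [addY, negAddY, negY, addX, slope_of_Y_ne rfl hy, hW.a1, hW.a3]
      simp only [one_mul, sub_zero]
      ring

omit [DecidableEq K] in
/-- Opposite Legendre coordinates give opposite points. -/
theorem IsLeg.eq_neg_of_leg (hW : IsLeg W r0 e1 e2) (h2 : (2 : K) ≠ 0) {P Q : W.toAffine.Point}
    (hP : P ≠ 0) (hQ : Q ≠ 0) (hX : legX W r0 P = legX W r0 Q) (hY : legY W P = -legY W Q) :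
    P = -Q := by
  apply leg_ext (r0 := r0) h2 hP (neg_ne_zero_of_ne_zero hQ)
  · rw [legX_neg, hX]
  · rw [hW.legY_neg, hY]

theorem IsLeg.add_eq_zero_of_leg (hW : IsLeg W r0 e1 e2) (h2 : (2 : K) ≠ 0)
    {P Q : W.toAffine.Point}
    (hP : P ≠ 0) (hQ : Q ≠ 0) (hX : legX W r0 P = legX W r0 Q) (hY : legY W P = -legY W Q) :
    P + Q = 0 := by
  rw [hW.eq_neg_of_leg h2 hP hQ hX hY, neg_add_cancel]

omit [DecidableEq K] in
/-- Equal Legendre `X`-coordinates: the points are equal or opposite. -/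
theorem IsLeg.eq_or_eq_neg_of_legX (hW : IsLeg W r0 e1 e2) (h2 : (2 : K) ≠ 0)
    {P Q : W.toAffine.Point}
    (hP : P ≠ 0) (hQ : Q ≠ 0) (hX : legX W r0 P = legX W r0 Q) : P = Q ∨ P = -Q := by
  have h1 := hW.leg_eq hP
  have h2' := hW.leg_eq hQ
  rw [hX, ← h2'] at h1
  have : (legY W P - legY W Q) * (legY W P + legY W Q) = 0 := by linear_combination h1
  rcases mul_eq_zero.mp this with h | h
  · left
    exact leg_ext (r0 := r0) h2 hP hQ hX (sub_eq_zero.mp h)
  · right
    exact hW.eq_neg_of_leg h2 hP hQ hX (eq_neg_of_add_eq_zero_left h)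

end Add

/-- Nonsingularity of every affine point when the three roots `0, e1, e2` are distinct. -/
theorem IsLeg.nonsingular_of_equation (hW : IsLeg W r0 e1 e2)
    (he1 : e1 ≠ 0) (he2 : e2 ≠ 0) (he12 : e1 ≠ e2) {x y : K}
    (h : W.toAffine.Equation x y) : W.toAffine.Nonsingular x y := by
  rw [Affine.nonsingular_iff]
  refine ⟨h, ?_⟩
  change W.a₁ * y ≠ 3 * x ^ 2 + 2 * W.a₂ * x + W.a₄ ∨ y ≠ -y - W.a₁ * x - W.a₃
  rw [hW.a1, hW.a3]
  by_contra hcon
  push Not at hcon
  obtain ⟨hx, hy⟩ := hcon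
  have heq := hW.leg_eq_aux (hW.equation h)
  have hY0 : 8 * y + 4 * x = 0 := by linear_combination 4 * hy
  rw [hY0] at heq
  -- derivative of the cubic vanishes too
  have hder : 3 * (4 * x - r0) ^ 2 - 2 * (e1 + e2) * (4 * x - r0) + e1 * e2 = 0 := by
    have hnum : 3 * (4 * x - r0) ^ 2 - 2 * (e1 + e2) * (4 * x - r0) + e1 * e2 =
        8 * (6 * x ^ 2 + (4 * W.a₂ + 1) * x + 2 * W.a₄) := by
      linear_combination (-8 * x : K) * hW.c2 - hW.c1
    rw [hnum]
    linear_combination (-16 : K) * hx + 2 * hY0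
  set X := 4 * x - r0 with hXdef
  have h0 : X * (X - e1) * (X - e2) = 0 := by rw [← heq]; ring
  rcases mul_eq_zero.mp h0 with h0 | h0
  · rcases mul_eq_zero.mp h0 with h0 | h0
    · rw [h0] at hder
      apply mul_ne_zero he1 he2
      linear_combination hder
    · have hX : X = e1 := sub_eq_zero.mp h0
      rw [hX] at hder
      apply mul_ne_zero he1 (sub_ne_zero.mpr he12)
      linear_combination hder
  · have hX : X = e2 := sub_eq_zero.mp h0
    rw [hX] at hder
    apply mul_ne_zero he2 (sub_ne_zero.mpr (Ne.symm he12))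
    linear_combination hder

/-- Every solution of the Legendre equation comes from a (unique) nonzero point. -/
theorem IsLeg.exists_point_of_eq (hW : IsLeg W r0 e1 e2) (h2 : (2 : K) ≠ 0)
    (he1 : e1 ≠ 0) (he2 : e2 ≠ 0) (he12 : e1 ≠ e2) {X Y : K}
    (hXY : Y ^ 2 = X * (X - e1) * (X - e2)) :
    ∃ P : W.toAffine.Point, P ≠ 0 ∧ legX W r0 P = X ∧ legY W P = Y := by
  have h4 : (4 : K) ≠ 0 := by
    have : (4 : K) = 2 * 2 := by norm_num
    rw [this]; exact mul_ne_zero h2 h2
  have h8 : (8 : K) ≠ 0 := by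
    have : (8 : K) = 2 * 2 * 2 := by norm_num
    rw [this]; exact mul_ne_zero (mul_ne_zero h2 h2) h2
  set x : K := (X + r0) / 4 with hx
  set y : K := (Y - 4 * x) / 8 with hy
  have hXx : 4 * x - r0 = X := by rw [hx]; field_simp; ring
  have hYy : 8 * y + 4 * x = Y := by rw [hy]; field_simp; ring
  have heq : W.toAffine.Equation x y := by
    rw [hW.equation_iff]
    have h64 : (64 : K) ≠ 0 := by
      have : (64 : K) = 8 * 8 := by norm_num
      rw [this]; exact mul_ne_zero h8 h8
    apply mul_left_cancel₀ h64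
    have e1' : (8 * y + 4 * x) ^ 2 = (4 * x - r0) * (4 * x - r0 - e1) * (4 * x - r0 - e2) := by
      rw [hXx, hYy]; exact hXY
    linear_combination e1' - 16 * x ^ 2 * hW.c2 - 4 * x * hW.c1 - hW.c0
  have hns := hW.nonsingular_of_equation he1 he2 he12 heq
  exact ⟨Point.some x y hns, Point.some_ne_zero _, by rw [legX_some, hXx],
    by rw [legY_some, hYy]⟩

/-- Over an algebraically closed field every `X` is the Legendre coordinate of a nonzero point. -/
theorem IsLeg.exists_point [IsAlgClosed K] (hW : IsLeg W r0 e1 e2) (h2 : (2 : K) ≠ 0)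
    (he1 : e1 ≠ 0) (he2 : e2 ≠ 0) (he12 : e1 ≠ e2) (X : K) :
    ∃ P : W.toAffine.Point, P ≠ 0 ∧ legX W r0 P = X := by
  obtain ⟨Y, hY⟩ := IsAlgClosed.exists_pow_nat_eq (X * (X - e1) * (X - e2)) (n := 2) (by norm_num)
  obtain ⟨P, hP, hPX, _⟩ := hW.exists_point_of_eq h2 he1 he2 he12 hY
  exact ⟨P, hP, hPX⟩

section Galois

open WeierstrassCurve.Affine.Point

universe r s v

variable {R : Type r} {S : Type s} {F : Type v} [CommRing R] [CommRing S] [Field F]
  [DecidableEq F] {W' : Affine R} [Algebra R S] [Algebra R F] [Algebra S F]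
  [IsScalarTower R S F]

theorem smul_zero_point (σ : F ≃ₐ[S] F) : σ • (0 : (W'⁄F).Point) = 0 := rfl

theorem smul_ne_zero_point (σ : F ≃ₐ[S] F) {P : (W'⁄F).Point} (hP : P ≠ 0) : σ • P ≠ 0 := by
  cases P with
  | zero => exact absurd rfl hP
  | some x y h => exact Point.some_ne_zero _

/-- The Legendre `X`-coordinate is Galois-equivariant (for `r0` fixed by `σ`). -/
theorem legX_smul (σ : F ≃ₐ[S] F) {r0 : F} (hr0 : σ r0 = r0) (P : (W'⁄F).Point) :
    legX (W'⁄F) r0 (σ • P) = σ (legX (W'⁄F) r0 P) := by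
  cases P with
  | zero =>
    show (0 : F) = σ 0
    rw [_root_.map_zero]
  | some x y h =>
    show 4 * σ x - r0 = σ (4 * x - r0)
    rw [map_sub, map_mul, hr0, map_ofNat]

/-- The Legendre `Y`-coordinate is Galois-equivariant. -/
theorem legY_smul (σ : F ≃ₐ[S] F) (P : (W'⁄F).Point) :
    legY (W'⁄F) (σ • P) = σ (legY (W'⁄F) P) := by
  cases P with
  | zero =>
    show (0 : F) = σ 0
    rw [_root_.map_zero]
  | some x y h =>
    show 8 * σ y + 4 * σ x = σ (8 * y + 4 * x)
    rw [map_add, map_mul, map_mul, map_ofNat, map_ofNat]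

end Galois

section Packaging

variable [DecidableEq K]

/-- The abstract Legendre data of `W` in the coordinates `legX`, `legY`. -/
def legData (hW : IsLeg W r0 e1 e2) (h2 : (2 : K) ≠ 0) (he1 : e1 ≠ 0) (he2 : e2 ≠ 0)
    (he12 : e1 ≠ e2) : LegData K W.toAffine.Point e1 e2 where
  X := legX W r0
  Y := legY W
  eqn := fun _ hP => hW.leg_eq hP
  ext := fun _ _ hP hQ hX hY => leg_ext (r0 := r0) h2 hP hQ hX hY
  X_neg := fun P _ => legX_neg P
  Y_neg := fun P _ => hW.legY_neg P
  add_ne := fun _ _ hP hQ hX => (hW.chord h2 hP hQ hX).1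
  add_X := fun _ _ hP hQ hX => (hW.chord h2 hP hQ hX).2.1
  add_Y := fun _ _ hP hQ hX => (hW.chord h2 hP hQ hX).2.2
  two_of_Y := fun _ hP hY => (hW.add_self_eq_zero_iff h2 hP).mpr hY
  dbl_ne := fun _ hP hY => (hW.tangent h2 hP hY).1
  dbl_X := fun P hP hY => by
    rw [(hW.tangent h2 hP hY).2.1]; ring
  dbl_Y := fun _ hP hY => (hW.tangent h2 hP hY).2.2
  exists_point := fun _ _ hxy => hW.exists_point_of_eq h2 he1 he2 he12 hxy

@[simp] theorem legData_X (hW : IsLeg W r0 e1 e2) (h2 : (2 : K) ≠ 0) (he1 : e1 ≠ 0)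
    (he2 : e2 ≠ 0) (he12 : e1 ≠ e2) (P : W.toAffine.Point) :
    (legData hW h2 he1 he2 he12).X P = legX W r0 P := rfl

@[simp] theorem legData_Y (hW : IsLeg W r0 e1 e2) (h2 : (2 : K) ≠ 0) (he1 : e1 ≠ 0)
    (he2 : e2 ≠ 0) (he12 : e1 ≠ e2) (P : W.toAffine.Point) :
    (legData hW h2 he1 he2 he12).Y P = legY W P := rfl

end Packaging

section GaloisPackaging

open WeierstrassCurve.Affine.Point

universe r s v

variable {R : Type r} {S : Type s} {F : Type v} [CommRing R] [CommRing S] [Field F]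
  [DecidableEq F] {W' : Affine R} [Algebra R S] [Algebra R F] [Algebra S F]
  [IsScalarTower R S F]

/-- The action of `σ` on points as an additive group homomorphism. -/
def pointHom (σ : F ≃ₐ[S] F) : (W'⁄F).Point →+ (W'⁄F).Point := Point.map σ.toAlgHom

theorem pointHom_apply (σ : F ≃ₐ[S] F) (P : (W'⁄F).Point) :
    pointHom (W' := W') σ P = σ • P := rfl

/-- An automorphism preserving `A` and trivial on its residue field gives an `InertiaAct`
on the Legendre data. -/
theorem inertiaAct {r0 e1 e2 : F} (hW : IsLeg (W'⁄F) r0 e1 e2) (h2 : (2 : F) ≠ 0)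
    (he1 : e1 ≠ 0) (he2 : e2 ≠ 0) (he12 : e1 ≠ e2) (A : ValuationSubring F)
    (σ : F ≃ₐ[S] F) (hr0 : σ r0 = r0) (hmem : ∀ x, σ x ∈ A ↔ x ∈ A)
    (hsub : ∀ x, x ∈ A → σ x - x ∈ A.nonunits) :
    (legData hW h2 he1 he2 he12).InertiaAct A (σ : F →+* F) (pointHom (W' := W') σ) where
  mem_iff := hmem
  sub_mem := hsub
  inj := fun P hP => by
    by_contra hne
    exact smul_ne_zero_point σ hne hP
  X_map := fun P _ => legX_smul σ hr0 P
  Y_map := fun P _ => legY_smul σ P

end GaloisPackaging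

end Fermat.Agent.S05.FreyLeg
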