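import Fermat.Agent.S05.Defs

/-!
# S05 (project L), slice [C]: the inertia lemma

Let `A` be a valuation subring of `K`, `D : LegData K G e₁ e₂`, and `(σ, s)` an inertia element
(`D.InertiaAct A σ s`).  If `P ≠ 0` has integral `X`-coordinate and non-singular reduction
(`Y P` is a unit, or `f'(X P)` is a unit), then `s P - P` lies in the kernel of reduction
`K1 = {0} ∪ {X ∉ A}`.
-/

set_option autoImplicit false
set_option linter.unusedSectionVars false
set_option linter.unusedVariables false

namespace Fermat.Agent.S05.Inertia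

open Fermat.Agent.S05 Fermat.Agent.S05.LegData

variable {K : Type*} [Field K] [CharZero K] {G : Type*} [AddCommGroup G] {e₁ e₂ : K}
  (D : LegData K G e₁ e₂) (A : ValuationSubring K)

/-! ### Valuation helpers -/

theorem mem_of_sq_mem {y : K} (h : y ^ 2 ∈ A) : y ∈ A := by
  rw [← A.valuation_le_one_iff] at h ⊢
  rw [map_pow] at h
  exact (pow_le_one_iff two_ne_zero).mp h

theorem one_lt_val_sq_add {L r : K} (hL : 1 < A.valuation L) (hr : r ∈ A) :
    1 < A.valuation (L ^ 2 + r) := by
  have h1 : 1 < A.valuation (L ^ 2) := by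
    rw [map_pow]; exact one_lt_pow₀ hL two_ne_zero
  have h2 : A.valuation r ≤ 1 := (A.valuation_le_one_iff r).mpr hr
  rw [Valuation.map_add_eq_of_lt_left _ (lt_of_le_of_lt h2 h1)]
  exact h1

theorem val_eq_one_of_add {a b : K} (ha : A.valuation a = 1) (hb : A.valuation b < 1) :
    A.valuation (a + b) = 1 := by
  rw [Valuation.map_add_eq_of_lt_left _ (by rw [ha]; exact hb), ha]

theorem one_lt_val_div {a b : K} (ha : A.valuation a = 1) (hb : A.valuation b < 1) (hb0 : b ≠ 0) :
    1 < A.valuation (a / b) := by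
  rw [map_div₀, ha, one_div]
  have : A.valuation b ≠ 0 := (Valuation.ne_zero_iff _).mpr hb0
  exact (one_lt_inv₀ (zero_lt_iff.mpr this)).mpr hb

/-! ### `K1` is stable under negation and under the inertia element -/

theorem K1_zero : D.K1 A 0 := Or.inl rfl

theorem K1_neg {P : G} (h : D.K1 A P) : D.K1 A (-P) := by
  rcases h with rfl | h
  · left; simp
  · by_cases hP : P = 0
    · left; simp [hP]
    · right; rwa [D.X_neg P hP]

theorem K1_map {σ : K →+* K} {s : G →+ G} (h : D.InertiaAct A σ s) {P : G} (hP : D.K1 A P) :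
    D.K1 A (s P) := by
  rcases hP with rfl | hP
  · left; simp
  · by_cases hP0 : P = 0
    · left; simp [hP0]
    · right
      rw [h.X_map P hP0]
      rw [← not_le, A.valuation_le_one_iff] at hP ⊢
      rwa [h.mem_iff]

/-- The `Y`-coordinate of a point with integral `X`-coordinate is integral. -/
theorem Y_mem (he₁ : e₁ ∈ A) (he₂ : e₂ ∈ A) {P : G} (hP : P ≠ 0) (hX : D.X P ∈ A) :
    D.Y P ∈ A := by
  apply mem_of_sq_mem
  rw [D.eqn P hP]
  exact A.mul_mem _ _ (A.mul_mem _ _ hX (A.toSubring.sub_mem hX he₁)) (A.toSubring.sub_mem hX he₂)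

/-- **The inertia lemma.**  For `P ≠ 0` with integral `X`-coordinate and non-singular reduction,
`s P - P` lies in the kernel of reduction. -/
theorem inertia_lemma {σ : K →+* K} {s : G →+ G} (h : D.InertiaAct A σ s)
    (he₁ : e₁ ∈ A) (he₂ : e₂ ∈ A) (h2 : A.valuation 2 = 1)
    {P : G} (hP : P ≠ 0) (hX : D.X P ∈ A)
    (hns : A.valuation (D.Y P) = 1 ∨
      A.valuation (3 * D.X P ^ 2 - 2 * (e₁ + e₂) * D.X P + e₁ * e₂) = 1) :
    D.K1 A (s P - P) := by
  have hsP : s P ≠ 0 := fun h0 => hP (h.inj P h0)
  have hx' : D.X (s P) = σ (D.X P) := h.X_map P hP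
  have hy' : D.Y (s P) = σ (D.Y P) := h.Y_map P hP
  have hyA : D.Y P ∈ A := Y_mem D A he₁ he₂ hP hX
  have hxm : A.valuation (σ (D.X P) - D.X P) < 1 :=
    A.mem_nonunits_iff.mp (h.sub_mem _ hX)
  have hym : A.valuation (σ (D.Y P) - D.Y P) < 1 :=
    A.mem_nonunits_iff.mp (h.sub_mem _ hyA)
  have hσx : σ (D.X P) ∈ A := (h.mem_iff _).mpr hX
  have hnP : -P ≠ 0 := neg_ne_zero.mpr hP
  have h2A : (2 : K) ∈ A := (A.valuation_le_one_iff 2).mp (le_of_eq h2)
  have eP := D.eqn P hP
  have eQ := D.eqn (s P) hsP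
  rw [hx', hy'] at eQ
  rw [sub_eq_add_neg]
  by_cases hxx : σ (D.X P) = D.X P
  · -- `s P` and `P` have the same `X`-coordinate
    rcases D.eq_or_eq_neg_of_X_eq hsP hP (by rw [hx', hxx]) with h1 | h1
    · left; rw [h1]; simp
    · -- `s P = -P`, so `Y P ∈ 𝔪` and `2 P ∈ K1`
      have hσy : σ (D.Y P) = -D.Y P := by rw [← hy', h1, D.Y_neg P hP]
      have hylt : A.valuation (D.Y P) < 1 := by
        have h3 : σ (D.Y P) - D.Y P = -(2 * D.Y P) := by rw [hσy]; ring
        rw [h3, Valuation.map_neg, map_mul, h2, one_mul] at hym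
        exact hym
      have hf := hns.resolve_left (ne_of_lt hylt)
      by_cases hy0 : D.Y P = 0
      · left
        rw [h1, ← neg_add, D.two_of_Y P hP hy0, neg_zero]
      · right
        rw [h1, ← neg_add, D.X_neg _ (D.dbl_ne P hP hy0), D.dbl_X P hP hy0]
        have h4 : 1 < A.valuation
            ((3 * D.X P ^ 2 - 2 * (e₁ + e₂) * D.X P + e₁ * e₂) / (2 * D.Y P)) := by
          apply one_lt_val_div A hf
          · rw [map_mul, h2, one_mul]; exact hylt
          · exact mul_ne_zero two_ne_zero hy0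
        have h5 := one_lt_val_sq_add A h4 (r := (e₁ + e₂) - 2 * D.X P)
          (A.toSubring.sub_mem (A.add_mem _ _ he₁ he₂) (A.mul_mem _ _ h2A hX))
        convert h5 using 2
        ring
  · -- chord case
    have hgen : D.X (s P) ≠ D.X (-P) := by rw [hx', D.X_neg P hP]; exact hxx
    have hd0 : D.X P - σ (D.X P) ≠ 0 := sub_ne_zero.mpr (Ne.symm hxx)
    have hdv : A.valuation (D.X P - σ (D.X P)) < 1 := by
      rw [Valuation.map_sub_swap]; exact hxm
    right
    rw [D.add_X (s P) (-P) hsP hnP hgen, hx', hy', D.X_neg P hP, D.Y_neg P hP]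
    have h4 : 1 < A.valuation ((-D.Y P - σ (D.Y P)) / (D.X P - σ (D.X P))) := by
      rcases hns with hY | hf
      · -- `Y P` is a unit: the numerator is a unit
        apply one_lt_val_div A _ hdv hd0
        have h3 : -D.Y P - σ (D.Y P) = -(2 * D.Y P + (σ (D.Y P) - D.Y P)) := by ring
        rw [h3, Valuation.map_neg]
        apply val_eq_one_of_add A _ hym
        rw [map_mul, h2, hY, one_mul]
      · -- `f'(X P)` is a unit
        set x := D.X P with hxdef
        set y := D.Y P with hydef
        set g : K := σ x ^ 2 + σ x * x + x ^ 2 - (e₁ + e₂) * (σ x + x) + e₁ * e₂ with hg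
        have hgv : A.valuation g = 1 := by
          have h3 : g = (3 * x ^ 2 - 2 * (e₁ + e₂) * x + e₁ * e₂)
              + (σ x - x) * (σ x + 2 * x - (e₁ + e₂)) := by rw [hg]; ring
          rw [h3]
          apply val_eq_one_of_add A hf
          rw [map_mul]
          have h5 : A.valuation (σ x + 2 * x - (e₁ + e₂)) ≤ 1 := by
            rw [A.valuation_le_one_iff]
            exact A.toSubring.sub_mem (A.add_mem _ _ hσx (A.mul_mem _ _ h2A hX))
              (A.add_mem _ _ he₁ he₂)
          calc A.valuation (σ x - x) * A.valuation (σ x + 2 * x - (e₁ + e₂))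
              ≤ A.valuation (σ x - x) * 1 := by gcongr
            _ < 1 := by rw [mul_one]; exact hxm
        have hkey : (-y - σ y) / (x - σ x) * (σ y - y) = g := by
          rw [div_mul_eq_mul_div, div_eq_iff hd0, hg]
          linear_combination eP - eQ
        have h6 : A.valuation ((-y - σ y) / (x - σ x)) * A.valuation (σ y - y) = 1 := by
          rw [← map_mul, hkey, hgv]
        by_contra hcon
        rw [not_lt] at hcon
        have : A.valuation ((-y - σ y) / (x - σ x)) * A.valuation (σ y - y) < 1 := by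
          calc A.valuation ((-y - σ y) / (x - σ x)) * A.valuation (σ y - y)
              ≤ 1 * A.valuation (σ y - y) := by gcongr
            _ < 1 := by rw [one_mul]; exact hym
        rw [h6] at this
        exact lt_irrefl _ this
    have h5 := one_lt_val_sq_add A h4 (r := (e₁ + e₂) - σ (D.X P) - D.X P)
      (A.toSubring.sub_mem (A.toSubring.sub_mem (A.add_mem _ _ he₁ he₂) hσx) hX)
    convert h5 using 2
    ring

end Fermat.Agent.S05.Inertia
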