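import Fermat.Agent.S05.Defs

/-!
# S05 (project L), slice [B], part 2: no torsion in the kernel of reduction

`tau P = X P / Y P` is the local parameter at the origin.  Given the "key lemma" of the kernel of
reduction, packaged as the structure `KerRules` (the sum of two points of `K1` is in `K1`, and
`tau P + tau Q = tau (P + Q) * (1 + tau P * tau Q * κ)` with `κ` integral), we prove by induction
that `tau (j • P) ≡ j * tau P` modulo `tau P ^ 3`, hence `n • P ≠ 0` for `P ∈ K1`, `P ≠ 0`,
whenever `n` is a unit of the valuation ring.
-/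

set_option autoImplicit false
set_option linter.unusedSectionVars false

namespace Fermat.Agent.S05.KernelInd

open Fermat.Agent.S05

variable {K : Type*} [Field K] [CharZero K] {G : Type*} [AddCommGroup G] {e₁ e₂ : K}
  (D : LegData K G e₁ e₂) (A : ValuationSubring K)

/-- The local parameter at the origin. -/
noncomputable def tau (P : G) : K := D.X P / D.Y P

theorem tau_neg {P : G} (hP : P ≠ 0) : tau D (-P) = -tau D P := by
  unfold tau
  rw [D.X_neg P hP, D.Y_neg P hP, div_neg]

/-- The key lemma of the kernel of reduction, as a hypothesis. -/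
structure KerRules : Prop where
  tau_ne : ∀ P, P ≠ 0 → D.K1 A P → tau D P ≠ 0
  tau_lt : ∀ P, P ≠ 0 → D.K1 A P → A.valuation (tau D P) < 1
  add : ∀ P Q, P ≠ 0 → Q ≠ 0 → D.K1 A P → D.K1 A Q → P + Q ≠ 0 →
    D.K1 A (P + Q) ∧ ∃ κ : K, A.valuation κ ≤ 1 ∧
      tau D P + tau D Q = tau D (P + Q) * (1 + tau D P * tau D Q * κ)

variable {D A}

theorem valuation_natCast_le_one (j : ℕ) : A.valuation (j : K) ≤ 1 :=
  (A.valuation_le_one_iff _).mpr (natCast_mem A j)

/-- The induction: `j • P ∈ K1`; if `j • P = 0` then `j ∈ t² A`; otherwise
`tau (j • P) - j t ∈ t³ A`, where `t = tau P`. -/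
theorem induction_step (R : KerRules D A) {P : G} (hP : P ≠ 0) (hK : D.K1 A P) (j : ℕ)
    (hj : 0 < j) :
    D.K1 A (j • P) ∧
      (j • P = 0 → A.valuation (j : K) ≤ A.valuation (tau D P) ^ 2) ∧
      (j • P ≠ 0 → A.valuation (tau D (j • P) - j * tau D P) ≤ A.valuation (tau D P) ^ 3) := by
  induction j, hj using Nat.le_induction with
  | base =>
    have h1 : Nat.succ 0 • P = P := one_smul ℕ P
    refine ⟨by rw [h1]; exact hK, fun h => absurd (h1 ▸ h) hP, fun _ => ?_⟩
    rw [h1]
    have : tau D P - ((Nat.succ 0 : ℕ) : K) * tau D P = 0 := by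
      rw [show Nat.succ 0 = 1 from rfl, Nat.cast_one]; ring
    rw [this, Valuation.map_zero]
    exact zero_le
  | succ j hj ih =>
    obtain ⟨ihK, ih0, ih1⟩ := ih
    have ht0 : tau D P ≠ 0 := R.tau_ne P hP hK
    have htlt : A.valuation (tau D P) < 1 := R.tau_lt P hP hK
    have hT0 : A.valuation (tau D P) ≠ 0 := (Valuation.ne_zero_iff _).mpr ht0
    have hsucc : (j + 1) • P = j • P + P := succ_nsmul P j
    by_cases hQ : j • P = 0
    · -- `(j+1) • P = P`
      have h1 : (j + 1) • P = P := by rw [hsucc, hQ, zero_add]
      refine ⟨by rw [h1]; exact hK, fun h => absurd (h1 ▸ h) hP, fun _ => ?_⟩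
      rw [h1]
      have : tau D P - ((j + 1 : ℕ) : K) * tau D P = -((j : K) * tau D P) := by
        push_cast; ring
      rw [this, Valuation.map_neg, Valuation.map_mul, pow_succ]
      exact mul_le_mul_left (ih0 hQ) _
    · have ihτ := ih1 hQ
      -- `v (tau (j • P)) ≤ v t`
      have hτj : A.valuation (tau D (j • P)) ≤ A.valuation (tau D P) := by
        have : tau D (j • P) = (tau D (j • P) - j * tau D P) + j * tau D P := by ring
        rw [this]
        refine le_trans (Valuation.map_add _ _ _) (max_le ?_ ?_)
        · refine le_trans ihτ ?_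
          calc A.valuation (tau D P) ^ 3 = A.valuation (tau D P) ^ 2 * A.valuation (tau D P) := pow_succ _ _
            _ ≤ 1 * A.valuation (tau D P) :=
              mul_le_mul_left (pow_le_one' htlt.le 2) _
            _ = A.valuation (tau D P) := one_mul _
        · rw [Valuation.map_mul]
          calc A.valuation (j : K) * A.valuation (tau D P) ≤ 1 * A.valuation (tau D P) :=
              mul_le_mul_left (valuation_natCast_le_one j) _
            _ = A.valuation (tau D P) := one_mul _
      by_cases hS : j • P + P = 0
      · -- `(j+1) • P = 0`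
        have h0 : (j + 1) • P = 0 := by rw [hsucc, hS]
        refine ⟨by rw [h0]; exact Or.inl rfl, fun _ => ?_, fun h => absurd h0 h⟩
        have hQP : j • P = -P := eq_neg_of_add_eq_zero_left hS
        have hτ : tau D (j • P) = -tau D P := by rw [hQP, tau_neg D hP]
        rw [hτ] at ihτ
        have : -tau D P - (j : K) * tau D P = -(((j + 1 : ℕ) : K) * tau D P) := by
          push_cast; ring
        rw [this, Valuation.map_neg, Valuation.map_mul, pow_succ] at ihτ
        exact le_of_mul_le_mul_right ihτ (zero_lt_iff.mpr hT0)
      · -- generic case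
        obtain ⟨hK', κ, hκ, hadd⟩ := R.add (j • P) P hQ hP ihK hK hS
        refine ⟨by rw [hsucc]; exact hK', fun h => absurd (hsucc ▸ h) hS, fun _ => ?_⟩
        rw [hsucc]
        set τj := tau D (j • P) with hτjdef
        set t := tau D P with htdef
        set τ' := tau D (j • P + P) with hτ'def
        -- `w = 1 + τj t κ` is a unit
        have hsmall : A.valuation (τj * t * κ) < 1 := by
          rw [Valuation.map_mul, Valuation.map_mul]
          calc A.valuation τj * A.valuation t * A.valuation κ
              ≤ A.valuation t * A.valuation t * 1 := by gcongr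
            _ = A.valuation t * A.valuation t := mul_one _
            _ < 1 := mul_lt_one' htlt htlt
        have hw : A.valuation (1 + τj * t * κ) = 1 := Valuation.map_one_add_of_lt _ hsmall
        have hτ'le : A.valuation τ' ≤ A.valuation t := by
          have h1 : A.valuation (τj + t) = A.valuation τ' := by
            rw [hadd, Valuation.map_mul, hw, mul_one]
          rw [← h1]
          exact le_trans (Valuation.map_add _ _ _) (max_le hτj le_rfl)
        have hdiff : τ' - (τj + t) = -(τ' * τj * t * κ) := by rw [hadd]; ring
        have hd : A.valuation (τ' - (τj + t)) ≤ A.valuation t ^ 3 := by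
          rw [hdiff, Valuation.map_neg, Valuation.map_mul, Valuation.map_mul, Valuation.map_mul]
          calc A.valuation τ' * A.valuation τj * A.valuation t * A.valuation κ
              ≤ A.valuation t * A.valuation t * A.valuation t * 1 := by gcongr
            _ = A.valuation t ^ 3 := by rw [mul_one, pow_succ, pow_two]
        have : τ' - ((j + 1 : ℕ) : K) * t = (τ' - (τj + t)) + (τj - j * t) := by
          push_cast; ring
        rw [this]
        exact le_trans (Valuation.map_add _ _ _) (max_le hd ihτ)

/-- **No torsion in the kernel of reduction**: a non-zero point of `K1` is not killed by an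
integer which is a unit of the valuation ring. -/
theorem nsmul_ne_zero (R : KerRules D A) {n : ℕ} (hn : A.valuation (n : K) = 1) {P : G}
    (hP : P ≠ 0) (hK : D.K1 A P) : n • P ≠ 0 := by
  intro h
  have hn0 : 0 < n := by
    rcases Nat.eq_zero_or_pos n with h0 | h0
    · subst h0
      rw [Nat.cast_zero, Valuation.map_zero] at hn
      exact absurd hn zero_ne_one
    · exact h0
  have h1 := (induction_step R hP hK n hn0).2.1 h
  have htlt : A.valuation (tau D P) < 1 := R.tau_lt P hP hK
  rw [hn] at h1
  have : A.valuation (tau D P) ^ 2 < 1 := pow_lt_one' htlt (by norm_num)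
  exact absurd (lt_of_le_of_lt h1 this) (lt_irrefl _)

/-- Variant: `n • P = 0`, `P ∈ K1`, `n` a unit, imply `P = 0`. -/
theorem eq_zero_of_nsmul_eq_zero (R : KerRules D A) {n : ℕ} (hn : A.valuation (n : K) = 1) {P : G}
    (hK : D.K1 A P) (h : n • P = 0) : P = 0 := by
  by_contra hP
  exact nsmul_ne_zero R hn hP hK h

end Fermat.Agent.S05.KernelInd
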