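import Mathlib
import Fermat.Prelude.Def_FLTPrelim_Ramification

/-!
# S05, slice [H]: local facts

* elements of the inertia group of a valuation subring `A` preserve `A` and act trivially modulo
  the maximal ideal;
* integers in a valuation subring lying over a prime `q`;
* divisibility of `a, b, c` of a Frey package by an odd prime.
-/

set_option autoImplicit false

namespace Fermat.Agent.S05.Local

open scoped Pointwise

section Inertia

variable (K : Type*) {L : Type*} [Field K] [Field L] [Algebra K L] {A : ValuationSubring L}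
  {σ : L ≃ₐ[K] L}

/-- Elements of the inertia group lie in the decomposition group. -/
theorem smul_eq_of_mem_inertia (hσ : σ ∈ A.inertiaSubgroupIn K) : σ • A = A := by
  obtain ⟨g, -, rfl⟩ := hσ
  exact g.2

theorem apply_mem_of_mem_inertia (hσ : σ ∈ A.inertiaSubgroupIn K) {x : L} (hx : x ∈ A) :
    σ x ∈ A := by
  have h := smul_eq_of_mem_inertia K hσ
  rw [← h]
  exact ValuationSubring.smul_mem_pointwise_smul σ x A hx

theorem inv_mem_inertia (hσ : σ ∈ A.inertiaSubgroupIn K) : σ⁻¹ ∈ A.inertiaSubgroupIn K :=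
  inv_mem hσ

theorem apply_mem_iff_of_mem_inertia (hσ : σ ∈ A.inertiaSubgroupIn K) {x : L} :
    σ x ∈ A ↔ x ∈ A := by
  refine ⟨fun h => ?_, apply_mem_of_mem_inertia K hσ⟩
  have := apply_mem_of_mem_inertia K (inv_mem_inertia K hσ) h
  simpa using this

/-- Elements of the inertia group act trivially modulo the maximal ideal. -/
theorem apply_sub_mem_nonunits_of_mem_inertia (hσ : σ ∈ A.inertiaSubgroupIn K) {x : L}
    (hx : x ∈ A) : σ x - x ∈ A.nonunits := by
  obtain ⟨g, hg, rfl⟩ := hσ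
  have h1 : g • (IsLocalRing.residue A ⟨x, hx⟩) = IsLocalRing.residue A ⟨x, hx⟩ := by
    have := RingEquiv.congr_fun (MonoidHom.mem_ker.mp hg) (IsLocalRing.residue A ⟨x, hx⟩)
    exact this
  rw [← IsLocalRing.ResidueField.residue_smul, ← sub_eq_zero, ← map_sub,
    IsLocalRing.residue_eq_zero_iff] at h1
  exact ValuationSubring.coe_mem_nonunits_iff.mpr h1

theorem apply_mem_nonunits_of_mem_inertia (hσ : σ ∈ A.inertiaSubgroupIn K) {x : L}
    (hx : x ∈ A.nonunits) : σ x ∈ A.nonunits := by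
  have hxA : x ∈ A := ValuationSubring.nonunits_subset hx
  have h := apply_sub_mem_nonunits_of_mem_inertia K hσ hxA
  have h2 : σ x = (σ x - x) + x := by ring
  rw [h2]
  rw [ValuationSubring.mem_nonunits_iff] at h hx ⊢
  exact lt_of_le_of_lt (A.valuation.map_add _ _) (max_lt h hx)

theorem apply_mem_nonunits_iff_of_mem_inertia (hσ : σ ∈ A.inertiaSubgroupIn K) {x : L} :
    σ x ∈ A.nonunits ↔ x ∈ A.nonunits := by
  refine ⟨fun h => ?_, apply_mem_nonunits_of_mem_inertia K hσ⟩
  have := apply_mem_nonunits_of_mem_inertia K (inv_mem_inertia K hσ) h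
  simpa using this

/-- `σ` preserves the valuation of units. -/
theorem valuation_apply_eq_one_iff_of_mem_inertia (hσ : σ ∈ A.inertiaSubgroupIn K) {x : L} :
    A.valuation (σ x) = 1 ↔ A.valuation x = 1 := by
  have key : ∀ y : L, A.valuation y = 1 ↔ y ∈ A ∧ y ∉ A.nonunits := by
    intro y
    rw [ValuationSubring.mem_nonunits_iff, ← ValuationSubring.valuation_le_one_iff, not_lt]
    exact ⟨fun h => ⟨h.le, h.ge⟩, fun h => le_antisymm h.1 h.2⟩
  rw [key, key, apply_mem_iff_of_mem_inertia K hσ, apply_mem_nonunits_iff_of_mem_inertia K hσ]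

end Inertia

section Integers

variable {L : Type*} [Field L] {A : ValuationSubring L}

theorem intCast_mem (n : ℤ) : (n : L) ∈ A := _root_.intCast_mem A n

theorem natCast_mem' (n : ℕ) : (n : L) ∈ A := _root_.natCast_mem A n

variable {q : ℕ}

/-- An integer is a non-unit of a valuation subring lying over the prime `q` iff `q` divides it. -/
theorem intCast_mem_nonunits_iff (hq : q.Prime) (hA : A.LiesOverPrime q) (n : ℤ) :
    (n : L) ∈ A.nonunits ↔ (q : ℤ) ∣ n := by
  constructor
  · intro hn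
    by_contra hdvd
    have hcop : IsCoprime (q : ℤ) n := by
      rw [Int.isCoprime_iff_gcd_eq_one]
      exact Int.isCoprime_iff_gcd_eq_one.mp
        ((Prime.coprime_iff_not_dvd (Nat.prime_iff_prime_int.mp hq)).mpr hdvd)
    obtain ⟨u, v, huv⟩ := hcop
    have h1 : (1 : L) = (u : L) * (q : L) + (v : L) * (n : L) := by
      have := congrArg (Int.cast : ℤ → L) huv
      push_cast at this
      exact this.symm
    have hq' : A.valuation (q : L) < 1 := (ValuationSubring.mem_nonunits_iff A).mp hA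
    have hn' : A.valuation (n : L) < 1 := (ValuationSubring.mem_nonunits_iff A).mp hn
    have hu : A.valuation (u : L) ≤ 1 := (ValuationSubring.valuation_le_one_iff A _).mpr (intCast_mem u)
    have hv : A.valuation (v : L) ≤ 1 := (ValuationSubring.valuation_le_one_iff A _).mpr (intCast_mem v)
    have h2 : A.valuation (1 : L) < 1 := by
      rw [h1]
      refine lt_of_le_of_lt (A.valuation.map_add _ _) (max_lt ?_ ?_)
      · rw [map_mul]
        exact mul_lt_one_of_nonneg_of_lt_one_right hu zero_le hq'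
      · rw [map_mul]
        exact mul_lt_one_of_nonneg_of_lt_one_right hv zero_le hn'
    rw [map_one] at h2
    exact lt_irrefl _ h2
  · rintro ⟨m, rfl⟩
    rw [ValuationSubring.mem_nonunits_iff]
    push_cast
    rw [map_mul]
    have hq' : A.valuation (q : L) < 1 := (ValuationSubring.mem_nonunits_iff A).mp hA
    have hm : A.valuation (m : L) ≤ 1 := (ValuationSubring.valuation_le_one_iff A _).mpr (intCast_mem m)
    exact mul_lt_one_of_nonneg_of_lt_one_left zero_le hq' hm

theorem valuation_intCast_eq_one_iff (hq : q.Prime) (hA : A.LiesOverPrime q) (n : ℤ) :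
    A.valuation (n : L) = 1 ↔ ¬ (q : ℤ) ∣ n := by
  rw [← intCast_mem_nonunits_iff hq hA n, ValuationSubring.mem_nonunits_iff, not_lt]
  have hn : A.valuation (n : L) ≤ 1 := (ValuationSubring.valuation_le_one_iff A _).mpr (intCast_mem n)
  exact ⟨fun h => h.ge, fun h => le_antisymm hn h⟩

theorem valuation_natCast_eq_one_iff (hq : q.Prime) (hA : A.LiesOverPrime q) (n : ℕ) :
    A.valuation (n : L) = 1 ↔ ¬ q ∣ n := by
  have := valuation_intCast_eq_one_iff (L := L) hq hA (n : ℤ)
  rw [Int.natCast_dvd_natCast] at this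
  simpa using this

theorem valuation_intCast_lt_one_iff (hq : q.Prime) (hA : A.LiesOverPrime q) (n : ℤ) :
    A.valuation (n : L) < 1 ↔ (q : ℤ) ∣ n := by
  rw [← intCast_mem_nonunits_iff hq hA n, ValuationSubring.mem_nonunits_iff]

/-- A prime different from `q` is a unit. -/
theorem valuation_prime_eq_one (hq : q.Prime) (hA : A.LiesOverPrime q) {l : ℕ} (hl : l.Prime)
    (hlq : l ≠ q) : A.valuation (l : L) = 1 := by
  rw [valuation_natCast_eq_one_iff hq hA]
  intro h
  exact hlq ((Nat.prime_dvd_prime_iff_eq hq hl).mp h).symm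

theorem valuation_two_eq_one (hq : q.Prime) (hA : A.LiesOverPrime q) (hq2 : q ≠ 2) :
    A.valuation (2 : L) = 1 := by
  have := valuation_prime_eq_one (L := L) hq hA Nat.prime_two (Ne.symm hq2)
  simpa using this

/-- The field has characteristic zero or `q`... in particular `q ≠ 0` in `L` unless trivial; we
record that `L` has characteristic different from every prime `l ≠ q`. -/
theorem natCast_ne_zero_of_not_dvd (hq : q.Prime) (hA : A.LiesOverPrime q) {n : ℕ} (hn : ¬ q ∣ n) :
    (n : L) ≠ 0 := by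
  intro h0
  have := (valuation_natCast_eq_one_iff hq hA n).mpr hn
  rw [h0, map_zero] at this
  exact zero_ne_one this

theorem valuation_intCast_pow_eq_one_iff (hq : q.Prime) (hA : A.LiesOverPrime q) (n : ℤ) {p : ℕ}
    (hp : p ≠ 0) : A.valuation ((n : L) ^ p) = 1 ↔ ¬ (q : ℤ) ∣ n := by
  rw [map_pow, ← valuation_intCast_eq_one_iff hq hA]
  constructor
  · intro h
    rcases lt_trichotomy (A.valuation (n : L)) 1 with h1 | h1 | h1
    · exact absurd h (pow_lt_one' h1 hp).ne
    · exact h1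
    · exact absurd h (one_lt_pow' h1 hp).ne'
  · intro h
    rw [h, one_pow]

theorem valuation_intCast_pow_lt_one_iff (hq : q.Prime) (hA : A.LiesOverPrime q) (n : ℤ) {p : ℕ}
    (hp : p ≠ 0) : A.valuation ((n : L) ^ p) < 1 ↔ (q : ℤ) ∣ n := by
  rw [map_pow, ← valuation_intCast_lt_one_iff hq hA]
  constructor
  · intro h
    by_contra h1
    rw [not_lt] at h1
    exact absurd h (not_lt.mpr (one_le_pow_of_one_le' h1 p))
  · intro h
    exact pow_lt_one' h hp

end Integers

section Frey

variable {q : ℕ}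

theorem not_dvd_of_gcd_eq_one {q : ℕ} (hq : q.Prime) {x y : ℤ} (h : gcd x y = 1)
    (hx : (q : ℤ) ∣ x) : ¬ (q : ℤ) ∣ y := by
  intro hy
  have h1 : (q : ℤ) ∣ gcd x y := dvd_gcd hx hy
  rw [h] at h1
  have := Int.natAbs_dvd_natAbs.mpr h1
  simp at this
  exact hq.one_lt.ne' this

/-- At most one of `a, b, c` is divisible by a given prime. -/
theorem frey_cases (P : FreyPackage) (hq : q.Prime) :
    (¬ (q : ℤ) ∣ P.a ∧ ¬ (q : ℤ) ∣ P.b ∧ ¬ (q : ℤ) ∣ P.c) ∨
    ((q : ℤ) ∣ P.a ∧ ¬ (q : ℤ) ∣ P.b ∧ ¬ (q : ℤ) ∣ P.c) ∨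
    ((q : ℤ) ∣ P.b ∧ ¬ (q : ℤ) ∣ P.a ∧ ¬ (q : ℤ) ∣ P.c) ∨
    ((q : ℤ) ∣ P.c ∧ ¬ (q : ℤ) ∣ P.a ∧ ¬ (q : ℤ) ∣ P.b) := by
  have hab := P.hgcdab
  have hac := P.hgcdac
  have hbc := P.hgcdbc
  have hba : gcd P.b P.a = 1 := by rw [gcd_comm]; exact hab
  have hca : gcd P.c P.a = 1 := by rw [gcd_comm]; exact hac
  have hcb : gcd P.c P.b = 1 := by rw [gcd_comm]; exact hbc
  by_cases ha : (q : ℤ) ∣ P.a
  · exact Or.inr (Or.inl ⟨ha, not_dvd_of_gcd_eq_one hq hab ha, not_dvd_of_gcd_eq_one hq hac ha⟩)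
  · by_cases hb : (q : ℤ) ∣ P.b
    · exact Or.inr (Or.inr (Or.inl ⟨hb, ha, not_dvd_of_gcd_eq_one hq hbc hb⟩))
    · by_cases hc : (q : ℤ) ∣ P.c
      · exact Or.inr (Or.inr (Or.inr ⟨hc, ha, hb⟩))
      · exact Or.inl ⟨ha, hb, hc⟩

/-- The Fermat equation in any ring. -/
theorem frey_eq (P : FreyPackage) (L : Type*) [Ring L] :
    (P.a : L) ^ P.p + (P.b : L) ^ P.p = (P.c : L) ^ P.p := by
  have := congrArg (Int.cast : ℤ → L) P.hFLT
  push_cast at this
  exact this

end Frey

end Fermat.Agent.S05.Local
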