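import Fermat.Agent.S05.Local

/-!
# S05, slice [H], part 2: further local facts

* square roots of inertia-fixed units are inertia-fixed (when `2` is a unit);
* elements of the decomposition group preserve the valuation (algebraic extensions).
-/

set_option autoImplicit false

namespace Fermat.Agent.S05.Local

open scoped Pointwise

section Sqrt

variable (K : Type*) {L : Type*} [Field K] [Field L] [Algebra K L] {A : ValuationSubring L}
  {σ : L ≃ₐ[K] L}

/-- A square root of an inertia-fixed unit is inertia-fixed, if `2` is a unit. -/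
theorem apply_eq_of_sq_eq (hσ : σ ∈ A.inertiaSubgroupIn K) (h2 : A.valuation (2 : L) = 1)
    {y u : L} (hy : y ^ 2 = u) (hu : A.valuation u = 1) (hσu : σ u = u) : σ y = y := by
  have hy1 : A.valuation y = 1 := by
    have : A.valuation y ^ 2 = 1 := by rw [← map_pow, hy, hu]
    rcases lt_trichotomy (A.valuation y) 1 with h1 | h1 | h1
    · exact absurd this (pow_lt_one' h1 two_ne_zero).ne
    · exact h1
    · exact absurd this (one_lt_pow' h1 two_ne_zero).ne'
  have hyA : y ∈ A := (ValuationSubring.valuation_le_one_iff A y).mp hy1.le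
  have hsq : σ y ^ 2 = y ^ 2 := by rw [← map_pow, hy, hσu]
  rcases sq_eq_sq_iff_eq_or_eq_neg.mp hsq with h | h
  · exact h
  · exfalso
    have hm := apply_sub_mem_nonunits_of_mem_inertia K hσ hyA
    rw [h, ValuationSubring.mem_nonunits_iff] at hm
    have : -y - y = -(2 * y) := by ring
    rw [this, Valuation.map_neg, map_mul, h2, hy1, one_mul] at hm
    exact lt_irrefl _ hm

end Sqrt

section Decomposition

variable {K : Type*} {L : Type*} [Field K] [Field L] [Algebra K L] {A : ValuationSubring L}
  {σ : L ≃ₐ[K] L}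

theorem apply_mem_of_smul_eq (hσ : σ • A = A) {x : L} (hx : x ∈ A) : σ x ∈ A := by
  rw [← hσ]
  exact ValuationSubring.smul_mem_pointwise_smul σ x A hx

theorem inv_smul_eq (hσ : σ • A = A) : σ⁻¹ • A = A := by
  conv_lhs => rw [← hσ]
  rw [inv_smul_smul]

theorem apply_mem_iff_of_smul_eq (hσ : σ • A = A) {x : L} : σ x ∈ A ↔ x ∈ A := by
  refine ⟨fun h => ?_, apply_mem_of_smul_eq hσ⟩
  have := apply_mem_of_smul_eq (inv_smul_eq hσ) h
  simpa using this

theorem apply_mem_nonunits_iff_of_smul_eq (hσ : σ • A = A) {x : L} :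
    σ x ∈ A.nonunits ↔ x ∈ A.nonunits := by
  rw [ValuationSubring.mem_nonunits_iff_or, ValuationSubring.mem_nonunits_iff_or, ← map_inv₀,
    apply_mem_iff_of_smul_eq hσ, EmbeddingLike.map_eq_zero_iff]

theorem pow_smul_eq (hσ : σ • A = A) (n : ℕ) : (σ ^ n) • A = A := by
  induction n with
  | zero => simp
  | succ n ih => rw [pow_succ, mul_smul, hσ, ih]

/-- Some positive power of `σ` fixes a given algebraic element. -/
theorem exists_pow_apply_eq [Algebra.IsAlgebraic K L] (σ : L ≃ₐ[K] L) (x : L) :
    ∃ n : ℕ, 0 < n ∧ (σ ^ n) x = x := by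
  classical
  have hx : IsAlgebraic K x := Algebra.IsAlgebraic.isAlgebraic x
  have hfin : ((minpoly K x).rootSet L).Finite := Polynomial.rootSet_finite _ _
  have hmem : ∀ i : ℕ, (σ ^ i) x ∈ (minpoly K x).rootSet L := by
    intro i
    rw [Polynomial.mem_rootSet]
    refine ⟨minpoly.ne_zero hx.isIntegral, ?_⟩
    have : (σ ^ i) x = ((σ ^ i : L ≃ₐ[K] L) : L →ₐ[K] L) x := rfl
    rw [this, Polynomial.aeval_algHom_apply, minpoly.aeval, map_zero]
  obtain ⟨i, j, hij, heq⟩ : ∃ i j : ℕ, i ≠ j ∧ (σ ^ i) x = (σ ^ j) x := by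
    by_contra hne
    push Not at hne
    have hinj : Function.Injective fun i : ℕ => (⟨(σ ^ i) x, hmem i⟩ : (minpoly K x).rootSet L) := by
      intro i j hij
      by_contra h
      exact hne i j h (congrArg Subtype.val hij)
    have := hfin.to_subtype
    exact not_injective_infinite_finite _ hinj
  wlog hlt : i < j generalizing i j
  · exact this j i hij.symm heq.symm (lt_of_le_of_ne (not_lt.mp hlt) hij.symm)
  refine ⟨j - i, Nat.sub_pos_of_lt hlt, ?_⟩
  have h1 : (σ ^ i) ((σ ^ (j - i)) x) = (σ ^ i) x := by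
    rw [← AlgEquiv.mul_apply, ← pow_add, Nat.add_sub_cancel' hlt.le, heq]
  exact (σ ^ i).injective h1

/-- Elements of the decomposition group preserve the valuation, if `L / K` is algebraic. -/
theorem valuation_apply_eq_of_smul_eq [Algebra.IsAlgebraic K L] (hσ : σ • A = A) (x : L) :
    A.valuation (σ x) = A.valuation x := by
  by_cases hx0 : x = 0
  · simp [hx0]
  obtain ⟨n, hn, hfix⟩ := exists_pow_apply_eq σ x
  -- telescoping product
  have htel : ∀ m : ℕ, ∏ i ∈ Finset.range m, (σ ^ i) (σ x / x) = (σ ^ m) x / x := by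
    intro m
    induction m with
    | zero => simp [hx0]
    | succ m ih =>
      rw [Finset.prod_range_succ, ih, map_div₀]
      have h1 : (σ ^ m) (σ x) = (σ ^ (m + 1)) x := by
        rw [pow_succ, AlgEquiv.mul_apply]
      rw [h1]
      have h2 : (σ ^ m) x ≠ 0 := fun h => hx0 ((σ ^ m).injective (by rw [h, map_zero]))
      field_simp
  have hprod : ∏ i ∈ Finset.range n, (σ ^ i) (σ x / x) = 1 := by
    rw [htel n, hfix, div_self hx0]
  have hσx0 : σ x ≠ 0 := by simpa using hx0
  -- a nonunit `u` cannot have `∏ σ^i u = 1`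
  have key : ∀ u : L, u ∈ A.nonunits → ∏ i ∈ Finset.range n, (σ ^ i) u ≠ 1 := by
    intro u hu h1
    have hall : ∀ i ∈ Finset.range n, A.valuation ((σ ^ i) u) < 1 := fun i _ =>
      (ValuationSubring.mem_nonunits_iff A).mp
        ((apply_mem_nonunits_iff_of_smul_eq (pow_smul_eq hσ i)).mpr hu)
    have hlt : A.valuation (∏ i ∈ Finset.range n, (σ ^ i) u) < 1 := by
      rw [map_prod]
      have hne : (Finset.range n).Nonempty := Finset.nonempty_range_iff.mpr hn.ne'
      calc ∏ i ∈ Finset.range n, A.valuation ((σ ^ i) u)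
          < ∏ _i ∈ Finset.range n, (1 : A.ValueGroup) :=
            Finset.prod_lt_prod_of_nonempty (fun i _ => by
              have : (σ ^ i) u ≠ 0 := by
                intro h0
                have hu0 : u = 0 := (σ ^ i).injective (by rw [h0, map_zero])
                rw [hu0] at h1
                simp [hn.ne'] at h1
              exact (Valuation.pos_iff _).mpr this) hall hne
        _ = 1 := by simp
    rw [h1, map_one] at hlt
    exact lt_irrefl _ hlt
  rcases lt_trichotomy (A.valuation (σ x)) (A.valuation x) with hlt | heq | hgt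
  · exfalso
    apply key (σ x / x) _ hprod
    rw [ValuationSubring.mem_nonunits_iff, map_div₀]
    exact (div_lt_one₀ ((Valuation.pos_iff _).mpr hx0)).mpr hlt
  · exact heq
  · exfalso
    have hprod' : ∏ i ∈ Finset.range n, (σ ^ i) (x / σ x) = 1 := by
      have : ∀ i, (σ ^ i) (x / σ x) = ((σ ^ i) (σ x / x))⁻¹ := by
        intro i
        rw [← map_inv₀, inv_div]
      simp_rw [this]
      rw [Finset.prod_inv_distrib, hprod, inv_one]
    apply key (x / σ x) _ hprod'
    rw [ValuationSubring.mem_nonunits_iff, map_div₀]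
    exact (div_lt_one₀ ((Valuation.pos_iff _).mpr hσx0)).mpr hgt

/-- Elements of the inertia group preserve the valuation, if `L / K` is algebraic. -/
theorem valuation_apply_eq_of_mem_inertia [Algebra.IsAlgebraic K L]
    (hσ : σ ∈ A.inertiaSubgroupIn K) (x : L) : A.valuation (σ x) = A.valuation x :=
  valuation_apply_eq_of_smul_eq (smul_eq_of_mem_inertia K hσ) x

end Decomposition

end Fermat.Agent.S05.Local
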