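import Mathlib
import Fermat.Prelude.Def_FLTPrelim_Ramification

/-!
# S05 (PROJECT L), slice [H] supplement: valuation invariance under decomposition / inertia

For `A : ValuationSubring L` lying over a prime `q`:
* which integers are units / nonunits of `A`;
* the Frey-package case distinction (`q` divides at most one of `a`, `b`, `c`);
* elements of the inertia group stabilise `A`, move elements of `A` by nonunits, and
  (for algebraic extensions) preserve the valuation.
-/

set_option autoImplicit false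

open scoped Pointwise

namespace Fermat.Agent.S05.LocalVal

section Integers

variable {L : Type*} [Field L] (A : ValuationSubring L)

theorem intCast_mem (n : ℤ) : (n : L) ∈ A := _root_.intCast_mem A n

theorem natCast_mem (n : ℕ) : (n : L) ∈ A := _root_.natCast_mem A n

theorem nonunits_mul_mem {a b : L} (ha : a ∈ A.nonunits) (hb : b ∈ A) : a * b ∈ A.nonunits := by
  rw [A.mem_nonunits_iff] at *
  rw [← A.valuation_le_one_iff] at hb
  rw [map_mul]
  exact mul_lt_one_of_lt_of_le ha hb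

theorem mem_mul_nonunits {a b : L} (ha : a ∈ A) (hb : b ∈ A.nonunits) : a * b ∈ A.nonunits := by
  rw [mul_comm]; exact nonunits_mul_mem A hb ha

theorem valuation_eq_one_of_mem_of_notMem_nonunits {a : L} (ha : a ∈ A) (ha' : a ∉ A.nonunits) :
    A.valuation a = 1 := by
  rw [A.mem_nonunits_iff, not_lt] at ha'
  exact le_antisymm ((A.valuation_le_one_iff a).mpr ha) ha'

theorem valuation_eq_one_iff {a : L} : A.valuation a = 1 ↔ a ∈ A ∧ a ∉ A.nonunits := by
  constructor
  · intro h
    refine ⟨(A.valuation_le_one_iff a).mp h.le, fun hn => ?_⟩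
    rw [A.mem_nonunits_iff, h] at hn
    exact lt_irrefl _ hn
  · rintro ⟨h1, h2⟩
    exact valuation_eq_one_of_mem_of_notMem_nonunits A h1 h2

variable {A} {q : ℕ}

/-- An integer is a nonunit of `A` (lying over the prime `q`) iff `q` divides it. -/
theorem intCast_mem_nonunits_iff (hq : q.Prime) (hA : A.LiesOverPrime q) (n : ℤ) :
    (n : L) ∈ A.nonunits ↔ (q : ℤ) ∣ n := by
  constructor
  · intro h
    by_contra hc
    have hcop : IsCoprime (q : ℤ) n := by
      rw [Int.isCoprime_iff_gcd_eq_one]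
      have := (Nat.Prime.coprime_iff_not_dvd hq).mpr
        (fun hd => hc (Int.natCast_dvd.mpr hd))
      simpa [Int.gcd] using this
    obtain ⟨u, v, huv⟩ := hcop
    have h1 : ((u * q + v * n : ℤ) : L) ∈ A.nonunits := by
      push_cast
      refine A.nonunits.add_mem ?_ ?_
      · exact mem_mul_nonunits A (intCast_mem A u) hA
      · exact mem_mul_nonunits A (intCast_mem A v) h
    rw [huv, Int.cast_one, A.mem_nonunits_iff, map_one] at h1
    exact lt_irrefl _ h1
  · rintro ⟨k, rfl⟩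
    push_cast
    exact nonunits_mul_mem A hA (intCast_mem A k)

theorem intCast_valuation_eq_one (hq : q.Prime) (hA : A.LiesOverPrime q) {n : ℤ}
    (hn : ¬ (q : ℤ) ∣ n) : A.valuation (n : L) = 1 :=
  valuation_eq_one_of_mem_of_notMem_nonunits A (intCast_mem A n)
    (fun h => hn ((intCast_mem_nonunits_iff hq hA n).mp h))

theorem intCast_valuation_lt_one (hq : q.Prime) (hA : A.LiesOverPrime q) {n : ℤ}
    (hn : (q : ℤ) ∣ n) : A.valuation (n : L) < 1 :=
  A.mem_nonunits_iff.mp ((intCast_mem_nonunits_iff hq hA n).mpr hn)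

theorem intCast_pow_valuation_eq_one (hq : q.Prime) (hA : A.LiesOverPrime q) {n : ℤ}
    (hn : ¬ (q : ℤ) ∣ n) (k : ℕ) : A.valuation ((n : L) ^ k) = 1 := by
  rw [map_pow, intCast_valuation_eq_one hq hA hn, one_pow]

theorem intCast_pow_valuation_lt_one (hq : q.Prime) (hA : A.LiesOverPrime q) {n : ℤ}
    (hn : (q : ℤ) ∣ n) {k : ℕ} (hk : k ≠ 0) : A.valuation ((n : L) ^ k) < 1 := by
  rw [map_pow]
  exact pow_lt_one₀ zero_le (intCast_valuation_lt_one hq hA hn) hk

/-- A prime different from `q` is a unit of `A`. -/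
theorem natCast_prime_valuation_eq_one (hq : q.Prime) (hA : A.LiesOverPrime q) {ℓ : ℕ}
    (hℓ : ℓ.Prime) (hne : ℓ ≠ q) : A.valuation (ℓ : L) = 1 := by
  have h : ¬ (q : ℤ) ∣ (ℓ : ℤ) := by
    intro hd
    have : q ∣ ℓ := Int.natCast_dvd_natCast.mp hd
    exact hne ((Nat.prime_dvd_prime_iff_eq hq hℓ).mp this).symm
  have := intCast_valuation_eq_one hq hA h
  simpa using this

theorem two_valuation_eq_one (hq : q.Prime) (hA : A.LiesOverPrime q) (hq2 : q ≠ 2) :
    A.valuation (2 : L) = 1 := by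
  have := natCast_prime_valuation_eq_one hq hA Nat.prime_two (Ne.symm hq2)
  simpa using this

theorem four_valuation_eq_one (hq : q.Prime) (hA : A.LiesOverPrime q) (hq2 : q ≠ 2) :
    A.valuation (4 : L) = 1 := by
  have h : (4 : L) = 2 * 2 := by norm_num
  rw [h, map_mul, two_valuation_eq_one hq hA hq2, one_mul]

/-- `q` itself is a nonunit. -/
theorem q_valuation_lt_one (hA : A.LiesOverPrime q) : A.valuation (q : L) < 1 :=
  A.mem_nonunits_iff.mp hA

/-- The value group is torsion free: `p`-th powers are injective. -/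
theorem valuation_pow_inj {x y : L} {k : ℕ} (hk : k ≠ 0)
    (h : A.valuation x ^ k = A.valuation y ^ k) : A.valuation x = A.valuation y :=
  (pow_left_inj₀ zero_le zero_le hk).mp h

end Integers

section Frey

variable {L : Type*} [Field L] {A : ValuationSubring L} {q : ℕ}

/-- `q` divides at most one of `a`, `b`. -/
theorem not_dvd_both {a b : ℤ} (hq : q.Prime) (h : gcd a b = 1) (ha : (q : ℤ) ∣ a)
    (hb : (q : ℤ) ∣ b) : False := by
  have hd : (q : ℤ) ∣ gcd a b := dvd_gcd ha hb
  rw [h] at hd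
  have := Int.natCast_dvd_natCast.mp (by simpa using hd : ((q : ℕ) : ℤ) ∣ ((1 : ℕ) : ℤ))
  exact hq.one_lt.ne' (Nat.dvd_one.mp this)

/-- The four cases for an odd prime `q` and a Frey package. -/
theorem frey_cases (P : FreyPackage) (hq : q.Prime) :
    (¬ (q : ℤ) ∣ P.a ∧ ¬ (q : ℤ) ∣ P.b ∧ ¬ (q : ℤ) ∣ P.c) ∨
    ((q : ℤ) ∣ P.a ∧ ¬ (q : ℤ) ∣ P.b ∧ ¬ (q : ℤ) ∣ P.c) ∨
    (¬ (q : ℤ) ∣ P.a ∧ (q : ℤ) ∣ P.b ∧ ¬ (q : ℤ) ∣ P.c) ∨
    (¬ (q : ℤ) ∣ P.a ∧ ¬ (q : ℤ) ∣ P.b ∧ (q : ℤ) ∣ P.c) := by
  by_cases ha : (q : ℤ) ∣ P.a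
  · have hb : ¬ (q : ℤ) ∣ P.b := fun hb => not_dvd_both hq P.hgcdab ha hb
    have hc : ¬ (q : ℤ) ∣ P.c := fun hc => not_dvd_both hq P.hgcdac ha hc
    exact Or.inr (Or.inl ⟨ha, hb, hc⟩)
  · by_cases hb : (q : ℤ) ∣ P.b
    · have hc : ¬ (q : ℤ) ∣ P.c := fun hc => not_dvd_both hq P.hgcdbc hb hc
      exact Or.inr (Or.inr (Or.inl ⟨ha, hb, hc⟩))
    · by_cases hc : (q : ℤ) ∣ P.c
      · exact Or.inr (Or.inr (Or.inr ⟨ha, hb, hc⟩))
      · exact Or.inl ⟨ha, hb, hc⟩

/-- The Fermat relation, cast into the field. -/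
theorem frey_relation (P : FreyPackage) :
    ((P.a : L)) ^ P.p + (P.b : L) ^ P.p = (P.c : L) ^ P.p := by
  have h := congrArg (fun z : ℤ => (z : L)) P.hFLT
  simpa using h

/-- The prime `p` of the package is a unit at `q ≠ p`. -/
theorem p_valuation_eq_one (P : FreyPackage) (hq : q.Prime) (hA : A.LiesOverPrime q)
    (hqp : q ≠ P.p) : A.valuation (P.p : L) = 1 :=
  natCast_prime_valuation_eq_one hq hA P.pp (Ne.symm hqp)

end Frey

section Inertia

variable {K L : Type*} [Field K] [Field L] [Algebra K L] {A : ValuationSubring L}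

/-- Elements of the inertia group lie in the decomposition group. -/
theorem mem_decomposition_of_mem_inertia {σ : L ≃ₐ[K] L} (hσ : σ ∈ A.inertiaSubgroupIn K) :
    σ ∈ A.decompositionSubgroup K := by
  obtain ⟨τ, -, rfl⟩ := hσ
  exact τ.2

theorem smul_eq_of_mem_decomposition {σ : L ≃ₐ[K] L} (hσ : σ ∈ A.decompositionSubgroup K) :
    σ • A = A := hσ

/-- Elements of the decomposition group map `A` into `A`. -/
theorem map_mem_of_mem_decomposition {σ : L ≃ₐ[K] L} (hσ : σ ∈ A.decompositionSubgroup K)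
    {x : L} (hx : x ∈ A) : σ x ∈ A := by
  have h : σ • x ∈ σ • A := ValuationSubring.smul_mem_pointwise_smul σ x A hx
  rw [smul_eq_of_mem_decomposition hσ] at h
  exact h

theorem symm_mem_decomposition {σ : L ≃ₐ[K] L} (hσ : σ ∈ A.decompositionSubgroup K) :
    σ.symm ∈ A.decompositionSubgroup K := by
  have : σ⁻¹ ∈ A.decompositionSubgroup K := inv_mem hσ
  exact this

theorem map_mem_iff_of_mem_decomposition {σ : L ≃ₐ[K] L} (hσ : σ ∈ A.decompositionSubgroup K)
    {x : L} : σ x ∈ A ↔ x ∈ A := by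
  refine ⟨fun h => ?_, map_mem_of_mem_decomposition hσ⟩
  have := map_mem_of_mem_decomposition (symm_mem_decomposition hσ) h
  simpa using this

/-- Elements of the decomposition group preserve the maximal ideal. -/
theorem map_mem_nonunits_iff_of_mem_decomposition {σ : L ≃ₐ[K] L}
    (hσ : σ ∈ A.decompositionSubgroup K) {x : L} : σ x ∈ A.nonunits ↔ x ∈ A.nonunits := by
  rw [A.mem_nonunits_iff_or, A.mem_nonunits_iff_or]
  have h0 : σ x = 0 ↔ x = 0 := by
    constructor
    · intro h; exact σ.injective (h.trans (map_zero σ).symm)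
    · rintro rfl; exact map_zero σ
  rw [h0, ← map_inv₀, map_mem_iff_of_mem_decomposition hσ]

/-- Elements of the inertia group move elements of `A` by elements of the maximal ideal. -/
theorem map_sub_mem_nonunits_of_mem_inertia {σ : L ≃ₐ[K] L} (hσ : σ ∈ A.inertiaSubgroupIn K)
    {x : L} (hx : x ∈ A) : σ x - x ∈ A.nonunits := by
  obtain ⟨τ, hτ, rfl⟩ := hσ
  have hker : MulSemiringAction.toRingAut (A.decompositionSubgroup K)
      (IsLocalRing.ResidueField A) τ = 1 := hτ
  have h1 := RingEquiv.congr_fun hker (IsLocalRing.residue A ⟨x, hx⟩)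
  have h2 : IsLocalRing.residue A (τ • (⟨x, hx⟩ : A)) = IsLocalRing.residue A ⟨x, hx⟩ := h1
  have h3 : τ • (⟨x, hx⟩ : A) - ⟨x, hx⟩ ∈ IsLocalRing.maximalIdeal A := by
    rw [← Ideal.Quotient.eq]
    exact h2
  have h4 := (A.coe_mem_nonunits_iff).mpr h3
  exact h4

/-- If `s (n+1) = σ (s n) * s 1` and `s 1` is a nonunit, all `s n` (`n ≥ 1`) are nonunits. -/
theorem mem_nonunits_of_rec {σ : L ≃ₐ[K] L} (hσ : σ ∈ A.decompositionSubgroup K) (s : ℕ → L)
    (hrec : ∀ n, s (n + 1) = σ (s n) * s 1) (h1 : s 1 ∈ A.nonunits) :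
    ∀ n, 1 ≤ n → s n ∈ A.nonunits := by
  intro n hn
  induction n with
  | zero => omega
  | succ n ih =>
    rcases Nat.eq_zero_or_pos n with h0 | hpos
    · subst h0; exact h1
    · rw [hrec n]
      exact A.nonunits.mul_mem ((map_mem_nonunits_iff_of_mem_decomposition hσ).mpr (ih hpos)) h1

/-- Elements of the decomposition group preserve the valuation, provided every element has
a finite orbit (e.g. `L / K` algebraic). -/
theorem valuation_map_eq_of_mem_decomposition [Algebra.IsAlgebraic K L] {σ : L ≃ₐ[K] L}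
    (hσ : σ ∈ A.decompositionSubgroup K) (x : L) : A.valuation (σ x) = A.valuation x := by
  by_cases hx0 : x = 0
  · rw [hx0, map_zero]
  -- the orbit of `x` is finite: some positive power of `σ` fixes `x`
  have hfin : ∃ k : ℕ, 0 < k ∧ (σ ^ k) x = x := by
    have halg : IsAlgebraic K x := Algebra.IsAlgebraic.isAlgebraic x
    have hroots : ((minpoly K x).rootSet L).Finite := Polynomial.rootSet_finite _ _
    have hmem : ∀ k : ℕ, (σ ^ k) x ∈ (minpoly K x).rootSet L := by
      intro k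
      rw [Polynomial.mem_rootSet_of_ne (minpoly.ne_zero halg.isIntegral)]
      have h := minpoly.aeval K ((σ ^ k) x)
      rwa [minpoly.algEquiv_eq] at h
    obtain ⟨i, j, hij, hEq⟩ :=
      Set.Finite.exists_lt_map_eq_of_forall_mem (f := fun k : ℕ => (σ ^ k) x) hmem hroots
    refine ⟨j - i, Nat.sub_pos_of_lt hij, ?_⟩
    have hpow : σ ^ j = σ ^ i * σ ^ (j - i) := by
      rw [← pow_add]; congr 1; omega
    have h1 : (σ ^ i) ((σ ^ (j - i)) x) = (σ ^ i) x := by
      have : (σ ^ j) x = (σ ^ i) x := hEq.symm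
      rw [hpow] at this
      exact this
    exact (σ ^ i).injective h1
  obtain ⟨k, hk, hfix⟩ := hfin
  have hne : ∀ n : ℕ, (σ ^ n) x ≠ 0 := fun n h =>
    hx0 ((σ ^ n).injective (h.trans (map_zero _).symm))
  have hσx : σ x ≠ 0 := by simpa using hne 1
  have hstep : ∀ n : ℕ, (σ ^ (n + 1)) x = σ ((σ ^ n) x) := by
    intro n; rw [pow_succ', AlgEquiv.mul_apply]
  rcases lt_trichotomy (A.valuation (σ x)) (A.valuation x) with hlt | heq | hgt
  · exfalso
    -- `s n = σ^n x / x`
    have h1 : (σ ^ 1) x / x ∈ A.nonunits := by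
      rw [pow_one, A.mem_nonunits_iff, map_div₀]
      exact (div_lt_one₀ (zero_lt_iff.mpr ((map_ne_zero _).mpr hx0))).mpr hlt
    have hall := mem_nonunits_of_rec hσ (fun n => (σ ^ n) x / x) (fun n => by
      show (σ ^ (n + 1)) x / x = σ ((σ ^ n) x / x) * ((σ ^ 1) x / x)
      rw [hstep, map_div₀, pow_one]
      field_simp) h1 k hk
    simp only [hfix, div_self hx0] at hall
    rw [A.mem_nonunits_iff, map_one] at hall
    exact lt_irrefl _ hall
  · exact heq
  · exfalso
    -- `s n = x / σ^n x`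
    have h1 : x / (σ ^ 1) x ∈ A.nonunits := by
      rw [pow_one, A.mem_nonunits_iff, map_div₀]
      exact (div_lt_one₀ (zero_lt_iff.mpr ((map_ne_zero _).mpr hσx))).mpr hgt
    have hall := mem_nonunits_of_rec hσ (fun n => x / (σ ^ n) x) (fun n => by
      show x / (σ ^ (n + 1)) x = σ (x / (σ ^ n) x) * (x / (σ ^ 1) x)
      rw [hstep, map_div₀, pow_one]
      have := hne n
      have h2 : σ ((σ ^ n) x) ≠ 0 := by rw [← hstep]; exact hne (n + 1)
      field_simp) h1 k hk
    simp only [hfix, div_self hx0] at hall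
    rw [A.mem_nonunits_iff, map_one] at hall
    exact lt_irrefl _ hall

theorem valuation_map_eq_of_mem_inertia [Algebra.IsAlgebraic K L] {σ : L ≃ₐ[K] L}
    (hσ : σ ∈ A.inertiaSubgroupIn K) (x : L) : A.valuation (σ x) = A.valuation x :=
  valuation_map_eq_of_mem_decomposition (mem_decomposition_of_mem_inertia hσ) x

end Inertia

end Fermat.Agent.S05.LocalVal
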