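import Fermat.Agent.S05.Defs

/-!
# S05 (project L), slice [D]: the node region

`D : LegData K G e₁ e₂`, `v` a valuation on `K` with `v e₂ = 1`, `v e₁ < 1`, `v 2 = 1`
(multiplicative reduction, node at `X = 0`).  For points of the node region
`N = {P ≠ 0 : v e₁ < v (X P) < 1}` the quantity `sg P = Y P / X P` is a unit with
`sg² ≡ -e₂`; two points of `N` are on the same branch (`Same`) or on opposite branches (`Opp`).
We prove the transition rules for `P + Q` (`Gen P Q` : chord or tangent):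

* `rule_a1` : same branch, `v e₁ < v X₁ * v X₂`  ⟹ `P+Q ∈ N`, `v X₃ = v X₁ * v X₂`, same branch;
* `rule_a2` : same branch, `v X₁ * v X₂ < v e₁`  ⟹ `P+Q ∈ N`, `v X₃ = v e₁² / (v X₁ v X₂)`,
  opposite branch;
* `rule_a3` : same branch, `v X₁ * v X₂ = v e₁`  ⟹ `v X₃ ≤ v e₁` (middle zone);
* `rule_b1` : opposite branches, `v X₂ < v X₁`   ⟹ `P+Q ∈ N`, `v X₃ = v X₂ / v X₁`, branch of `Q`;
* `rule_b2` : opposite branches, `v X₁ = v X₂`   ⟹ `1 ≤ v X₃`;
* `mid_double` : `v (X P) ≤ v e₁`, `Y P ≠ 0` ⟹ `1 ≤ v (X (P + P))`.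
-/

set_option autoImplicit false
set_option linter.unusedSectionVars false

namespace Fermat.Agent.S05.Node

open Fermat.Agent.S05

variable {K : Type*} [Field K] [CharZero K] {G : Type*} [AddCommGroup G] {e₁ e₂ : K}
variable {Γ₀ : Type*} [LinearOrderedCommGroupWithZero Γ₀]

/-- Standing hypotheses: multiplicative reduction with the node at `X = 0`, residue
characteristic `≠ 2`. -/
structure Hyp (v : Valuation K Γ₀) (e₁ e₂ : K) : Prop where
  e2 : v e₂ = 1
  e1 : v e₁ < 1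
  two : v (2 : K) = 1

/-- The slope from the node: `sg P = Y P / X P`. -/
noncomputable def sg (D : LegData K G e₁ e₂) (P : G) : K := D.Y P / D.X P

/-- The node region. -/
def InN (D : LegData K G e₁ e₂) (v : Valuation K Γ₀) (P : G) : Prop :=
  P ≠ 0 ∧ v e₁ < v (D.X P) ∧ v (D.X P) < 1

/-- Same branch at the node. -/
def Same (D : LegData K G e₁ e₂) (v : Valuation K Γ₀) (P Q : G) : Prop :=
  v (sg D P - sg D Q) < 1

/-- Opposite branches at the node. -/
def Opp (D : LegData K G e₁ e₂) (v : Valuation K Γ₀) (P Q : G) : Prop :=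
  v (sg D P + sg D Q) < 1

section basic

variable {D : LegData K G e₁ e₂} {v : Valuation K Γ₀}

theorem sq_eq_one_gamma {a : Γ₀} (h : a ^ 2 = 1) : a = 1 := by
  rcases pow_eq_one_iff.1 h with h | h
  · exact h
  · norm_num at h

theorem InN.ne_zero {P : G} (h : InN D v P) : P ≠ 0 := h.1

theorem InN.vX_pos {P : G} (h : InN D v P) : 0 < v (D.X P) :=
  lt_of_le_of_lt zero_le h.2.1

theorem InN.vX_ne_zero {P : G} (h : InN D v P) : v (D.X P) ≠ 0 := h.vX_pos.ne'

theorem InN.X_ne_zero {P : G} (h : InN D v P) : D.X P ≠ 0 := by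
  intro h0
  have := h.vX_ne_zero
  rw [h0, map_zero] at this
  exact this rfl

theorem sg_mul_X {P : G} (hX : D.X P ≠ 0) : sg D P * D.X P = D.Y P := by
  unfold sg; exact div_mul_cancel₀ _ hX

/-- `sg² + e₂ = X - e₁ + e₁ e₂ / X`. -/
theorem sg_sq_add {P : G} (hP : P ≠ 0) (hX : D.X P ≠ 0) :
    sg D P ^ 2 + e₂ = D.X P - e₁ + e₁ * e₂ / D.X P := by
  have h := D.eqn P hP
  unfold sg
  field_simp
  linear_combination h

theorem InN.v_sg_sq_add_lt (H : Hyp v e₁ e₂) {P : G} (h : InN D v P) :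
    v (sg D P ^ 2 + e₂) < 1 := by
  rw [sg_sq_add h.ne_zero h.X_ne_zero]
  refine Valuation.map_add_lt v (Valuation.map_sub_lt v h.2.2 H.e1) ?_
  rw [map_div₀, map_mul, H.e2, mul_one]
  exact (div_lt_one₀ h.vX_pos).2 h.2.1

theorem InN.v_sg (H : Hyp v e₁ e₂) {P : G} (h : InN D v P) : v (sg D P) = 1 := by
  have h1 := h.v_sg_sq_add_lt H
  have h2 : v (sg D P ^ 2) = 1 := by
    have : sg D P ^ 2 = (sg D P ^ 2 + e₂) - e₂ := by ring
    rw [this, Valuation.map_sub_eq_of_lt_right v (by rw [H.e2]; exact h1), H.e2]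
  rw [map_pow] at h2
  exact sq_eq_one_gamma h2

theorem InN.v_Y (H : Hyp v e₁ e₂) {P : G} (h : InN D v P) : v (D.Y P) = v (D.X P) := by
  rw [← sg_mul_X h.X_ne_zero, map_mul, h.v_sg H, one_mul]

theorem InN.Y_ne_zero (H : Hyp v e₁ e₂) {P : G} (h : InN D v P) : D.Y P ≠ 0 := by
  intro h0
  have := h.v_Y H
  rw [h0, map_zero] at this
  exact h.vX_ne_zero this.symm

theorem InN.neg {P : G} (h : InN D v P) : InN D v (-P) := by
  refine ⟨neg_ne_zero.mpr h.1, ?_, ?_⟩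
  · rw [D.X_neg P h.1]; exact h.2.1
  · rw [D.X_neg P h.1]; exact h.2.2

theorem sg_neg {P : G} (hP : P ≠ 0) : sg D (-P) = -sg D P := by
  unfold sg
  rw [D.X_neg P hP, D.Y_neg P hP, neg_div]

theorem opp_neg_self {P : G} (hP : P ≠ 0) : Opp D v P (-P) := by
  unfold Opp
  rw [sg_neg hP, add_neg_cancel, map_zero]
  exact zero_lt_one

theorem same_refl (P : G) : Same D v P P := by
  unfold Same
  rw [sub_self, map_zero]
  exact zero_lt_one

theorem Same.symm {P Q : G} (h : Same D v P Q) : Same D v Q P := by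
  unfold Same at *
  rwa [Valuation.map_sub_swap]

theorem Opp.symm {P Q : G} (h : Opp D v P Q) : Opp D v Q P := by
  unfold Opp at *
  rwa [add_comm]

theorem Same.trans {P Q R : G} (h1 : Same D v P Q) (h2 : Same D v Q R) : Same D v P R := by
  unfold Same at *
  have : sg D P - sg D R = (sg D P - sg D Q) + (sg D Q - sg D R) := by ring
  rw [this]
  exact Valuation.map_add_lt v h1 h2

theorem Same.opp {P Q R : G} (h1 : Same D v P Q) (h2 : Opp D v Q R) : Opp D v P R := by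
  unfold Same Opp at *
  have : sg D P + sg D R = (sg D P - sg D Q) + (sg D Q + sg D R) := by ring
  rw [this]
  exact Valuation.map_add_lt v h1 h2

theorem Opp.same {P Q R : G} (h1 : Opp D v P Q) (h2 : Same D v Q R) : Opp D v P R := by
  unfold Same Opp at *
  have : sg D P + sg D R = (sg D P + sg D Q) - (sg D Q - sg D R) := by ring
  rw [this]
  exact Valuation.map_sub_lt v h1 h2

theorem Opp.opp {P Q R : G} (h1 : Opp D v P Q) (h2 : Opp D v Q R) : Same D v P R := by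
  unfold Same Opp at *
  have : sg D P - sg D R = (sg D P + sg D Q) - (sg D Q + sg D R) := by ring
  rw [this]
  exact Valuation.map_sub_lt v h1 h2

/-- Not both same and opposite (the sum `2 sg P` is a unit). -/
theorem not_same_and_opp (H : Hyp v e₁ e₂) {P Q : G} (hP : InN D v P)
    (h1 : Same D v P Q) (h2 : Opp D v P Q) : False := by
  unfold Same Opp at *
  have h3 : v (2 * sg D P) < 1 := by
    have : 2 * sg D P = (sg D P - sg D Q) + (sg D P + sg D Q) := by ring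
    rw [this]
    exact Valuation.map_add_lt v h1 h2
  rw [map_mul, H.two, hP.v_sg H, one_mul] at h3
  exact lt_irrefl _ h3

/-- Two points of the node region are on the same branch or on opposite branches. -/
theorem same_or_opp (H : Hyp v e₁ e₂) {P Q : G} (hP : InN D v P) (hQ : InN D v Q) :
    Same D v P Q ∨ Opp D v P Q := by
  unfold Same Opp
  by_contra hcon
  push Not at hcon
  obtain ⟨h1, h2⟩ := hcon
  have hle1 : v (sg D P - sg D Q) ≤ 1 :=
    Valuation.map_sub_le v (hP.v_sg H).le (hQ.v_sg H).le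
  have hle2 : v (sg D P + sg D Q) ≤ 1 :=
    Valuation.map_add_le v (hP.v_sg H).le (hQ.v_sg H).le
  have e1 : v (sg D P - sg D Q) = 1 := le_antisymm hle1 h1
  have e2 : v (sg D P + sg D Q) = 1 := le_antisymm hle2 h2
  have h3 : v ((sg D P - sg D Q) * (sg D P + sg D Q)) < 1 := by
    have : (sg D P - sg D Q) * (sg D P + sg D Q) =
        (sg D P ^ 2 + e₂) - (sg D Q ^ 2 + e₂) := by ring
    rw [this]
    exact Valuation.map_sub_lt v (hP.v_sg_sq_add_lt H) (hQ.v_sg_sq_add_lt H)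
  rw [map_mul, e1, e2, one_mul] at h3
  exact lt_irrefl _ h3

theorem Same.v_add (H : Hyp v e₁ e₂) {P Q : G} (hP : InN D v P) (hQ : InN D v Q)
    (h : Same D v P Q) : v (sg D P + sg D Q) = 1 := by
  have hle : v (sg D P + sg D Q) ≤ 1 :=
    Valuation.map_add_le v (hP.v_sg H).le (hQ.v_sg H).le
  refine le_antisymm hle ?_
  by_contra hlt
  push Not at hlt
  exact not_same_and_opp H hP h hlt

theorem Opp.v_sub (H : Hyp v e₁ e₂) {P Q : G} (hP : InN D v P) (hQ : InN D v Q)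
    (h : Opp D v P Q) : v (sg D P - sg D Q) = 1 := by
  have hle : v (sg D P - sg D Q) ≤ 1 :=
    Valuation.map_sub_le v (hP.v_sg H).le (hQ.v_sg H).le
  refine le_antisymm hle ?_
  by_contra hlt
  push Not at hlt
  exact not_same_and_opp H hP hlt h

theorem not_opp_iff_same (H : Hyp v e₁ e₂) {P Q : G} (hP : InN D v P) (hQ : InN D v Q) :
    ¬ Opp D v P Q ↔ Same D v P Q := by
  constructor
  · intro h
    exact (same_or_opp H hP hQ).resolve_right h
  · intro h h'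
    exact not_same_and_opp H hP h h'

theorem not_same_iff_opp (H : Hyp v e₁ e₂) {P Q : G} (hP : InN D v P) (hQ : InN D v Q) :
    ¬ Same D v P Q ↔ Opp D v P Q := by
  constructor
  · intro h
    exact (same_or_opp H hP hQ).resolve_left h
  · intro h h'
    exact not_same_and_opp H hP h' h

end basic

section rules

variable {D : LegData K G e₁ e₂} {v : Valuation K Γ₀}

/-- `nu * (sg P + sg Q) = -(X P * X Q - e₁ e₂)`. -/
theorem nu_mul_add {P Q : G} (h : D.Gen P Q) (hP : D.X P ≠ 0) (hQ : D.X Q ≠ 0) :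
    D.nu P Q * (sg D P + sg D Q) = -(D.X P * D.X Q - e₁ * e₂) := by
  have h2 := h.Phi2
  have e : D.Y P * D.X Q + D.Y Q * D.X P = (sg D P + sg D Q) * (D.X P * D.X Q) := by
    rw [← sg_mul_X hP, ← sg_mul_X hQ]; ring
  rw [e] at h2
  have hne : D.X P * D.X Q ≠ 0 := mul_ne_zero hP hQ
  apply mul_right_cancel₀ hne
  linear_combination h2

/-- `nu * (X Q - X P) = X P * X Q * (sg P - sg Q)`. -/
theorem nu_mul_sub {P Q : G} (h : D.Gen P Q) (hP : D.X P ≠ 0) (hQ : D.X Q ≠ 0) :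
    D.nu P Q * (D.X Q - D.X P) = D.X P * D.X Q * (sg D P - sg D Q) := by
  have h3 := h.Phi3
  rw [h3, ← sg_mul_X hP, ← sg_mul_X hQ]; ring

/-- Collinearity of `P` and `-(P+Q)`: `Y(P+Q) X(P) + Y(P) X(P+Q) = nu (X(P+Q) - X(P))`. -/
theorem collinear_left {P Q : G} (h : D.Gen P Q) :
    D.Y (P + Q) * D.X P + D.Y P * D.X (P + Q) = D.nu P Q * (D.X (P + Q) - D.X P) := by
  rw [h.Y_add]
  have := LegData.Y_eq_left (D := D) P Q
  linear_combination (D.X (P + Q)) * this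

/-- Collinearity of `Q` and `-(P+Q)`. -/
theorem collinear_right {P Q : G} (h : D.Gen P Q) :
    D.Y (P + Q) * D.X Q + D.Y Q * D.X (P + Q) = D.nu P Q * (D.X (P + Q) - D.X Q) := by
  rw [h.Y_add]
  have := h.Y_eq_right
  linear_combination (D.X (P + Q)) * this

/-- `(sg(P+Q) + sg P) * (X P * X (P+Q)) = nu * (X (P+Q) - X P)`. -/
theorem sg_add_left {P Q : G} (h : D.Gen P Q) (hP : D.X P ≠ 0) (h3 : D.X (P + Q) ≠ 0) :
    (sg D (P + Q) + sg D P) * (D.X P * D.X (P + Q)) = D.nu P Q * (D.X (P + Q) - D.X P) := by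
  rw [← collinear_left h, ← sg_mul_X hP, ← sg_mul_X h3]; ring

theorem sg_add_right {P Q : G} (h : D.Gen P Q) (hQ : D.X Q ≠ 0) (h3 : D.X (P + Q) ≠ 0) :
    (sg D (P + Q) + sg D Q) * (D.X Q * D.X (P + Q)) = D.nu P Q * (D.X (P + Q) - D.X Q) := by
  rw [← collinear_right h, ← sg_mul_X hQ, ← sg_mul_X h3]; ring

/-- valuation form of `Phi1`. -/
theorem v_Phi1 {P Q : G} (h : D.Gen P Q) :
    v (D.X (P + Q)) * (v (D.X P) * v (D.X Q)) = v (D.nu P Q) ^ 2 := by
  have := congrArg v h.Phi1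
  rw [map_mul, map_mul, map_pow] at this
  rw [← this, mul_assoc]

/-- On the same branch `v nu = v (X P X Q - e₁ e₂)`. -/
theorem v_nu_same (H : Hyp v e₁ e₂) {P Q : G} (h : D.Gen P Q) (hP : InN D v P) (hQ : InN D v Q)
    (hs : Same D v P Q) : v (D.nu P Q) = v (D.X P * D.X Q - e₁ * e₂) := by
  have := congrArg v (nu_mul_add h hP.X_ne_zero hQ.X_ne_zero)
  rw [map_mul, hs.v_add H hP hQ, mul_one, Valuation.map_neg] at this
  exact this

/-- On opposite branches `v nu * v (X Q - X P) = v (X P) * v (X Q)`. -/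
theorem v_nu_opp (H : Hyp v e₁ e₂) {P Q : G} (h : D.Gen P Q) (hP : InN D v P) (hQ : InN D v Q)
    (ho : Opp D v P Q) : v (D.nu P Q) * v (D.X Q - D.X P) = v (D.X P) * v (D.X Q) := by
  have := congrArg v (nu_mul_sub h hP.X_ne_zero hQ.X_ne_zero)
  rw [map_mul, map_mul, map_mul, ho.v_sub H hP hQ, mul_one] at this
  exact this

theorem v_e1e2 (H : Hyp v e₁ e₂) : v (e₁ * e₂) = v e₁ := by
  rw [map_mul, H.e2, mul_one]

/-- **Rule (a1)**: same branch, no wrap-around. -/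
theorem rule_a1 (H : Hyp v e₁ e₂) {P Q : G} (h : D.Gen P Q) (hP : InN D v P) (hQ : InN D v Q)
    (hs : Same D v P Q) (hlt : v e₁ < v (D.X P) * v (D.X Q)) :
    InN D v (P + Q) ∧ v (D.X (P + Q)) = v (D.X P) * v (D.X Q) ∧ Same D v (P + Q) P := by
  have hx12 : v (D.X P * D.X Q) = v (D.X P) * v (D.X Q) := map_mul _ _ _
  have hpos : 0 < v (D.X P) * v (D.X Q) := mul_pos hP.vX_pos hQ.vX_pos
  have hnu : v (D.nu P Q) = v (D.X P) * v (D.X Q) := by
    rw [v_nu_same H h hP hQ hs, Valuation.map_sub_eq_of_lt_left v (by rw [v_e1e2 H, hx12]; exact hlt),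
      hx12]
  have hx3 : v (D.X (P + Q)) = v (D.X P) * v (D.X Q) := by
    have h1 := v_Phi1 (v := v) h
    rw [hnu, sq] at h1
    exact mul_right_cancel₀ hpos.ne' h1
  have hN : InN D v (P + Q) := by
    refine ⟨h.add_ne_zero, by rw [hx3]; exact hlt, ?_⟩
    rw [hx3]
    exact mul_lt_one' hP.2.2 hQ.2.2
  refine ⟨hN, hx3, ?_⟩
  -- branch: `sg(P+Q) + sg P` is a unit
  rw [← not_opp_iff_same H hN hP]
  intro ho
  unfold Opp at ho
  have h1 := congrArg v (sg_add_left h hP.X_ne_zero hN.X_ne_zero)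
  have hlt3 : v (D.X (P + Q)) < v (D.X P) := by
    rw [hx3]
    calc v (D.X P) * v (D.X Q) < v (D.X P) * 1 := by
          exact mul_lt_mul_of_pos_left hQ.2.2 hP.vX_pos
      _ = v (D.X P) := mul_one _
  rw [map_mul, map_mul, map_mul, Valuation.map_sub_eq_of_lt_right v hlt3, hnu, hx3] at h1
  -- h1 : v(sg3 + sg1) * (vX1 * (vX1 * vX2)) = vX1 * vX2 * vX1
  have h2 : v (sg D (P + Q) + sg D P) * (v (D.X P) * (v (D.X P) * v (D.X Q))) =
      1 * (v (D.X P) * (v (D.X P) * v (D.X Q))) := by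
    rw [h1, one_mul]; ac_rfl
  have h3 := mul_right_cancel₀ (mul_pos hP.vX_pos hpos).ne' h2
  rw [h3] at ho
  exact lt_irrefl _ ho

/-- **Rule (a2)**: same branch, wrap-around: the branch flips. -/
theorem rule_a2 (H : Hyp v e₁ e₂) {P Q : G} (h : D.Gen P Q) (hP : InN D v P) (hQ : InN D v Q)
    (hs : Same D v P Q) (hlt : v (D.X P) * v (D.X Q) < v e₁) :
    InN D v (P + Q) ∧ v (D.X (P + Q)) = v e₁ ^ 2 / (v (D.X P) * v (D.X Q)) ∧
      Opp D v (P + Q) P := by
  have hx12 : v (D.X P * D.X Q) = v (D.X P) * v (D.X Q) := map_mul _ _ _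
  have hpos : 0 < v (D.X P) * v (D.X Q) := mul_pos hP.vX_pos hQ.vX_pos
  have he1pos : 0 < v e₁ := lt_trans hpos hlt
  have hnu : v (D.nu P Q) = v e₁ := by
    rw [v_nu_same H h hP hQ hs, Valuation.map_sub_eq_of_lt_right v (by rw [v_e1e2 H, hx12]; exact hlt),
      v_e1e2 H]
  have hx3 : v (D.X (P + Q)) = v e₁ ^ 2 / (v (D.X P) * v (D.X Q)) := by
    have h1 := v_Phi1 (v := v) h
    rw [hnu] at h1
    rw [eq_div_iff hpos.ne']
    exact h1
  have hx3' : v (D.X (P + Q)) * (v (D.X P) * v (D.X Q)) = v e₁ ^ 2 := by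
    have h1 := v_Phi1 (v := v) h
    rw [hnu] at h1
    exact h1
  have hgt : v e₁ < v (D.X (P + Q)) := by
    rw [hx3, lt_div_iff₀ hpos, sq]
    exact mul_lt_mul_of_pos_left hlt he1pos
  have hlt1 : v (D.X (P + Q)) < 1 := by
    rw [hx3, div_lt_one₀ hpos, sq]
    exact mul_lt_mul'' hP.2.1 hQ.2.1 zero_le zero_le
  have hN : InN D v (P + Q) := ⟨h.add_ne_zero, hgt, hlt1⟩
  refine ⟨hN, hx3, ?_⟩
  unfold Opp
  have h1 := congrArg v (sg_add_left h hP.X_ne_zero hN.X_ne_zero)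
  rw [map_mul, map_mul, map_mul, hnu] at h1
  -- v(sg3+sg1) * (vX1 * vX3) = v e1 * v(X3 - X1) ≤ v e1 * max
  have hmax : v (D.X (P + Q) - D.X P) ≤ max (v (D.X (P + Q))) (v (D.X P)) := Valuation.map_sub v _ _
  by_contra hcon
  push Not at hcon
  -- 1 ≤ v(sg3 + sg1)
  have h2 : v (D.X P) * v (D.X (P + Q)) ≤ v e₁ * v (D.X (P + Q) - D.X P) := by
    rw [← h1]
    calc v (D.X P) * v (D.X (P + Q)) = 1 * (v (D.X P) * v (D.X (P + Q))) := (one_mul _).symm
      _ ≤ v (sg D (P + Q) + sg D P) * (v (D.X P) * v (D.X (P + Q))) :=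
          mul_le_mul' hcon le_rfl
  rcases le_max_iff.1 hmax with h3 | h3
  · -- v(X3 - X1) ≤ v X3
    have h4 : v (D.X P) * v (D.X (P + Q)) ≤ v e₁ * v (D.X (P + Q)) :=
      le_trans h2 (mul_le_mul' le_rfl h3)
    have h5 := le_of_mul_le_mul_right h4 hN.vX_pos
    exact absurd hP.2.1 (not_lt.2 h5)
  · have h4 : v (D.X P) * v (D.X (P + Q)) ≤ v e₁ * v (D.X P) :=
      le_trans h2 (mul_le_mul' le_rfl h3)
    rw [mul_comm (v (D.X P))] at h4
    have h5 := le_of_mul_le_mul_right h4 hP.vX_pos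
    exact absurd hgt (not_lt.2 h5)

/-- **Rule (a3)**: same branch, the sum lands in the middle zone. -/
theorem rule_a3 (H : Hyp v e₁ e₂) {P Q : G} (h : D.Gen P Q) (hP : InN D v P) (hQ : InN D v Q)
    (hs : Same D v P Q) (heq : v (D.X P) * v (D.X Q) = v e₁) :
    v (D.X (P + Q)) ≤ v e₁ := by
  have hx12 : v (D.X P * D.X Q) = v (D.X P) * v (D.X Q) := map_mul _ _ _
  have hpos : 0 < v (D.X P) * v (D.X Q) := mul_pos hP.vX_pos hQ.vX_pos
  have hnu : v (D.nu P Q) ≤ v e₁ := by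
    rw [v_nu_same H h hP hQ hs]
    exact Valuation.map_sub_le v (by rw [hx12, heq]) (by rw [v_e1e2 H])
  have h1 := v_Phi1 (v := v) h
  rw [heq] at h1
  have he1pos : 0 < v e₁ := heq ▸ hpos
  have h2 : v (D.X (P + Q)) * v e₁ ≤ v e₁ * v e₁ := by
    rw [h1, sq]
    exact mul_le_mul' hnu hnu
  exact le_of_mul_le_mul_right h2 he1pos

/-- **Rule (b1)**: opposite branches, `X Q` more divisible: the sum is on the branch of `Q`. -/
theorem rule_b1 (H : Hyp v e₁ e₂) {P Q : G} (h : D.Gen P Q) (hP : InN D v P) (hQ : InN D v Q)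
    (ho : Opp D v P Q) (hlt : v (D.X Q) < v (D.X P)) :
    InN D v (P + Q) ∧ v (D.X (P + Q)) = v (D.X Q) / v (D.X P) ∧ Same D v (P + Q) Q := by
  have hnu : v (D.nu P Q) = v (D.X Q) := by
    have h1 := v_nu_opp H h hP hQ ho
    rw [Valuation.map_sub_eq_of_lt_right v hlt, mul_comm (v (D.X P))] at h1
    exact mul_right_cancel₀ hP.vX_ne_zero h1
  have hx3' : v (D.X (P + Q)) * v (D.X P) = v (D.X Q) := by
    have h1 := v_Phi1 (v := v) h
    rw [hnu, sq, ← mul_assoc] at h1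
    exact mul_right_cancel₀ hQ.vX_ne_zero h1
  have hx3 : v (D.X (P + Q)) = v (D.X Q) / v (D.X P) := by
    rw [eq_div_iff hP.vX_ne_zero]; exact hx3'
  have hgt : v (D.X Q) < v (D.X (P + Q)) := by
    rw [hx3, lt_div_iff₀ hP.vX_pos]
    calc v (D.X Q) * v (D.X P) < v (D.X Q) * 1 := mul_lt_mul_of_pos_left hP.2.2 hQ.vX_pos
      _ = v (D.X Q) := mul_one _
  have hN : InN D v (P + Q) := by
    refine ⟨h.add_ne_zero, lt_trans hQ.2.1 hgt, ?_⟩
    rw [hx3, div_lt_one₀ hP.vX_pos]; exact hlt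
  refine ⟨hN, hx3, ?_⟩
  rw [← not_opp_iff_same H hN hQ]
  intro ho'
  unfold Opp at ho'
  have h1 := congrArg v (sg_add_right h hQ.X_ne_zero hN.X_ne_zero)
  rw [map_mul, map_mul, map_mul, Valuation.map_sub_eq_of_lt_left v hgt, hnu] at h1
  have h2 : v (sg D (P + Q) + sg D Q) * (v (D.X Q) * v (D.X (P + Q))) =
      1 * (v (D.X Q) * v (D.X (P + Q))) := by
    rw [h1, one_mul]
  have h3 := mul_right_cancel₀ (mul_pos hQ.vX_pos hN.vX_pos).ne' h2
  rw [h3] at ho'
  exact lt_irrefl _ ho'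

/-- **Rule (b2)**: opposite branches, equal valuations: the sum leaves the node region. -/
theorem rule_b2 (H : Hyp v e₁ e₂) {P Q : G} (h : D.Gen P Q) (hP : InN D v P) (hQ : InN D v Q)
    (ho : Opp D v P Q) (heq : v (D.X P) = v (D.X Q)) :
    1 ≤ v (D.X (P + Q)) := by
  have h1 := v_nu_opp H h hP hQ ho
  have h2 := v_Phi1 (v := v) h
  have hd : v (D.X Q - D.X P) ≤ v (D.X P) :=
    Valuation.map_sub_le v heq.symm.le le_rfl
  have hd0 : v (D.X Q - D.X P) ≠ 0 := by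
    intro h0
    rw [h0, mul_zero] at h1
    exact (mul_pos hP.vX_pos hQ.vX_pos).ne h1
  have hdpos : 0 < v (D.X Q - D.X P) := zero_lt_iff.2 hd0
  -- v nu ≥ v X_P
  have hnu : v (D.X P) ≤ v (D.nu P Q) := by
    rw [← heq] at h1
    have : v (D.X P) * v (D.X Q - D.X P) ≤ v (D.nu P Q) * v (D.X Q - D.X P) := by
      rw [h1]
      exact mul_le_mul' le_rfl hd
    exact le_of_mul_le_mul_right this hdpos
  rw [← heq] at h2
  have h3 : 1 * (v (D.X P) * v (D.X P)) ≤ v (D.X (P + Q)) * (v (D.X P) * v (D.X P)) := by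
    rw [h2, one_mul, sq]
    exact mul_le_mul' hnu hnu
  exact le_of_mul_le_mul_right h3 (mul_pos hP.vX_pos hP.vX_pos)

/-- **Middle zone**: if `v (X P) ≤ v e₁` and `P` is not 2-torsion then `X (2P) ∉ 𝔪`. -/
theorem mid_double (H : Hyp v e₁ e₂) {P : G} (hP : P ≠ 0) (hY : D.Y P ≠ 0)
    (hle : v (D.X P) ≤ v e₁) : 1 ≤ v (D.X (P + P)) := by
  have hgen : D.Gen P P := D.gen_self hP hY
  have heqn := D.eqn P hP
  have hX : D.X P ≠ 0 := by
    intro h0
    rw [h0] at heqn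
    apply hY
    have : D.Y P ^ 2 = 0 := by rw [heqn]; ring
    exact pow_eq_zero_iff two_ne_zero |>.1 this
  have hXpos : 0 < v (D.X P) := zero_lt_iff.2 ((map_ne_zero v).2 hX)
  have he1pos : 0 < v e₁ := lt_of_lt_of_le hXpos hle
  have hXlt : v (D.X P) < 1 := lt_of_le_of_lt hle H.e1
  -- X(2P) * (2Y)^2 = (X^2 - e1 e2)^2
  have key : D.X (P + P) * (2 * D.Y P) ^ 2 = (D.X P ^ 2 - e₁ * e₂) ^ 2 := by
    have h1 := hgen.Phi1
    have h2 := hgen.Phi2
    have hne : D.X P ^ 2 ≠ 0 := pow_ne_zero 2 hX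
    have hne4 : (D.X P ^ 2) ^ 2 ≠ 0 := pow_ne_zero 2 hne
    apply mul_right_cancel₀ hne4
    have h3 : (D.nu P P * (D.Y P * D.X P + D.Y P * D.X P)) ^ 2 =
        (-(D.X P * D.X P - e₁ * e₂) * (D.X P * D.X P)) ^ 2 := by rw [h2]
    linear_combination (4 * D.Y P ^ 2 * D.X P ^ 2) * h1 + h3
  have hv := congrArg v key
  rw [map_mul, map_pow, map_pow, map_mul, H.two, one_mul] at hv
  -- v (X^2 - e1 e2) = v e1
  have hnum : v (D.X P ^ 2 - e₁ * e₂) = v e₁ := by
    rw [Valuation.map_sub_eq_of_lt_right v, v_e1e2 H]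
    rw [v_e1e2 H, map_pow, sq]
    calc v (D.X P) * v (D.X P) ≤ v e₁ * v (D.X P) := mul_le_mul' hle le_rfl
      _ < v e₁ * 1 := mul_lt_mul_of_pos_left hXlt he1pos
      _ = v e₁ := mul_one _
  -- v (Y^2) ≤ v e1 ^ 2
  have hden : v (D.Y P) ^ 2 ≤ v e₁ ^ 2 := by
    rw [← map_pow, heqn, map_mul, map_mul]
    have h1 : v (D.X P - e₁) ≤ v e₁ := Valuation.map_sub_le v hle le_rfl
    have h2 : v (D.X P - e₂) = 1 := by
      rw [Valuation.map_sub_eq_of_lt_right v (by rw [H.e2]; exact hXlt), H.e2]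
    rw [h2, mul_one, sq]
    exact mul_le_mul' hle h1
  rw [hnum] at hv
  have hYpos : 0 < v (D.Y P) ^ 2 := pow_pos (zero_lt_iff.2 ((map_ne_zero v).2 hY)) 2
  have h3 : 1 * v (D.Y P) ^ 2 ≤ v (D.X (P + P)) * v (D.Y P) ^ 2 := by
    rw [hv, one_mul]; exact hden
  exact le_of_mul_le_mul_right h3 hYpos

theorem gen_symm {P Q : G} (h : D.Gen P Q) : D.Gen Q P := by
  obtain ⟨hP, hQ, h | ⟨rfl, hY⟩⟩ := h
  · exact ⟨hQ, hP, Or.inl (Ne.symm h)⟩
  · exact ⟨hP, hP, Or.inr ⟨rfl, hY⟩⟩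

/-- **Rule (b1')**: opposite branches, `X P` more divisible: the sum is on the branch of `P`. -/
theorem rule_b1' (H : Hyp v e₁ e₂) {P Q : G} (h : D.Gen P Q) (hP : InN D v P) (hQ : InN D v Q)
    (ho : Opp D v P Q) (hlt : v (D.X P) < v (D.X Q)) :
    InN D v (P + Q) ∧ v (D.X (P + Q)) = v (D.X P) / v (D.X Q) ∧ Same D v (P + Q) P := by
  have := rule_b1 H (gen_symm h) hQ hP ho.symm hlt
  rwa [add_comm Q P] at this

/-- A point with `X ∈ 𝔪` is in the node region or in the middle zone. -/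
theorem inN_or_mid {P : G} (hP : P ≠ 0) (hlt : v (D.X P) < 1) :
    InN D v P ∨ v (D.X P) ≤ v e₁ := by
  by_cases h : v e₁ < v (D.X P)
  · exact Or.inl ⟨hP, h, hlt⟩
  · exact Or.inr (not_lt.1 h)

/-- Doubling inside the node region is always in general position. -/
theorem InN.gen_self (H : Hyp v e₁ e₂) {P : G} (hP : InN D v P) : D.Gen P P :=
  D.gen_self hP.ne_zero (hP.Y_ne_zero H)

end rules

end Fermat.Agent.S05.Node
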