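import Mathlib
import Fermat.Agent.S05.Defs
import Fermat.Agent.S05.Phase

/-!
# S05 (project L), slice [D], second half: opposite branches and the middle zone

For two points `P`, `Q` of the node region lying on opposite branches:
* `v (X Q) < v (X P)` : `P + Q` is in the node region, on the branch of `Q`, and
  `v (X (P + Q)) * v (X P) = v (X Q)`;
* `v (X P) = v (X Q)` : `P + Q = 0` or `X (P + Q)` is not in the maximal ideal.
For a point of the middle zone (`v (X P) ≤ v e₁ < 1`), `2 P = 0` or `X (2 P)` is not in the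
maximal ideal.
-/

set_option autoImplicit false
set_option linter.unusedSectionVars false

namespace Fermat.Agent.S05.NodeOpp

open Fermat.Agent.S05 Fermat.Agent.S05.Phase

variable {K : Type*} [Field K] [CharZero K] {G : Type*} [AddCommGroup G] {e₁ e₂ : K}
  {D : LegData K G e₁ e₂} {A : ValuationSubring K}

local notation "v" => A.valuation

/-- In the node region `sg` is a unit. -/
theorem v_sg (he2 : v e₂ = 1) {P : G} (hP : D.InN A P) : v (D.sg P) = 1 := by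
  have h1 := sg_sq_add he2.le hP
  have h2 : v (D.sg P ^ 2) = 1 := by
    have : D.sg P ^ 2 = (D.sg P ^ 2 + e₂) - e₂ := by ring
    rw [this, Valuation.map_sub_eq_of_lt_right _ (by rw [he2]; exact h1), he2]
  rw [map_pow] at h2
  exact (pow_left_inj two_ne_zero).mp (by rw [h2, one_pow])

/-- On opposite branches, `sg P - sg Q` is a unit. -/
theorem v_sg_sub_of_oppBr (h2 : v (2 : K) = 1) (he2 : v e₂ = 1) {P Q : G} (hP : D.InN A P)
    (ho : D.OppBr A P Q) : v (D.sg P - D.sg Q) = 1 := by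
  unfold LegData.OppBr at ho
  have h1 : v (2 * D.sg P) = 1 := by rw [map_mul, h2, v_sg he2 hP, one_mul]
  have : D.sg P - D.sg Q = 2 * D.sg P - (D.sg P + D.sg Q) := by ring
  rw [this, Valuation.map_sub_eq_of_lt_left _ (by rw [h1]; exact ho), h1]

/-- The valuation form of `Phi1` and `Phi3` combined. -/
theorem v_chord {P Q : G} (h : D.Gen P Q) (hXP : D.X P ≠ 0) (hXQ : D.X Q ≠ 0) :
    v (D.X (P + Q)) * v (D.X P) * v (D.X Q) * v (D.X Q - D.X P) ^ 2
      = v (D.X P) ^ 2 * v (D.X Q) ^ 2 * v (D.sg P - D.sg Q) ^ 2 := by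
  have h1 := h.Phi1
  have h3 := h.Phi3
  have key : D.X (P + Q) * D.X P * D.X Q * (D.X Q - D.X P) ^ 2
      = D.X P ^ 2 * D.X Q ^ 2 * (D.sg P - D.sg Q) ^ 2 := by
    have h4 : D.Y P * D.X Q - D.Y Q * D.X P = D.X P * D.X Q * (D.sg P - D.sg Q) := by
      unfold LegData.sg
      field_simp
    rw [h1]
    calc D.nu P Q ^ 2 * (D.X Q - D.X P) ^ 2 = (D.nu P Q * (D.X Q - D.X P)) ^ 2 := by ring
      _ = (D.X P * D.X Q * (D.sg P - D.sg Q)) ^ 2 := by rw [h3, h4]
      _ = _ := by ring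
  have := congrArg v key
  simpa only [map_mul, map_pow] using this

/-- `v nu ^ 2 = v (X (P+Q)) * v (X P) * v (X Q)`. -/
theorem v_nu_sq {P Q : G} (h : D.Gen P Q) :
    v (D.nu P Q) ^ 2 = v (D.X (P + Q)) * v (D.X P) * v (D.X Q) := by
  have := congrArg v h.Phi1
  simpa only [map_mul, map_pow] using this.symm

/-- The difference `sg (P + Q) - sg Q` in terms of the line through `P` and `Q`. -/
theorem sg_add_sub {P Q : G} (h : D.Gen P Q) (hXP : D.X P ≠ 0) (hX3 : D.X (P + Q) ≠ 0) :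
    D.sg (P + Q) - D.sg Q
      = -(D.sg P + D.sg Q) + D.nu P Q / D.X P - D.nu P Q / D.X (P + Q) := by
  have hY3 := h.Y_add
  have hY1 := LegData.Y_eq_left (D := D) P Q
  unfold LegData.sg
  rw [hY3, hY1]
  field_simp
  ring

/-- **Opposite branches, different sizes**: the sum lies in the node region on the branch of the
point with the smaller `v (X ·)`. -/
theorem opp_lt (h2 : v (2 : K) = 1) (he2 : v e₂ = 1) {P Q : G} (hP : D.InN A P)
    (hQ : D.InN A Q) (ho : D.OppBr A P Q) (hlt : v (D.X Q) < v (D.X P)) :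
    D.InN A (P + Q) ∧ v (D.X (P + Q)) * v (D.X P) = v (D.X Q) ∧ D.SameBr A (P + Q) Q := by
  obtain ⟨hP0, hXP0, hXP1, hXPe⟩ := hP
  obtain ⟨hQ0, hXQ0, hXQ1, hXQe⟩ := hQ
  have hne : D.X P ≠ D.X Q := fun h => by rw [h] at hlt; exact lt_irrefl _ hlt
  have hgen : D.Gen P Q := D.gen_of_X_ne hP0 hQ0 hne
  have hvP : v (D.X P) ≠ 0 := (Valuation.ne_zero_iff _).mpr hXP0
  have hvQ : v (D.X Q) ≠ 0 := (Valuation.ne_zero_iff _).mpr hXQ0
  have hsub : v (D.X Q - D.X P) = v (D.X P) := Valuation.map_sub_eq_of_lt_right _ hlt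
  have hsg := v_sg_sub_of_oppBr h2 he2 ⟨hP0, hXP0, hXP1, hXPe⟩ ho
  have hc := v_chord (A := A) hgen hXP0 hXQ0
  rw [hsub, hsg, one_pow, mul_one] at hc
  -- `v X3 * v X1 = v X2`
  have hX3 : v (D.X (P + Q)) * v (D.X P) = v (D.X Q) := by
    have h5 : (v (D.X (P + Q)) * v (D.X P)) * (v (D.X P) ^ 2 * v (D.X Q))
        = v (D.X Q) * (v (D.X P) ^ 2 * v (D.X Q)) := by
      calc (v (D.X (P + Q)) * v (D.X P)) * (v (D.X P) ^ 2 * v (D.X Q))
          = v (D.X (P + Q)) * v (D.X P) * v (D.X Q) * v (D.X P) ^ 2 := by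
            simp only [pow_two]; ac_rfl
        _ = v (D.X P) ^ 2 * v (D.X Q) ^ 2 := hc
        _ = _ := by simp only [pow_two]; ac_rfl
    exact mul_right_cancel₀ (mul_ne_zero (pow_ne_zero 2 hvP) hvQ) h5
  have hv3 : v (D.X (P + Q)) ≠ 0 := by
    intro h0
    rw [h0, zero_mul] at hX3
    exact hvQ hX3.symm
  have hX30 : D.X (P + Q) ≠ 0 := (Valuation.ne_zero_iff _).mp hv3
  have hX3lt : v (D.X (P + Q)) < 1 := by
    by_contra hcon
    rw [not_lt] at hcon
    have : v (D.X P) ≤ v (D.X Q) := by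
      calc v (D.X P) = 1 * v (D.X P) := (one_mul _).symm
        _ ≤ v (D.X (P + Q)) * v (D.X P) := mul_le_mul_left hcon _
        _ = v (D.X Q) := hX3
    exact absurd hlt (not_lt.mpr this)
  have hX3e : v e₁ < v (D.X (P + Q)) := by
    calc v e₁ < v (D.X Q) := hXQe
      _ = v (D.X (P + Q)) * v (D.X P) := hX3.symm
      _ ≤ v (D.X (P + Q)) * 1 := mul_le_mul_right hXP1.le _
      _ = v (D.X (P + Q)) := mul_one _
  refine ⟨⟨hgen.add_ne_zero, hX30, hX3lt, hX3e⟩, hX3, ?_⟩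
  -- the branch
  unfold LegData.SameBr
  rw [sg_add_sub hgen hXP0 hX30]
  have hnu : v (D.nu P Q) = v (D.X Q) := by
    have h6 := v_nu_sq (A := A) hgen
    have : v (D.nu P Q) ^ 2 = v (D.X Q) ^ 2 := by
      rw [h6, hX3, pow_two]
    exact (pow_left_inj two_ne_zero).mp this
  have t1 : v (-(D.sg P + D.sg Q)) < 1 := by rw [Valuation.map_neg]; exact ho
  have t2 : v (D.nu P Q / D.X P) < 1 := by
    rw [map_div₀, hnu, div_lt_one₀ (zero_lt_iff.mpr hvP)]
    exact hlt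
  have t3 : v (D.nu P Q / D.X (P + Q)) < 1 := by
    rw [map_div₀, hnu, div_lt_one₀ (zero_lt_iff.mpr hv3), ← hX3]
    calc v (D.X (P + Q)) * v (D.X P) < v (D.X (P + Q)) * 1 :=
          mul_lt_mul_of_pos_left hXP1 (zero_lt_iff.mpr hv3)
      _ = v (D.X (P + Q)) := mul_one _
  exact Valuation.map_sub_lt _ (Valuation.map_add_lt _ t1 t2) t3

/-- Symmetric version of `opp_lt`. -/
theorem opp_gt (h2 : v (2 : K) = 1) (he2 : v e₂ = 1) {P Q : G} (hP : D.InN A P)
    (hQ : D.InN A Q) (ho : D.OppBr A P Q) (hlt : v (D.X P) < v (D.X Q)) :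
    D.InN A (P + Q) ∧ v (D.X (P + Q)) * v (D.X Q) = v (D.X P) ∧ D.SameBr A (P + Q) P := by
  have ho' : D.OppBr A Q P := by
    unfold LegData.OppBr at *
    rwa [add_comm]
  have := opp_lt h2 he2 hQ hP ho' hlt
  rwa [add_comm Q P] at this

/-- **Opposite branches, equal sizes**: the sum leaves the maximal ideal. -/
theorem opp_eq (h2 : v (2 : K) = 1) (he2 : v e₂ = 1) {P Q : G} (hP : D.InN A P)
    (hQ : D.InN A Q) (ho : D.OppBr A P Q) (heq : v (D.X P) = v (D.X Q)) :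
    P + Q = 0 ∨ 1 ≤ v (D.X (P + Q)) := by
  rcases D.gen_or_add_eq_zero hP.1 hQ.1 with hgen | h0
  swap
  · exact Or.inl h0
  right
  have hP' := hP
  obtain ⟨hP0, hXP0, hXP1, hXPe⟩ := hP
  obtain ⟨hQ0, hXQ0, hXQ1, hXQe⟩ := hQ
  have hvP : v (D.X P) ≠ 0 := (Valuation.ne_zero_iff _).mpr hXP0
  have hsg := v_sg_sub_of_oppBr h2 he2 hP' ho
  have hne : D.X P ≠ D.X Q := by
    intro hX
    obtain ⟨_, _, h | ⟨rfl, _⟩⟩ := hgen
    · exact h hX
    · rw [sub_self, map_zero] at hsg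
      exact zero_ne_one hsg
  have hsub0 : v (D.X Q - D.X P) ≠ 0 :=
    (Valuation.ne_zero_iff _).mpr (sub_ne_zero.mpr (Ne.symm hne))
  have hsub : v (D.X Q - D.X P) ≤ v (D.X P) :=
    Valuation.map_sub_le _ heq.symm.le le_rfl
  have hc := v_chord (A := A) hgen hXP0 hXQ0
  rw [hsg, one_pow, mul_one, ← heq] at hc
  -- `v X3 * w ^ 2 = u ^ 2`
  have h5 : v (D.X (P + Q)) * v (D.X Q - D.X P) ^ 2 = v (D.X P) ^ 2 := by
    have h6 : (v (D.X (P + Q)) * v (D.X Q - D.X P) ^ 2) * (v (D.X P) ^ 2)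
        = v (D.X P) ^ 2 * v (D.X P) ^ 2 := by
      calc (v (D.X (P + Q)) * v (D.X Q - D.X P) ^ 2) * (v (D.X P) ^ 2)
          = v (D.X (P + Q)) * v (D.X P) * v (D.X P) * v (D.X Q - D.X P) ^ 2 := by
            simp only [pow_two]; ac_rfl
        _ = _ := hc
    exact mul_right_cancel₀ (pow_ne_zero 2 hvP) h6
  by_contra hcon
  rw [not_le] at hcon
  have h7 : v (D.X (P + Q)) * v (D.X Q - D.X P) ^ 2 < v (D.X P) ^ 2 := by
    calc v (D.X (P + Q)) * v (D.X Q - D.X P) ^ 2 < 1 * v (D.X Q - D.X P) ^ 2 :=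
          mul_lt_mul_of_pos_right hcon (zero_lt_iff.mpr (pow_ne_zero 2 hsub0))
      _ = v (D.X Q - D.X P) ^ 2 := one_mul _
      _ ≤ v (D.X P) ^ 2 := pow_le_pow_left' hsub 2
  rw [h5] at h7
  exact lt_irrefl _ h7

/-- **Doubling the middle zone**: if `v (X P) ≤ v e₁ < 1` then `2 P = 0` or `X (2 P)` is not in
the maximal ideal. -/
theorem dbl_mid (h2 : v (2 : K) = 1) (he2 : v e₂ = 1) (he1 : v e₁ < 1) {P : G} (hP : P ≠ 0)
    (hle : v (D.X P) ≤ v e₁) : P + P = 0 ∨ 1 ≤ v (D.X (P + P)) := by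
  by_cases hY : D.Y P = 0
  · exact Or.inl (D.two_of_Y P hP hY)
  right
  have hgen : D.Gen P P := D.gen_self hP hY
  have heqn := D.eqn P hP
  have hX0 : D.X P ≠ 0 := by
    intro h0
    rw [h0] at heqn
    apply hY
    have : D.Y P ^ 2 = 0 := by rw [heqn]; ring
    exact pow_eq_zero_iff (two_ne_zero) |>.mp this
  have hvX : v (D.X P) ≠ 0 := (Valuation.ne_zero_iff _).mpr hX0
  have hvY : v (D.Y P) ≠ 0 := (Valuation.ne_zero_iff _).mpr hY
  -- `X(2P) * (2Y)^2 = (X^2 - e₁ e₂)^2`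
  have key : D.X (P + P) * (2 * D.Y P) ^ 2 = (D.X P ^ 2 - e₁ * e₂) ^ 2 := by
    have h1 := hgen.Phi1
    have hl := LegData.lam_self_mul (D := D) hY
    have hnu : D.nu P P * (2 * D.Y P) = -(D.X P * (D.X P ^ 2 - e₁ * e₂)) := by
      unfold LegData.nu
      linear_combination (-D.X P) * hl + 2 * heqn
    have h3 : D.X (P + P) * (2 * D.Y P) ^ 2 * D.X P ^ 2 = (D.X P ^ 2 - e₁ * e₂) ^ 2 * D.X P ^ 2 := by
      calc D.X (P + P) * (2 * D.Y P) ^ 2 * D.X P ^ 2
          = (D.X (P + P) * D.X P * D.X P) * (2 * D.Y P) ^ 2 := by ring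
        _ = D.nu P P ^ 2 * (2 * D.Y P) ^ 2 := by rw [h1]
        _ = (D.nu P P * (2 * D.Y P)) ^ 2 := by ring
        _ = _ := by rw [hnu]; ring
    exact mul_right_cancel₀ (pow_ne_zero 2 hX0) h3
  have hk := congrArg v key
  simp only [map_mul, map_pow, h2, one_mul] at hk
  -- `v (X^2 - e₁ e₂) = v e₁`
  have hb : v (D.X P ^ 2 - e₁ * e₂) = v e₁ := by
    have hlt : v (D.X P ^ 2) < v (e₁ * e₂) := by
      rw [map_pow, map_mul, he2, mul_one, pow_two]
      have hX1 : v (D.X P) < 1 := lt_of_le_of_lt hle he1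
      calc v (D.X P) * v (D.X P) < 1 * v (D.X P) :=
            mul_lt_mul_of_pos_right hX1 (zero_lt_iff.mpr hvX)
        _ = v (D.X P) := one_mul _
        _ ≤ v e₁ := hle
    rw [Valuation.map_sub_eq_of_lt_right _ hlt, map_mul, he2, mul_one]
  -- `v (Y^2) ≤ v e₁ ^ 2`
  have hy : v (D.Y P) ^ 2 ≤ v e₁ ^ 2 := by
    have := congrArg v heqn
    simp only [map_mul, map_pow] at this
    rw [this]
    have ha : v (D.X P - e₁) ≤ v e₁ := Valuation.map_sub_le _ hle le_rfl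
    have hb' : v (D.X P - e₂) ≤ 1 :=
      Valuation.map_sub_le _ (hle.trans he1.le) he2.le
    calc v (D.X P) * v (D.X P - e₁) * v (D.X P - e₂) ≤ v e₁ * v e₁ * 1 :=
          mul_le_mul' (mul_le_mul' hle ha) hb'
      _ = v e₁ ^ 2 := by rw [mul_one, pow_two]
  rw [hb] at hk
  by_contra hcon
  rw [not_le] at hcon
  have : v (D.X (P + P)) * v (D.Y P) ^ 2 < v e₁ ^ 2 := by
    calc v (D.X (P + P)) * v (D.Y P) ^ 2 < 1 * v (D.Y P) ^ 2 :=
          mul_lt_mul_of_pos_right hcon (zero_lt_iff.mpr (pow_ne_zero 2 hvY))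
      _ = v (D.Y P) ^ 2 := one_mul _
      _ ≤ v e₁ ^ 2 := hy
  rw [hk] at this
  exact lt_irrefl _ this

end Fermat.Agent.S05.NodeOpp
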